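import Mathlib

set_option autoImplicit false

open Module Polynomial

namespace Fermat.Agent.REG

section LemmaQ

variable {X : Type*} [AddCommGroup X]

/-- For a finite abelian group, the index of `n X` is the number of `n`-torsion elements. -/
theorem index_range_nsmul_of_finite [Finite X] (n : ℕ) :
    (nsmulAddMonoidHom (α := X) n).range.index =
      Nat.card (nsmulAddMonoidHom (α := X) n).ker := by
  have h1 := (nsmulAddMonoidHom (α := X) n).range.card_mul_index
  have h2 := (nsmulAddMonoidHom (α := X) n).ker.card_mul_index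
  rw [AddSubgroup.index_ker] at h2
  have hpos : 0 < Nat.card (nsmulAddMonoidHom (α := X) n).range := Nat.card_pos
  apply Nat.eq_of_mul_eq_mul_left hpos
  rw [h1, mul_comm, h2]

/-- **Lemma Q**: for a finitely generated abelian group `X`,
`[X : nX] = n ^ rank X * #X[n]`. -/
theorem index_range_nsmul_eq [Module.Finite ℤ X] (n : ℕ) (hn : n ≠ 0) :
    (nsmulAddMonoidHom (α := X) n).range.index =
      n ^ finrank ℤ X * Nat.card (nsmulAddMonoidHom (α := X) n).ker := by
  set Ts : Submodule ℤ X := Submodule.torsion ℤ X with hTs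
  set T : AddSubgroup X := Ts.toAddSubgroup with hT
  have hTfin : Finite Ts := Module.finite_of_fg_torsion Ts Submodule.torsion_isTorsion
  have hTfin' : Finite T := hTfin
  -- the free quotient
  let F := X ⧸ Ts
  let π : X →+ F := Ts.mkQ.toAddMonoidHom
  have hπ : Function.Surjective π := Ts.mkQ_surjective
  have hker : π.ker = T := by
    ext x
    rw [AddMonoidHom.mem_ker]
    exact Submodule.Quotient.mk_eq_zero Ts
  have hrank : finrank ℤ F = finrank ℤ X := by
    have h := Submodule.finrank_quotient_add_finrank Ts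
    rw [(Submodule.torsion_isTorsion (R := ℤ) (M := X)).finrank_eq_zero, add_zero] at h
    exact h
  set nX : AddSubgroup X := (nsmulAddMonoidHom (α := X) n).range with hnX
  -- step (d)
  have hd : (nX ⊔ T).index = n ^ finrank ℤ X := by
    rw [← hrank, ← AddSubgroup.index_range_nsmul F n, ← hker, ← AddSubgroup.comap_map_eq,
      AddSubgroup.index_comap_of_surjective _ hπ]
    congr 1
    ext y
    constructor
    · rintro ⟨x, ⟨z, rfl⟩, rfl⟩
      exact ⟨π z, by simp⟩
    · rintro ⟨z, rfl⟩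
      obtain ⟨x, rfl⟩ := hπ z
      exact ⟨n • x, ⟨x, rfl⟩, by simp⟩
  have hn' : (n : ℤ) ∈ nonZeroDivisors ℤ :=
    mem_nonZeroDivisors_of_ne_zero (by exact_mod_cast hn)
  -- step (e)
  have he : nX.relIndex (nX ⊔ T) = Nat.card (nsmulAddMonoidHom (α := X) n).ker := by
    rw [AddSubgroup.relIndex_sup_left, ← AddSubgroup.inf_relIndex_right]
    have h1 : nX ⊓ T = T.map (nsmulAddMonoidHom (α := X) n) := by
      ext x
      constructor
      · rintro ⟨⟨y, rfl⟩, hy⟩
        refine ⟨y, ?_, rfl⟩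
        -- `n • y` torsion implies `y` torsion
        obtain ⟨a, ha⟩ := (Submodule.mem_torsion_iff _).mp hy
        refine (Submodule.mem_torsion_iff _).mpr ⟨a * ⟨(n : ℤ), hn'⟩, ?_⟩
        have : (a : ℤ) • (nsmulAddMonoidHom (α := X) n) y = 0 := ha
        simp only [nsmulAddMonoidHom_apply] at this
        rw [Submonoid.smul_def, Submonoid.coe_mul, mul_smul]
        simpa using this
      · rintro ⟨y, hy, rfl⟩
        exact ⟨⟨y, rfl⟩, T.nsmul_mem hy n⟩
    rw [h1, AddSubgroup.relIndex, AddSubgroup.addSubgroupOf_map_nsmulAddMonoidHom_eq_range,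
      index_range_nsmul_of_finite]
    -- `T[n] = X[n]`
    refine Nat.card_congr ⟨fun x => ⟨x.1.1, ?_⟩, fun x => ⟨⟨x.1, ?_⟩, ?_⟩, ?_, ?_⟩
    · have := x.2
      rw [AddMonoidHom.mem_ker] at this ⊢
      exact congrArg Subtype.val this
    · have := x.2
      rw [AddMonoidHom.mem_ker, nsmulAddMonoidHom_apply] at this
      refine (Submodule.mem_torsion_iff _).mpr ⟨⟨(n : ℤ), hn'⟩, ?_⟩
      rw [Submonoid.smul_def]
      show ((n : ℤ)) • (x : X) = 0
      rw [natCast_zsmul]
      exact this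
    · rw [AddMonoidHom.mem_ker]
      apply Subtype.ext
      have := x.2
      rw [AddMonoidHom.mem_ker] at this
      exact this
    · intro x; rfl
    · intro x; rfl
  rw [← AddSubgroup.relIndex_mul_index (le_sup_left : nX ≤ nX ⊔ T), hd, he, mul_comm]

end LemmaQ



/-- `(X - 1)^(p-1) ≡ 1 + X + ... + X^(p-1) mod p`. -/
theorem exists_sub_one_pow_eq_geom_sum_add (p : ℕ) [hp : Fact p.Prime] :
    ∃ q : ℤ[X], (X - 1 : ℤ[X]) ^ (p - 1) = (∑ i ∈ Finset.range p, X ^ i) + C (p : ℤ) * q := by
  have h : ((X - 1 : ℤ[X]) ^ (p - 1) - ∑ i ∈ Finset.range p, X ^ i).map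
      (Int.castRingHom (ZMod p)) = 0 := by
    simp only [Polynomial.map_sub, Polynomial.map_pow, Polynomial.map_X, Polynomial.map_one,
      Polynomial.map_sum]
    have h1 : ((X - 1 : (ZMod p)[X]) ^ (p - 1)) * (X - 1) =
        (∑ i ∈ Finset.range p, X ^ i) * (X - 1) := by
      rw [← pow_succ, Nat.sub_add_cancel hp.out.one_le, geom_sum_mul, sub_pow_char, one_pow]
    have h2 : (X - 1 : (ZMod p)[X]) ≠ 0 := by
      have := X_sub_C_ne_zero (1 : ZMod p)
      simpa using this
    exact sub_eq_zero.mpr (mul_right_cancel₀ h2 h1)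
  have hdvd : C (p : ℤ) ∣ ((X - 1 : ℤ[X]) ^ (p - 1) - ∑ i ∈ Finset.range p, X ^ i) := by
    rw [Polynomial.C_dvd_iff_dvd_coeff]
    intro i
    have := congrArg (fun f => f.coeff i) h
    simp only [coeff_map, coeff_zero] at this
    exact (ZMod.intCast_zmod_eq_zero_iff_dvd _ _).mp this
  obtain ⟨q, hq⟩ := hdvd
  exact ⟨q, by rw [← hq]; ring⟩



section Bridge

variable {A : Type*} [AddCommGroup A]

/-- The identity map between the `ℤ`-submodule and the additive subgroup. -/
def intSubmoduleEquiv (H : AddSubgroup A) : ↥(AddSubgroup.toIntSubmodule H) ≃ₗ[ℤ] ↥H :=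
  AddEquiv.toIntLinearEquiv
    { toFun := fun x => ⟨x.1, x.2⟩
      invFun := fun x => ⟨x.1, x.2⟩
      left_inv := fun _ => rfl
      right_inv := fun _ => rfl
      map_add' := fun _ _ => rfl }

theorem finrank_toIntSubmodule (H : AddSubgroup A) :
    finrank ℤ ↥(AddSubgroup.toIntSubmodule H) = finrank ℤ ↥H :=
  (intSubmoduleEquiv H).finrank_eq

theorem finite_addSubgroup [Module.Finite ℤ A] (H : AddSubgroup A) : Module.Finite ℤ ↥H :=
  Module.Finite.equiv (intSubmoduleEquiv H)

theorem finrank_addSubgroup_mono [Module.Finite ℤ A] {H K : AddSubgroup A} (h : H ≤ K) :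
    finrank ℤ ↥H ≤ finrank ℤ ↥K := by
  rw [← finrank_toIntSubmodule, ← finrank_toIntSubmodule]
  exact Submodule.finrank_mono ((OrderIso.le_iff_le _).mpr h)

/-- Rank–nullity, as an inequality, for an endomorphism of a f.g. abelian group. -/
theorem finrank_le_finrank_ker_add [Module.Finite ℤ A] (f : A →+ A) (H : AddSubgroup A)
    (h : f.range ≤ H) : finrank ℤ A ≤ finrank ℤ ↥f.ker + finrank ℤ ↥H := by
  have h1 := Submodule.finrank_quotient_add_finrank (LinearMap.ker f.toIntLinearMap)
  have h2 := f.toIntLinearMap.quotKerEquivRange.finrank_eq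
  have h3 : finrank ℤ ↥(LinearMap.ker f.toIntLinearMap) = finrank ℤ ↥f.ker := by
    rw [← finrank_toIntSubmodule]
    rfl
  have h4 : finrank ℤ ↥(LinearMap.range f.toIntLinearMap) ≤ finrank ℤ ↥H := by
    rw [← finrank_toIntSubmodule]
    apply Submodule.finrank_mono
    rintro x ⟨y, rfl⟩
    exact h ⟨y, rfl⟩
  omega

/-- The `n`-torsion of a finitely generated abelian group is finite. -/
theorem finite_ker_nsmul [Module.Finite ℤ A] (n : ℕ) (hn : n ≠ 0) :
    Finite (nsmulAddMonoidHom (α := A) n).ker := by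
  have : Module.Finite ℤ ↥(nsmulAddMonoidHom (α := A) n).ker := finite_addSubgroup _
  apply Module.finite_of_fg_torsion
  intro x
  refine ⟨⟨(n : ℤ), mem_nonZeroDivisors_of_ne_zero (by exact_mod_cast hn)⟩, ?_⟩
  rw [Submonoid.smul_def]
  show ((n : ℤ)) • x = 0
  rw [natCast_zsmul]
  have := x.2
  rw [AddMonoidHom.mem_ker] at this
  exact Subtype.ext this

end Bridge

section Chain

variable {A : Type*} [AddCommGroup A]

theorem relIndex_sup_sup_dvd (H K N : AddSubgroup A) (h : H ≤ K) :
    (H ⊔ N).relIndex (K ⊔ N) ∣ H.relIndex K := by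
  have h1 : K ⊔ N = (H ⊔ N) ⊔ K := by
    rw [sup_comm K N, sup_assoc, sup_comm N K, ← sup_assoc, sup_eq_right.mpr h, sup_comm]
  rw [h1, AddSubgroup.relIndex_sup_left, ← AddSubgroup.inf_relIndex_right]
  exact AddSubgroup.relIndex_dvd_of_le_left K (le_inf (le_sup_left) h)

/-- The iterates of an additive endomorphism, as additive homomorphisms. -/
def iterHom (φ : A →+ A) : ℕ → (A →+ A)
  | 0 => AddMonoidHom.id A
  | k + 1 => (iterHom φ k).comp φ

theorem iterHom_apply (φ : A →+ A) (k : ℕ) (a : A) : iterHom φ k a = φ^[k] a := by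
  induction k generalizing a with
  | zero => rfl
  | succ k ih =>
    rw [Function.iterate_succ_apply]
    exact ih (φ a)

/-- `[M : φ^k M]` divides `[M : φ M]^k`. -/
theorem relIndex_map_iterHom_dvd (φ : A →+ A) (M : AddSubgroup A) (hM : M.map φ ≤ M) (k : ℕ) :
    (M.map (iterHom φ k)).relIndex M ∣ ((M.map φ).relIndex M) ^ k := by
  induction k with
  | zero =>
    have : M.map (iterHom φ 0) = M := AddSubgroup.map_id M
    rw [this, AddSubgroup.relIndex_self, pow_zero]
  | succ k ih =>
    have hk : M.map (iterHom φ k) ≤ M := by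
      clear ih
      induction k with
      | zero => exact (AddSubgroup.map_id M).le
      | succ j ihj =>
        rintro x ⟨y, hy, rfl⟩
        exact ihj ⟨φ y, hM ⟨y, hy, rfl⟩, rfl⟩
    have h1 : M.map (iterHom φ (k + 1)) = (M.map φ).map (iterHom φ k) := by
      rw [AddSubgroup.map_map]
      rfl
    have h2 : M.map (iterHom φ (k + 1)) ≤ M.map (iterHom φ k) := by
      rw [h1]
      exact AddSubgroup.map_mono hM
    rw [← AddSubgroup.relIndex_mul_relIndex _ _ _ h2 hk]
    have h3 : (M.map φ).relIndex M ^ (k + 1) =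
        (M.map φ).relIndex M * (M.map φ).relIndex M ^ k := pow_succ' _ _
    rw [h3]
    refine mul_dvd_mul ?_ ih
    rw [h1, AddSubgroup.relIndex_map_map]
    exact relIndex_sup_sup_dvd _ _ _ hM

end Chain

section Main

/-- **Abstract "Hilbert 92"** (D0): for a finitely generated abelian group `A` with an automorphism
`s` of order `p` such that `rank A = p r - 1`, `rank A^s ≤ r - 1`, `#A^s[p] ≤ p` and `A^s[p] ≠ 0`,
there is an element of norm `0` which is not of the form `s ε - ε`. -/
theorem exists_not_coboundary {A : Type*} [AddCommGroup A] [Module.Finite ℤ A] (p r : ℕ)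
    [hp : Fact p.Prime] (s : A →+ A) (hs : ∀ a, s^[p] a = a) (hA : finrank ℤ A + 1 = p * r)
    (B : AddSubgroup A) (hB : ∀ a, a ∈ B ↔ s a = a) (hrB : finrank ℤ B + 1 ≤ r)
    (hBp : Nat.card {b : B // p • b = 0} ≤ p) (t : A) (ht : s t = t) (ht0 : t ≠ 0)
    (htp : p • t = 0) :
    ∃ η : A, (∑ i ∈ Finset.range p, s^[i] η) = 0 ∧ ∀ ε : A, η ≠ s ε - ε := by
  by_contra hcon
  have hcon' : ∀ η : A, (∑ i ∈ Finset.range p, s^[i] η) = 0 → ∃ ε, η = s ε - ε := by
    intro η hη
    by_contra h
    exact hcon ⟨η, hη, fun ε hε => h ⟨ε, hε⟩⟩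
  have hp0 : p ≠ 0 := hp.out.ne_zero
  have hp1 : 1 < p := hp.out.one_lt
  -- the ring elements
  let S : Module.End ℤ A := s.toIntLinearMap
  have hSpow : ∀ (i : ℕ) (a : A), (S ^ i) a = s^[i] a := by
    intro i a
    rw [Module.End.pow_apply]
    rfl
  let δ : Module.End ℤ A := S - 1
  let ν : Module.End ℤ A := ∑ i ∈ Finset.range p, S ^ i
  have hSp : S ^ p = 1 := by
    ext a
    rw [hSpow]
    exact hs a
  have hδν : δ * ν = 0 := by rw [mul_geom_sum, hSp, sub_self]
  have hνδ : ν * δ = 0 := by rw [geom_sum_mul, hSp, sub_self]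
  let δ' : A →+ A := δ.toAddMonoidHom
  let ν' : A →+ A := ν.toAddMonoidHom
  have hν_apply : ∀ a, ν' a = ∑ i ∈ Finset.range p, s^[i] a := by
    intro a
    show ν a = _
    rw [LinearMap.sum_apply]
    exact Finset.sum_congr rfl fun i _ => hSpow i a
  have hδ_apply : ∀ a, δ' a = s a - a := fun a => rfl
  have hδν' : ∀ a, δ' (ν' a) = 0 := by
    intro a
    have : (δ * ν) a = 0 := by rw [hδν]; rfl
    exact this
  have hνδ' : ∀ a, ν' (δ' a) = 0 := by
    intro a
    have : (ν * δ) a = 0 := by rw [hνδ]; rfl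
    exact this
  -- the subgroups
  let M : AddSubgroup A := ν'.ker
  have hBker : B = δ'.ker := by
    ext a
    rw [hB, AddMonoidHom.mem_ker, hδ_apply, sub_eq_zero]
  have hMrange : M = δ'.range := by
    apply le_antisymm
    · intro η hη
      obtain ⟨ε, hε⟩ := hcon' η (by rw [← hν_apply]; exact hη)
      exact ⟨ε, by rw [hδ_apply, hε]⟩
    · rintro _ ⟨ε, rfl⟩
      exact hνδ' ε
  have hνB : ∀ b ∈ B, ν' b = p • b := by
    intro b hb
    rw [hν_apply]
    have : ∀ i, s^[i] b = b := fun i => Function.iterate_fixed ((hB b).mp hb) i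
    simp only [this, Finset.sum_const, Finset.card_range]
  have hνrange : ν'.range ≤ B := by
    rintro _ ⟨a, rfl⟩
    rw [hBker]
    exact hδν' a
  have hMstable : M.map δ' ≤ M := by
    rintro _ ⟨m, _, rfl⟩
    rw [hMrange]
    exact ⟨m, rfl⟩
  -- ranks
  set nB := finrank ℤ ↥B with hnB
  set nM := finrank ℤ ↥M with hnM
  have hrank : finrank ℤ A ≤ nM + nB := finrank_le_finrank_ker_add ν' B hνrange
  have hBfin : Module.Finite ℤ ↥B := finite_addSubgroup B
  have hMfin : Module.Finite ℤ ↥M := finite_addSubgroup M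
  -- (γ) `[M : δM] ∣ [B : pB]`
  have hγ1 : (M.map δ').relIndex M = (M ⊔ B).index := by
    have h := AddSubgroup.relIndex_map_map δ' M ⊤
    rw [← AddMonoidHom.range_eq_map, ← hMrange, ← hBker, top_sup_eq,
      AddSubgroup.relIndex_top_right] at h
    exact h
  have hpBmap : (M ⊔ B).map ν' = B.map (nsmulAddMonoidHom (α := A) p) := by
    rw [AddSubgroup.map_sup]
    have : M.map ν' = ⊥ := (AddSubgroup.map_eq_bot_iff _).mpr le_rfl
    rw [this, bot_sup_eq]
    ext x
    constructor
    · rintro ⟨b, hb, rfl⟩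
      exact ⟨b, hb, (hνB b hb).symm⟩
    · rintro ⟨b, hb, rfl⟩
      exact ⟨b, hb, hνB b hb⟩
  have hγ2 : (B.map (nsmulAddMonoidHom (α := A) p)).relIndex ν'.range = (M ⊔ B).index := by
    have h := AddSubgroup.relIndex_map_map ν' (M ⊔ B) ⊤
    rw [← AddMonoidHom.range_eq_map, top_sup_eq, AddSubgroup.relIndex_top_right, hpBmap] at h
    have h1 : (M ⊔ B) ⊔ ν'.ker = M ⊔ B := sup_eq_left.mpr le_sup_left
    rw [h1] at h
    exact h
  have hQB : (B.map (nsmulAddMonoidHom (α := A) p)).relIndex B =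
      p ^ nB * Nat.card (nsmulAddMonoidHom (α := ↥B) p).ker := by
    rw [AddSubgroup.relIndex, AddSubgroup.addSubgroupOf_map_nsmulAddMonoidHom_eq_range,
      index_range_nsmul_eq p hp0]
  have hBp' : Nat.card (nsmulAddMonoidHom (α := ↥B) p).ker ≤ p := by
    refine le_trans (le_of_eq ?_) hBp
    exact Nat.card_congr (Equiv.subtypeEquivRight fun b => by rw [AddMonoidHom.mem_ker]; rfl)
  have hBpos : 0 < Nat.card (nsmulAddMonoidHom (α := ↥B) p).ker := by
    have := finite_ker_nsmul (A := ↥B) p hp0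
    exact Nat.card_pos
  have hd_dvd : (M.map δ').relIndex M ∣
      p ^ nB * Nat.card (nsmulAddMonoidHom (α := ↥B) p).ker := by
    rw [← hQB, hγ1, ← hγ2]
    have hle1 : B.map (nsmulAddMonoidHom (α := A) p) ≤ ν'.range := by
      rintro _ ⟨b, hb, rfl⟩
      exact ⟨b, hνB b hb⟩
    exact Dvd.intro _ (AddSubgroup.relIndex_mul_relIndex _ _ _ hle1 hνrange)
  have hd_le : (M.map δ').relIndex M ≤ p ^ (nB + 1) := by
    refine le_trans (Nat.le_of_dvd (Nat.mul_pos (pow_pos hp.out.pos _) hBpos) hd_dvd) ?_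
    rw [pow_succ]
    exact Nat.mul_le_mul_left _ hBp'
  have hd0 : (M.map δ').relIndex M ≠ 0 := by
    intro h0
    rw [h0] at hd_dvd
    have := Nat.eq_zero_of_zero_dvd hd_dvd
    exact (Nat.mul_pos (pow_pos hp.out.pos _) hBpos).ne' this
  -- (β) `[M : pM] ∣ d ^ (p - 1)`
  obtain ⟨q, hq⟩ := exists_sub_one_pow_eq_geom_sum_add p
  let Q : Module.End ℤ A := aeval S q
  have hδpow : δ ^ (p - 1) = ν + (p : Module.End ℤ A) * Q := by
    have h := congrArg (aeval S) hq
    simp only [map_pow, map_sub, aeval_X, map_one, map_add, map_sum, map_mul, map_natCast] at h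
    exact h
  have hνQ : ν * Q = Q * ν := by
    have h1 : ν = aeval S (∑ i ∈ Finset.range p, (X : ℤ[X]) ^ i) := by
      simp only [map_sum, map_pow, aeval_X]
      rfl
    rw [h1, ← map_mul, ← map_mul, mul_comm]
  have hDle : M.map (iterHom δ' (p - 1)) ≤ M.map (nsmulAddMonoidHom (α := A) p) := by
    rintro _ ⟨m, hm, rfl⟩
    have h2 : ν m = 0 := hm
    refine ⟨Q m, ?_, ?_⟩
    · show ν (Q m) = 0
      have h1 : (ν * Q) m = (Q * ν) m := by rw [hνQ]
      rw [Module.End.mul_apply, Module.End.mul_apply, h2, map_zero] at h1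
      exact h1
    · rw [iterHom_apply]
      show p • Q m = δ^[p - 1] m
      rw [← Module.End.pow_apply, hδpow, LinearMap.add_apply, h2, zero_add,
        Module.End.mul_apply, Module.End.natCast_apply]
  have hβ : (M.map (nsmulAddMonoidHom (α := A) p)).relIndex M ∣
      (M.map δ').relIndex M ^ (p - 1) :=
    (AddSubgroup.relIndex_dvd_of_le_left M hDle).trans
      (relIndex_map_iterHom_dvd δ' M hMstable (p - 1))
  -- (α) `[M : pM] = p ^ nM * #M[p] ≥ p ^ (nM + 1)`
  have hQM : (M.map (nsmulAddMonoidHom (α := A) p)).relIndex M =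
      p ^ nM * Nat.card (nsmulAddMonoidHom (α := ↥M) p).ker := by
    rw [AddSubgroup.relIndex, AddSubgroup.addSubgroupOf_map_nsmulAddMonoidHom_eq_range,
      index_range_nsmul_eq p hp0]
  have htM : t ∈ M := by
    show ν' t = 0
    rw [hνB t ((hB t).mpr ht), htp]
  have hMp : p ≤ Nat.card (nsmulAddMonoidHom (α := ↥M) p).ker := by
    have hfin := finite_ker_nsmul (A := ↥M) p hp0
    let t' : (nsmulAddMonoidHom (α := ↥M) p).ker := ⟨⟨t, htM⟩, by
      rw [AddMonoidHom.mem_ker]
      exact Subtype.ext htp⟩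
    have ht'0 : t' ≠ 0 := by
      intro h
      exact ht0 (congrArg (fun x : (nsmulAddMonoidHom (α := ↥M) p).ker => ((x : ↥M) : A)) h)
    have ht'p : p • t' = 0 := by
      apply Subtype.ext
      apply Subtype.ext
      exact htp
    have h1 : addOrderOf t' = p := addOrderOf_eq_prime ht'p ht'0
    have h2 := addOrderOf_dvd_natCard t'
    rw [h1] at h2
    exact Nat.le_of_dvd Nat.card_pos h2
  -- conclusion
  have h1 : p ^ (nM + 1) ≤ (M.map δ').relIndex M ^ (p - 1) := by
    have h2 : p ^ nM * Nat.card (nsmulAddMonoidHom (α := ↥M) p).ker ≤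
        (M.map δ').relIndex M ^ (p - 1) := by
      rw [← hQM]
      exact Nat.le_of_dvd (pow_pos (Nat.pos_of_ne_zero hd0) _) hβ
    refine le_trans ?_ h2
    rw [pow_succ]
    exact Nat.mul_le_mul_left _ hMp
  have h2 : (M.map δ').relIndex M ^ (p - 1) ≤ p ^ ((nB + 1) * (p - 1)) := by
    rw [pow_mul]
    exact Nat.pow_le_pow_left hd_le _
  have h3 : nM + 1 ≤ (nB + 1) * (p - 1) :=
    (Nat.pow_le_pow_iff_right hp1).mp (h1.trans h2)
  have h4 : (nB + 1) * (p - 1) ≤ r * (p - 1) := Nat.mul_le_mul_right _ hrB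
  have h5 : p * r = r * (p - 1) + r := by
    conv_lhs => rw [← Nat.sub_add_cancel hp.out.one_le]
    ring
  omega

end Main

end Fermat.Agent.REG
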