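import Fermat.Agent.REG.PID_helper1_Basic

namespace Fermat.Agent.REG

open NumberField Ideal Finset Polynomial IsCyclotomicExtension.Rat


theorem geom_sum_11_23 : ∑ i ∈ range 11, ((13 : ℤ) : ZMod 23) ^ i = 0 := by decide

theorem eval_cert_11_23 : (1 - ((13 : ℤ) : ZMod 23) + ((13 : ℤ) : ZMod 23) ^ 3 : ZMod 23) = 0 := by decide

/-- A principal prime of `ℤ[ζ_11]` above `23`, generated by `1 - ζ + ζ ^ 3`. -/
theorem principal_11_23 (K : Type*) [Field K] [NumberField K] [IsCyclotomicExtension {11} ℚ K] :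
    ∃ P ∈ primesOver (span {((23 : ℕ) : ℤ)}) (𝓞 K), Submodule.IsPrincipal P := by
  have : Fact (Nat.Prime 11) := ⟨by norm_num⟩
  have : Fact (Nat.Prime 23) := ⟨by norm_num⟩
  obtain ⟨ζ, hζ⟩ := IsCyclotomicExtension.exists_isPrimitiveRoot ℚ K (Set.mem_singleton 11)
    (by norm_num)
  have hΦ : 1 + hζ.toInteger + hζ.toInteger ^ 2 + hζ.toInteger ^ 3 + hζ.toInteger ^ 4 + hζ.toInteger ^ 5 + hζ.toInteger ^ 6 + hζ.toInteger ^ 7 + hζ.toInteger ^ 8 + hζ.toInteger ^ 9 + hζ.toInteger ^ 10 = 0 := by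
    have := hζ.toInteger_isPrimitiveRoot.geom_sum_eq_zero (by norm_num)
    simpa [Finset.sum_range_succ] using this
  refine exists_principal_of_cert hζ 23 13 geom_sum_11_23
    (1 - hζ.toInteger + hζ.toInteger ^ 3)
    (8 - 2 * hζ.toInteger - hζ.toInteger ^ 2 - 8 * hζ.toInteger ^ 3 - 5 * hζ.toInteger ^ 4 - 3 * hζ.toInteger ^ 5 + 6 * hζ.toInteger ^ 6 + 12 * hζ.toInteger ^ 7 + 16 * hζ.toInteger ^ 8 + 11 * hζ.toInteger ^ 9)
    (-5 + hζ.toInteger + 4 * hζ.toInteger ^ 3 + 2 * hζ.toInteger ^ 4 + hζ.toInteger ^ 5 - 4 * hζ.toInteger ^ 6 - 7 * hζ.toInteger ^ 7 - 9 * hζ.toInteger ^ 8 - 6 * hζ.toInteger ^ 9) ?_ ?_ ?_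
  · push_cast
    linear_combination (-15 + 5 * hζ.toInteger + 11 * hζ.toInteger ^ 2) * hΦ
  · push_cast
    linear_combination (8 - 3 * hζ.toInteger - 6 * hζ.toInteger ^ 2) * hΦ
  · intro g hg
    simp only [map_add, map_sub, map_pow, map_one, hg]
    exact eval_cert_11_23



section
open Module InfinitePlace Nat Real

theorem minkowski_eleven (K : Type*) [Field K] [NumberField K]
    [IsCyclotomicExtension {11} ℚ K] :
    (4 / π) ^ nrComplexPlaces K *
      ((finrank ℚ K)! / (finrank ℚ K) ^ (finrank ℚ K) * √|discr K|) < (66 : ℕ) + 1 := by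
  have : Fact (Nat.Prime 11) := ⟨by norm_num⟩
  rw [discr_prime 11 K, IsCyclotomicExtension.finrank (n := 11) K
    (cyclotomic.irreducible_rat (by norm_num)), nrComplexPlaces_eq_totient_div_two 11,
    totient_prime (by norm_num : Nat.Prime 11)]
  have h6 : (10 : ℕ)! = 3628800 := by decide
  norm_num [h6]
  have h1 : 4 / π ≤ 200 / 157 := by
    rw [div_le_div_iff₀ Real.pi_pos (by norm_num)]
    have := Real.pi_gt_d2
    linarith
  have h2 : √2357947691 ≤ 48560 := (Real.sqrt_le_left (by norm_num)).mpr (by norm_num)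
  have h3 : (0 : ℝ) ≤ 4 / π := by positivity
  calc (4 / π) ^ 5 * (567 / 1562500 * √2357947691)
      ≤ (200 / 157) ^ 5 * (567 / 1562500 * 48560) := by gcongr
    _ < 67 := by norm_num


end

/-- `ℤ[ζ_11]` is a principal ideal domain. -/
theorem pid_eleven (K : Type*) [Field K] [NumberField K] [IsCyclotomicExtension {11} ℚ K] :
    IsPrincipalIdealRing (𝓞 K) := by
  have : Fact (Nat.Prime 11) := ⟨by norm_num⟩
  refine pid_of_bound 11 K 66 (minkowski_eleven K) ?_
  intro q hq _ f hf hmod hle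
  have h2 : 2 ≤ q ^ f := le_trans hq.two_le (Nat.le_self_pow hf.ne' q)
  obtain ⟨n, hn⟩ : ∃ n, n = q ^ f := ⟨_, rfl⟩
  rw [← hn] at hmod hle h2
  have hcases : n = 12 ∨ n = 23 ∨ n = 34 ∨ n = 45 ∨ n = 56 := by omega
  rcases hcases with h | h | h | h | h
  · exfalso
    have e1 : 2 = q := eq_of_prime_dvd_pow hq (by norm_num) (by rw [← hn, h]; try norm_num)
    have e2 : 3 = q := eq_of_prime_dvd_pow hq (by norm_num) (by rw [← hn, h]; try norm_num)
    omega
  · have e1 : 23 = q := eq_of_prime_dvd_pow hq (by norm_num) (by rw [← hn, h]; try norm_num)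
    subst e1
    exact principal_11_23 K
  · exfalso
    have e1 : 2 = q := eq_of_prime_dvd_pow hq (by norm_num) (by rw [← hn, h]; try norm_num)
    have e2 : 17 = q := eq_of_prime_dvd_pow hq (by norm_num) (by rw [← hn, h]; try norm_num)
    omega
  · exfalso
    have e1 : 3 = q := eq_of_prime_dvd_pow hq (by norm_num) (by rw [← hn, h]; try norm_num)
    have e2 : 5 = q := eq_of_prime_dvd_pow hq (by norm_num) (by rw [← hn, h]; try norm_num)
    omega
  · exfalso
    have e1 : 2 = q := eq_of_prime_dvd_pow hq (by norm_num) (by rw [← hn, h]; try norm_num)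
    have e2 : 7 = q := eq_of_prime_dvd_pow hq (by norm_num) (by rw [← hn, h]; try norm_num)
    omega


end Fermat.Agent.REG
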