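import Fermat.Agent.REG.PID_helper1_Basic

namespace Fermat.Agent.REG

open NumberField Ideal Finset Polynomial IsCyclotomicExtension.Rat Module InfinitePlace Nat Real

theorem minkowski_seven (K : Type*) [Field K] [NumberField K]
    [IsCyclotomicExtension {7} ℚ K] :
    (4 / π) ^ nrComplexPlaces K *
      ((finrank ℚ K)! / (finrank ℚ K) ^ (finrank ℚ K) * √|discr K|) < (4 : ℕ) + 1 := by
  have : Fact (Nat.Prime 7) := ⟨by norm_num⟩
  rw [discr_prime 7 K, IsCyclotomicExtension.finrank (n := 7) K
    (cyclotomic.irreducible_rat (by norm_num)), nrComplexPlaces_eq_totient_div_two 7,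
    totient_prime (by norm_num : Nat.Prime 7)]
  have h6 : (6 : ℕ)! = 720 := by decide
  norm_num [h6]
  have h1 : 4 / π ≤ 200 / 157 := by
    rw [div_le_div_iff₀ Real.pi_pos (by norm_num)]
    have := Real.pi_gt_d2
    linarith
  have h2 : √16807 ≤ 130 := (Real.sqrt_le_left (by norm_num)).mpr (by norm_num)
  have h3 : (0 : ℝ) ≤ 4 / π := by positivity
  calc (4 / π) ^ 3 * (5 / 324 * √16807) ≤ (200 / 157) ^ 3 * (5 / 324 * 130) := by gcongr
    _ < 5 := by norm_num

/-- `ℤ[ζ₇]` is a principal ideal domain. -/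
theorem pid_seven (K : Type*) [Field K] [NumberField K] [IsCyclotomicExtension {7} ℚ K] :
    IsPrincipalIdealRing (𝓞 K) := by
  have : Fact (Nat.Prime 7) := ⟨by norm_num⟩
  refine pid_of_bound 7 K 4 (minkowski_seven K) ?_
  intro q hq _ f hf hmod hle
  exfalso
  have h2 : 2 ≤ q := hq.two_le
  have : 2 ^ f ≤ q ^ f := Nat.pow_le_pow_left h2 f
  have hf2 : f ≤ 2 := by
    by_contra hcon
    push Not at hcon
    have : 2 ^ 3 ≤ 2 ^ f := Nat.pow_le_pow_right (by norm_num) hcon
    omega
  interval_cases f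
  · simp only [pow_one] at hmod hle
    interval_cases q <;> omega
  · have : q ≤ 2 := by nlinarith
    interval_cases q
    omega

end Fermat.Agent.REG
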