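import Fermat.Agent.REG.PID_helper1_Basic

namespace Fermat.Agent.REG

open NumberField Ideal Finset Polynomial IsCyclotomicExtension.Rat

/-- The cubic `X ^ 3 - X - 1` over `𝔽₃`, an irreducible factor of `Φ₁₃` modulo `3`. -/
noncomputable def g3 : (ZMod 3)[X] := X ^ 3 - X - 1

theorem g3_natDegree : g3.natDegree = 3 := by
  rw [g3]; compute_degree!

theorem g3_ne_zero : g3 ≠ 0 := by
  intro h
  have := g3_natDegree
  rw [h, natDegree_zero] at this
  omega

theorem g3_irreducible : Irreducible g3 := by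
  apply irreducible_of_degree_le_three_of_not_isRoot
  · rw [g3_natDegree]; decide
  · intro x
    rw [IsRoot, g3]
    simp only [eval_sub, eval_pow, eval_X, eval_one]
    revert x
    decide

instance : Fact (Irreducible g3) := ⟨g3_irreducible⟩

/-- The field with `27` elements. -/
abbrev F27 : Type := AdjoinRoot g3

/-- A root of `X ^ 3 - X - 1` in `F27`. -/
noncomputable def t27 : F27 := AdjoinRoot.root g3

theorem t27_cube : t27 ^ 3 - t27 - 1 = 0 := by
  calc t27 ^ 3 - t27 - 1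
      = eval₂ (AdjoinRoot.of g3) (AdjoinRoot.root g3) (X ^ 3 - X - 1) := by
        simp [eval₂_sub, eval₂_pow, eval₂_X, eval₂_one, t27]
    _ = eval₂ (AdjoinRoot.of g3) (AdjoinRoot.root g3) g3 := rfl
    _ = 0 := AdjoinRoot.eval₂_root g3

theorem three_eq_zero_F27 : (3 : F27) = 0 := by
  have : (3 : F27) = AdjoinRoot.of g3 (3 : ZMod 3) := (map_ofNat (AdjoinRoot.of g3) 3).symm
  rw [this, show (3 : ZMod 3) = 0 from by decide, map_zero]

theorem geom_sum_t27 : ∑ i ∈ range 13, t27 ^ i = 0 := by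
  simp only [Finset.sum_range_succ, Finset.sum_range_zero]
  linear_combination (20 + 15 * t27 + 11 * t27 ^ 2 + 8 * t27 ^ 3 + 6 * t27 ^ 4 + 4 * t27 ^ 5 +
    3 * t27 ^ 6 + 2 * t27 ^ 7 + t27 ^ 8 + t27 ^ 9) * t27_cube +
    (7 + 12 * t27 + 9 * t27 ^ 2) * three_eq_zero_F27

theorem dvd_of_eq_zero_F27 (a b c : ℤ) (h : (a : F27) + b * t27 + c * t27 ^ 2 = 0) :
    (3 : ℤ) ∣ a ∧ (3 : ℤ) ∣ b ∧ (3 : ℤ) ∣ c := by
  have h1 : AdjoinRoot.mk g3 (C (a : ZMod 3) + C (b : ZMod 3) * X + C (c : ZMod 3) * X ^ 2) = 0 := by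
    rw [← h]
    simp [t27]
  rw [AdjoinRoot.mk_eq_zero] at h1
  have hdeg : (C (a : ZMod 3) + C (b : ZMod 3) * X + C (c : ZMod 3) * X ^ 2).natDegree <
      g3.natDegree := by
    rw [g3_natDegree]
    have : (C (a : ZMod 3) + C (b : ZMod 3) * X + C (c : ZMod 3) * X ^ 2).natDegree ≤ 2 := by
      compute_degree
    omega
  have h2 := eq_zero_of_dvd_of_natDegree_lt h1 hdeg
  have c0 := congrArg (fun P => coeff P 0) h2
  have c1 := congrArg (fun P => coeff P 1) h2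
  have c2 := congrArg (fun P => coeff P 2) h2
  simp only [coeff_add, coeff_C_mul, coeff_C_zero, coeff_X_zero, coeff_X_pow, coeff_zero,
    coeff_X_one, coeff_C_succ, coeff_X] at c0 c1 c2
  norm_num at c0 c1 c2
  exact ⟨(ZMod.intCast_zmod_eq_zero_iff_dvd a 3).mp c0, (ZMod.intCast_zmod_eq_zero_iff_dvd b 3).mp c1,
    (ZMod.intCast_zmod_eq_zero_iff_dvd c 3).mp c2⟩


/-- A principal prime of `ℤ[ζ₁₃]` above `3` (of norm `27`), generated by `1 + ζ - ζ ^ 3`. -/
theorem principal_13_3 (K : Type*) [Field K] [NumberField K] [IsCyclotomicExtension {13} ℚ K] :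
    ∃ P ∈ primesOver (span {((3 : ℕ) : ℤ)}) (𝓞 K), Submodule.IsPrincipal P := by
  have : Fact (Nat.Prime 13) := ⟨by norm_num⟩
  obtain ⟨ζ, hζ⟩ := IsCyclotomicExtension.exists_isPrimitiveRoot ℚ K (Set.mem_singleton 13)
    (by norm_num)
  obtain ⟨z, hz⟩ : ∃ z : 𝓞 K, z = hζ.toInteger := ⟨_, rfl⟩
  have hΦ : 1 + z + z ^ 2 + z ^ 3 + z ^ 4 + z ^ 5 + z ^ 6 + z ^ 7 + z ^ 8 + z ^ 9 + z ^ 10 + z ^ 11 + z ^ 12 = 0 := by
    have := hζ.toInteger_isPrimitiveRoot.geom_sum_eq_zero (by norm_num)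
    rw [hz]
    simpa [Finset.sum_range_succ] using this
  obtain ⟨α, hα⟩ : ∃ α : 𝓞 K, α = 1 + z - z ^ 3 := ⟨_, rfl⟩
  obtain ⟨β, hβ⟩ : ∃ β : 𝓞 K, β = -1 - z ^ 2 - z ^ 3 - 2 * z ^ 5 - z ^ 7 - 2 * z ^ 8 + z ^ 9 -
    3 * z ^ 10 := ⟨_, rfl⟩
  have h1 : α * β = 3 := by
    rw [hα, hβ]
    linear_combination (-4 + 3 * z) * hΦ
  set φ := zetaHom hζ t27 geom_sum_t27 with hφ
  have hφz : φ z = t27 := by rw [hz]; exact zetaHom_zeta hζ _ geom_sum_t27
  have hφα : φ α = 0 := by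
    rw [hα]
    simp only [map_add, map_sub, map_pow, map_one, hφz]
    linear_combination -t27_cube
  have hcong : ∀ x : 𝓞 K, ∃ a b c : ℤ, α ∣ x - ((a : 𝓞 K) + b * z + c * z ^ 2) := by
    intro x
    have hx : x ∈ Algebra.adjoin ℤ {hζ.toInteger} := by
      rw [IsCyclotomicExtension.Rat.adjoin_singleton_eq_top hζ]; trivial
    induction hx using Algebra.adjoin_induction with
    | mem x hx =>
      rw [Set.mem_singleton_iff] at hx
      exact ⟨0, 1, 0, by rw [hx, ← hz]; simp⟩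
    | algebraMap n => exact ⟨n, 0, 0, by simp⟩
    | add x y _ _ hx hy =>
      obtain ⟨a, b, c, hn⟩ := hx
      obtain ⟨a', b', c', hm⟩ := hy
      refine ⟨a + a', b + b', c + c', ?_⟩
      have : x + y - (((a + a' : ℤ) : 𝓞 K) + ((b + b' : ℤ) : 𝓞 K) * z +
          ((c + c' : ℤ) : 𝓞 K) * z ^ 2) =
          (x - ((a : 𝓞 K) + b * z + c * z ^ 2)) + (y - ((a' : 𝓞 K) + b' * z + c' * z ^ 2)) := by
        push_cast; ring
      rw [this]
      exact dvd_add hn hm
    | mul x y _ _ hx hy =>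
      obtain ⟨a, b, c, hn⟩ := hx
      obtain ⟨a', b', c', hm⟩ := hy
      refine ⟨a * a' + b * c' + c * b', a * b' + b * a' + b * c' + c * b' + c * c',
        a * c' + b * b' + c * a' + c * c', ?_⟩
      have : x * y - (((a * a' + b * c' + c * b' : ℤ) : 𝓞 K) +
          ((a * b' + b * a' + b * c' + c * b' + c * c' : ℤ) : 𝓞 K) * z +
          ((a * c' + b * b' + c * a' + c * c' : ℤ) : 𝓞 K) * z ^ 2) =
          (x - ((a : 𝓞 K) + b * z + c * z ^ 2)) * y +
          ((a : 𝓞 K) + b * z + c * z ^ 2) * (y - ((a' : 𝓞 K) + b' * z + c' * z ^ 2)) +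
          α * (-(((b * c' + c * b' : ℤ) : 𝓞 K) + ((c * c' : ℤ) : 𝓞 K) * z)) := by
        rw [hα]; push_cast; ring
      rw [this]
      exact dvd_add (dvd_add (hn.mul_right _) (hm.mul_left _)) (dvd_mul_right _ _)
  have hker : RingHom.ker φ = span {α} := by
    apply le_antisymm
    · intro x hx
      rw [RingHom.mem_ker] at hx
      obtain ⟨a, b, c, hn⟩ := hcong x
      rw [mem_span_singleton]
      have hφn : φ ((a : 𝓞 K) + b * z + c * z ^ 2) = 0 := by
        obtain ⟨d, hd⟩ := hn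
        have : (a : 𝓞 K) + b * z + c * z ^ 2 = x - α * d := by rw [← hd]; ring
        rw [this, map_sub, map_mul, hx, hφα]; simp
      simp only [map_add, map_mul, map_pow, map_intCast, hφz] at hφn
      obtain ⟨⟨a₁, rfl⟩, ⟨b₁, rfl⟩, ⟨c₁, rfl⟩⟩ := dvd_of_eq_zero_F27 a b c hφn
      have : x = (x - (((3 * a₁ : ℤ) : 𝓞 K) + ((3 * b₁ : ℤ) : 𝓞 K) * z +
          ((3 * c₁ : ℤ) : 𝓞 K) * z ^ 2)) + α * (β * ((a₁ : 𝓞 K) + b₁ * z + c₁ * z ^ 2)) := by
        rw [← mul_assoc, h1]; push_cast; ring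
      rw [this]
      exact dvd_add hn (dvd_mul_right _ _)
    · rw [span_le, Set.singleton_subset_iff]
      exact hφα
  have h3 : φ ((3 : ℕ) : 𝓞 K) = 0 := by
    rw [map_natCast]; exact_mod_cast three_eq_zero_F27
  refine ⟨span {α}, ⟨?_, ?_⟩, ⟨α, rfl⟩⟩
  · rw [← hker]; exact RingHom.ker_isPrime φ
  · rw [liesOver_iff, ← hker]
    have hqmax : (span {((3 : ℕ) : ℤ)}).IsMaximal :=
      (Ideal.span_singleton_prime (by norm_num)).mpr
        (Nat.prime_iff_prime_int.mp Nat.prime_three) |>.isMaximal (by norm_num)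
    refine hqmax.eq_of_le ?_ ?_
    · rw [Ne, Ideal.eq_top_iff_one, Ideal.under_def, Ideal.mem_comap, RingHom.mem_ker]
      simp
    · rw [span_le, Set.singleton_subset_iff]
      simpa [Ideal.under_def, RingHom.mem_ker] using h3


theorem geom_sum_13_53 : ∑ i ∈ range 13, ((16 : ℤ) : ZMod 53) ^ i = 0 := by decide

theorem eval_cert_13_53 : (1 - ((16 : ℤ) : ZMod 53) + ((16 : ℤ) : ZMod 53) ^ 3 : ZMod 53) = 0 := by decide

/-- A principal prime of `ℤ[ζ_13]` above `53`, generated by `1 - ζ + ζ ^ 3`. -/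
theorem principal_13_53 (K : Type*) [Field K] [NumberField K] [IsCyclotomicExtension {13} ℚ K] :
    ∃ P ∈ primesOver (span {((53 : ℕ) : ℤ)}) (𝓞 K), Submodule.IsPrincipal P := by
  have : Fact (Nat.Prime 13) := ⟨by norm_num⟩
  have : Fact (Nat.Prime 53) := ⟨by norm_num⟩
  obtain ⟨ζ, hζ⟩ := IsCyclotomicExtension.exists_isPrimitiveRoot ℚ K (Set.mem_singleton 13)
    (by norm_num)
  have hΦ : 1 + hζ.toInteger + hζ.toInteger ^ 2 + hζ.toInteger ^ 3 + hζ.toInteger ^ 4 + hζ.toInteger ^ 5 + hζ.toInteger ^ 6 + hζ.toInteger ^ 7 + hζ.toInteger ^ 8 + hζ.toInteger ^ 9 + hζ.toInteger ^ 10 + hζ.toInteger ^ 11 + hζ.toInteger ^ 12 = 0 := by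
    have := hζ.toInteger_isPrimitiveRoot.geom_sum_eq_zero (by norm_num)
    simpa [Finset.sum_range_succ] using this
  refine exists_principal_of_cert hζ 53 16 geom_sum_13_53
    (1 - hζ.toInteger + hζ.toInteger ^ 3)
    (25 + 10 * hζ.toInteger + 19 * hζ.toInteger ^ 2 + 3 * hζ.toInteger ^ 3 + 2 * hζ.toInteger ^ 4 - 8 * hζ.toInteger ^ 5 - 2 * hζ.toInteger ^ 6 + 5 * hζ.toInteger ^ 7 + 22 * hζ.toInteger ^ 8 + 33 * hζ.toInteger ^ 9 + 37 * hζ.toInteger ^ 10 + 24 * hζ.toInteger ^ 11)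
    (-8 - 3 * hζ.toInteger - 6 * hζ.toInteger ^ 2 - hζ.toInteger ^ 3 - hζ.toInteger ^ 4 + 2 * hζ.toInteger ^ 5 - 2 * hζ.toInteger ^ 7 - 7 * hζ.toInteger ^ 8 - 10 * hζ.toInteger ^ 9 - 11 * hζ.toInteger ^ 10 - 7 * hζ.toInteger ^ 11) ?_ ?_ ?_
  · push_cast
    linear_combination (-28 + 13 * hζ.toInteger + 24 * hζ.toInteger ^ 2) * hΦ
  · push_cast
    linear_combination (8 - 4 * hζ.toInteger - 7 * hζ.toInteger ^ 2) * hΦ
  · intro g hg
    simp only [map_add, map_sub, map_pow, map_one, hg]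
    exact eval_cert_13_53


theorem geom_sum_13_79 : ∑ i ∈ range 13, ((62 : ℤ) : ZMod 79) ^ i = 0 := by decide

theorem eval_cert_13_79 : (1 - ((62 : ℤ) : ZMod 79) - ((62 : ℤ) : ZMod 79) ^ 4 : ZMod 79) = 0 := by decide

/-- A principal prime of `ℤ[ζ_13]` above `79`, generated by `1 - ζ - ζ ^ 4`. -/
theorem principal_13_79 (K : Type*) [Field K] [NumberField K] [IsCyclotomicExtension {13} ℚ K] :
    ∃ P ∈ primesOver (span {((79 : ℕ) : ℤ)}) (𝓞 K), Submodule.IsPrincipal P := by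
  have : Fact (Nat.Prime 13) := ⟨by norm_num⟩
  have : Fact (Nat.Prime 79) := ⟨by norm_num⟩
  obtain ⟨ζ, hζ⟩ := IsCyclotomicExtension.exists_isPrimitiveRoot ℚ K (Set.mem_singleton 13)
    (by norm_num)
  have hΦ : 1 + hζ.toInteger + hζ.toInteger ^ 2 + hζ.toInteger ^ 3 + hζ.toInteger ^ 4 + hζ.toInteger ^ 5 + hζ.toInteger ^ 6 + hζ.toInteger ^ 7 + hζ.toInteger ^ 8 + hζ.toInteger ^ 9 + hζ.toInteger ^ 10 + hζ.toInteger ^ 11 + hζ.toInteger ^ 12 = 0 := by
    have := hζ.toInteger_isPrimitiveRoot.geom_sum_eq_zero (by norm_num)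
    simpa [Finset.sum_range_succ] using this
  refine exists_principal_of_cert hζ 79 62 geom_sum_13_79
    (1 - hζ.toInteger - hζ.toInteger ^ 4)
    (62 + 63 * hζ.toInteger + 49 * hζ.toInteger ^ 2 + 8 * hζ.toInteger ^ 3 + 29 * hζ.toInteger ^ 4 + 51 * hζ.toInteger ^ 5 + 59 * hζ.toInteger ^ 6 + 26 * hζ.toInteger ^ 7 + 14 * hζ.toInteger ^ 8 + 24 * hζ.toInteger ^ 9 + 42 * hζ.toInteger ^ 10 + 27 * hζ.toInteger ^ 11)
    (-49 - 49 * hζ.toInteger - 38 * hζ.toInteger ^ 2 - 6 * hζ.toInteger ^ 3 - 23 * hζ.toInteger ^ 4 - 40 * hζ.toInteger ^ 5 - 46 * hζ.toInteger ^ 6 - 20 * hζ.toInteger ^ 7 - 11 * hζ.toInteger ^ 8 - 19 * hζ.toInteger ^ 9 - 33 * hζ.toInteger ^ 10 - 21 * hζ.toInteger ^ 11) ?_ ?_ ?_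
  · push_cast
    linear_combination (-17 + 18 * hζ.toInteger - 15 * hζ.toInteger ^ 2 - 27 * hζ.toInteger ^ 3) * hΦ
  · push_cast
    linear_combination (13 - 14 * hζ.toInteger + 12 * hζ.toInteger ^ 2 + 21 * hζ.toInteger ^ 3) * hΦ
  · intro g hg
    simp only [map_add, map_sub, map_pow, map_one, hg]
    exact eval_cert_13_79


theorem geom_sum_13_131 : ∑ i ∈ range 13, ((80 : ℤ) : ZMod 131) ^ i = 0 := by decide

theorem eval_cert_13_131 : (1 - ((80 : ℤ) : ZMod 131) - ((80 : ℤ) : ZMod 131) ^ 3 : ZMod 131) = 0 := by decide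

/-- A principal prime of `ℤ[ζ_13]` above `131`, generated by `1 - ζ - ζ ^ 3`. -/
theorem principal_13_131 (K : Type*) [Field K] [NumberField K] [IsCyclotomicExtension {13} ℚ K] :
    ∃ P ∈ primesOver (span {((131 : ℕ) : ℤ)}) (𝓞 K), Submodule.IsPrincipal P := by
  have : Fact (Nat.Prime 13) := ⟨by norm_num⟩
  have : Fact (Nat.Prime 131) := ⟨by norm_num⟩
  obtain ⟨ζ, hζ⟩ := IsCyclotomicExtension.exists_isPrimitiveRoot ℚ K (Set.mem_singleton 13)
    (by norm_num)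
  have hΦ : 1 + hζ.toInteger + hζ.toInteger ^ 2 + hζ.toInteger ^ 3 + hζ.toInteger ^ 4 + hζ.toInteger ^ 5 + hζ.toInteger ^ 6 + hζ.toInteger ^ 7 + hζ.toInteger ^ 8 + hζ.toInteger ^ 9 + hζ.toInteger ^ 10 + hζ.toInteger ^ 11 + hζ.toInteger ^ 12 = 0 := by
    have := hζ.toInteger_isPrimitiveRoot.geom_sum_eq_zero (by norm_num)
    simpa [Finset.sum_range_succ] using this
  refine exists_principal_of_cert hζ 131 80 geom_sum_13_131
    (1 - hζ.toInteger - hζ.toInteger ^ 3)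
    (111 + 78 * hζ.toInteger + 17 * hζ.toInteger ^ 2 + 67 * hζ.toInteger ^ 3 + 84 * hζ.toInteger ^ 4 + 40 * hζ.toInteger ^ 5 + 46 * hζ.toInteger ^ 6 + 69 * hζ.toInteger ^ 7 + 48 * hζ.toInteger ^ 8 + 33 * hζ.toInteger ^ 9 + 41 * hζ.toInteger ^ 10 + 28 * hζ.toInteger ^ 11)
    (-68 - 47 * hζ.toInteger - 10 * hζ.toInteger ^ 2 - 41 * hζ.toInteger ^ 3 - 51 * hζ.toInteger ^ 4 - 24 * hζ.toInteger ^ 5 - 28 * hζ.toInteger ^ 6 - 42 * hζ.toInteger ^ 7 - 29 * hζ.toInteger ^ 8 - 20 * hζ.toInteger ^ 9 - 25 * hζ.toInteger ^ 10 - 17 * hζ.toInteger ^ 11) ?_ ?_ ?_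
  · push_cast
    linear_combination (-20 - 13 * hζ.toInteger - 28 * hζ.toInteger ^ 2) * hΦ
  · push_cast
    linear_combination (12 + 8 * hζ.toInteger + 17 * hζ.toInteger ^ 2) * hΦ
  · intro g hg
    simp only [map_add, map_sub, map_pow, map_one, hg]
    exact eval_cert_13_131


theorem geom_sum_13_157 : ∑ i ∈ range 13, ((75 : ℤ) : ZMod 157) ^ i = 0 := by decide

theorem eval_cert_13_157 : (1 - ((75 : ℤ) : ZMod 157) + ((75 : ℤ) : ZMod 157) ^ 2 + ((75 : ℤ) : ZMod 157) ^ 4 : ZMod 157) = 0 := by decide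

/-- A principal prime of `ℤ[ζ_13]` above `157`, generated by `1 - ζ + ζ ^ 2 + ζ ^ 4`. -/
theorem principal_13_157 (K : Type*) [Field K] [NumberField K] [IsCyclotomicExtension {13} ℚ K] :
    ∃ P ∈ primesOver (span {((157 : ℕ) : ℤ)}) (𝓞 K), Submodule.IsPrincipal P := by
  have : Fact (Nat.Prime 13) := ⟨by norm_num⟩
  have : Fact (Nat.Prime 157) := ⟨by norm_num⟩
  obtain ⟨ζ, hζ⟩ := IsCyclotomicExtension.exists_isPrimitiveRoot ℚ K (Set.mem_singleton 13)
    (by norm_num)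
  have hΦ : 1 + hζ.toInteger + hζ.toInteger ^ 2 + hζ.toInteger ^ 3 + hζ.toInteger ^ 4 + hζ.toInteger ^ 5 + hζ.toInteger ^ 6 + hζ.toInteger ^ 7 + hζ.toInteger ^ 8 + hζ.toInteger ^ 9 + hζ.toInteger ^ 10 + hζ.toInteger ^ 11 + hζ.toInteger ^ 12 = 0 := by
    have := hζ.toInteger_isPrimitiveRoot.geom_sum_eq_zero (by norm_num)
    simpa [Finset.sum_range_succ] using this
  refine exists_principal_of_cert hζ 157 75 geom_sum_13_157
    (1 - hζ.toInteger + hζ.toInteger ^ 2 + hζ.toInteger ^ 4)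
    (89 + 86 * hζ.toInteger + 42 * hζ.toInteger ^ 2 + 77 * hζ.toInteger ^ 3 + 67 * hζ.toInteger ^ 4 + 25 * hζ.toInteger ^ 5 + 37 * hζ.toInteger ^ 6 + 56 * hζ.toInteger ^ 7 + 73 * hζ.toInteger ^ 8 + 113 * hζ.toInteger ^ 9 + 124 * hζ.toInteger ^ 10 + 76 * hζ.toInteger ^ 11)
    (-43 - 41 * hζ.toInteger - 20 * hζ.toInteger ^ 2 - 37 * hζ.toInteger ^ 3 - 32 * hζ.toInteger ^ 4 - 12 * hζ.toInteger ^ 5 - 18 * hζ.toInteger ^ 6 - 27 * hζ.toInteger ^ 7 - 35 * hζ.toInteger ^ 8 - 54 * hζ.toInteger ^ 9 - 59 * hζ.toInteger ^ 10 - 36 * hζ.toInteger ^ 11) ?_ ?_ ?_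
  · push_cast
    linear_combination (-68 + 65 * hζ.toInteger + 48 * hζ.toInteger ^ 2 + 76 * hζ.toInteger ^ 3) * hΦ
  · push_cast
    linear_combination (32 - 31 * hζ.toInteger - 23 * hζ.toInteger ^ 2 - 36 * hζ.toInteger ^ 3) * hΦ
  · intro g hg
    simp only [map_add, map_sub, map_pow, map_one, hg]
    exact eval_cert_13_157



section
open Module InfinitePlace Nat Real

theorem minkowski_thirteen (K : Type*) [Field K] [NumberField K]
    [IsCyclotomicExtension {13} ℚ K] :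
    (4 / π) ^ nrComplexPlaces K *
      ((finrank ℚ K)! / (finrank ℚ K) ^ (finrank ℚ K) * √|discr K|) < (312 : ℕ) + 1 := by
  have : Fact (Nat.Prime 13) := ⟨by norm_num⟩
  rw [discr_prime 13 K, IsCyclotomicExtension.finrank (n := 13) K
    (cyclotomic.irreducible_rat (by norm_num)), nrComplexPlaces_eq_totient_div_two 13,
    totient_prime (by norm_num : Nat.Prime 13)]
  have h6 : (12 : ℕ)! = 479001600 := by decide
  norm_num [h6]
  have h1 : 4 / π ≤ 200 / 157 := by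
    rw [div_le_div_iff₀ Real.pi_pos (by norm_num)]
    have := Real.pi_gt_d2
    linarith
  have h2 : √1792160394037 ≤ 1338717 := (Real.sqrt_le_left (by norm_num)).mpr (by norm_num)
  have h3 : (0 : ℝ) ≤ 4 / π := by positivity
  calc (4 / π) ^ 6 * (1925 / 35831808 * √1792160394037)
      ≤ (200 / 157) ^ 6 * (1925 / 35831808 * 1338717) := by gcongr
    _ < 313 := by norm_num


end

/-- `ℤ[ζ_13]` is a principal ideal domain. -/
theorem pid_thirteen (K : Type*) [Field K] [NumberField K] [IsCyclotomicExtension {13} ℚ K] :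
    IsPrincipalIdealRing (𝓞 K) := by
  have : Fact (Nat.Prime 13) := ⟨by norm_num⟩
  refine pid_of_bound 13 K 312 (minkowski_thirteen K) ?_
  intro q hq _ f hf hmod hle
  have h2 : 2 ≤ q ^ f := le_trans hq.two_le (Nat.le_self_pow hf.ne' q)
  obtain ⟨n, hn⟩ : ∃ n, n = q ^ f := ⟨_, rfl⟩
  rw [← hn] at hmod hle h2
  have hcases : n = 14 ∨ n = 27 ∨ n = 40 ∨ n = 53 ∨ n = 66 ∨ n = 79 ∨ n = 92 ∨ n = 105 ∨ n = 118 ∨ n = 131 ∨ n = 144 ∨ n = 157 ∨ n = 170 ∨ n = 183 ∨ n = 196 ∨ n = 209 ∨ n = 222 ∨ n = 235 ∨ n = 248 ∨ n = 261 ∨ n = 274 ∨ n = 287 ∨ n = 300 := by omega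
  rcases hcases with h | h | h | h | h | h | h | h | h | h | h | h | h | h | h | h | h | h | h | h | h | h | h
  · exfalso
    have e1 : 2 = q := eq_of_prime_dvd_pow hq (by norm_num) (by rw [← hn, h]; try norm_num)
    have e2 : 7 = q := eq_of_prime_dvd_pow hq (by norm_num) (by rw [← hn, h]; try norm_num)
    omega
  · have e1 : 3 = q := eq_of_prime_dvd_pow hq (by norm_num) (by rw [← hn, h]; try norm_num)
    subst e1
    exact principal_13_3 K
  · exfalso
    have e1 : 2 = q := eq_of_prime_dvd_pow hq (by norm_num) (by rw [← hn, h]; try norm_num)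
    have e2 : 5 = q := eq_of_prime_dvd_pow hq (by norm_num) (by rw [← hn, h]; try norm_num)
    omega
  · have e1 : 53 = q := eq_of_prime_dvd_pow hq (by norm_num) (by rw [← hn, h]; try norm_num)
    subst e1
    exact principal_13_53 K
  · exfalso
    have e1 : 2 = q := eq_of_prime_dvd_pow hq (by norm_num) (by rw [← hn, h]; try norm_num)
    have e2 : 3 = q := eq_of_prime_dvd_pow hq (by norm_num) (by rw [← hn, h]; try norm_num)
    omega
  · have e1 : 79 = q := eq_of_prime_dvd_pow hq (by norm_num) (by rw [← hn, h]; try norm_num)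
    subst e1
    exact principal_13_79 K
  · exfalso
    have e1 : 2 = q := eq_of_prime_dvd_pow hq (by norm_num) (by rw [← hn, h]; try norm_num)
    have e2 : 23 = q := eq_of_prime_dvd_pow hq (by norm_num) (by rw [← hn, h]; try norm_num)
    omega
  · exfalso
    have e1 : 3 = q := eq_of_prime_dvd_pow hq (by norm_num) (by rw [← hn, h]; try norm_num)
    have e2 : 5 = q := eq_of_prime_dvd_pow hq (by norm_num) (by rw [← hn, h]; try norm_num)
    omega
  · exfalso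
    have e1 : 2 = q := eq_of_prime_dvd_pow hq (by norm_num) (by rw [← hn, h]; try norm_num)
    have e2 : 59 = q := eq_of_prime_dvd_pow hq (by norm_num) (by rw [← hn, h]; try norm_num)
    omega
  · have e1 : 131 = q := eq_of_prime_dvd_pow hq (by norm_num) (by rw [← hn, h]; try norm_num)
    subst e1
    exact principal_13_131 K
  · exfalso
    have e1 : 2 = q := eq_of_prime_dvd_pow hq (by norm_num) (by rw [← hn, h]; try norm_num)
    have e2 : 3 = q := eq_of_prime_dvd_pow hq (by norm_num) (by rw [← hn, h]; try norm_num)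
    omega
  · have e1 : 157 = q := eq_of_prime_dvd_pow hq (by norm_num) (by rw [← hn, h]; try norm_num)
    subst e1
    exact principal_13_157 K
  · exfalso
    have e1 : 2 = q := eq_of_prime_dvd_pow hq (by norm_num) (by rw [← hn, h]; try norm_num)
    have e2 : 5 = q := eq_of_prime_dvd_pow hq (by norm_num) (by rw [← hn, h]; try norm_num)
    omega
  · exfalso
    have e1 : 3 = q := eq_of_prime_dvd_pow hq (by norm_num) (by rw [← hn, h]; try norm_num)
    have e2 : 61 = q := eq_of_prime_dvd_pow hq (by norm_num) (by rw [← hn, h]; try norm_num)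
    omega
  · exfalso
    have e1 : 2 = q := eq_of_prime_dvd_pow hq (by norm_num) (by rw [← hn, h]; try norm_num)
    have e2 : 7 = q := eq_of_prime_dvd_pow hq (by norm_num) (by rw [← hn, h]; try norm_num)
    omega
  · exfalso
    have e1 : 11 = q := eq_of_prime_dvd_pow hq (by norm_num) (by rw [← hn, h]; try norm_num)
    have e2 : 19 = q := eq_of_prime_dvd_pow hq (by norm_num) (by rw [← hn, h]; try norm_num)
    omega
  · exfalso
    have e1 : 2 = q := eq_of_prime_dvd_pow hq (by norm_num) (by rw [← hn, h]; try norm_num)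
    have e2 : 3 = q := eq_of_prime_dvd_pow hq (by norm_num) (by rw [← hn, h]; try norm_num)
    omega
  · exfalso
    have e1 : 5 = q := eq_of_prime_dvd_pow hq (by norm_num) (by rw [← hn, h]; try norm_num)
    have e2 : 47 = q := eq_of_prime_dvd_pow hq (by norm_num) (by rw [← hn, h]; try norm_num)
    omega
  · exfalso
    have e1 : 2 = q := eq_of_prime_dvd_pow hq (by norm_num) (by rw [← hn, h]; try norm_num)
    have e2 : 31 = q := eq_of_prime_dvd_pow hq (by norm_num) (by rw [← hn, h]; try norm_num)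
    omega
  · exfalso
    have e1 : 3 = q := eq_of_prime_dvd_pow hq (by norm_num) (by rw [← hn, h]; try norm_num)
    have e2 : 29 = q := eq_of_prime_dvd_pow hq (by norm_num) (by rw [← hn, h]; try norm_num)
    omega
  · exfalso
    have e1 : 2 = q := eq_of_prime_dvd_pow hq (by norm_num) (by rw [← hn, h]; try norm_num)
    have e2 : 137 = q := eq_of_prime_dvd_pow hq (by norm_num) (by rw [← hn, h]; try norm_num)
    omega
  · exfalso
    have e1 : 7 = q := eq_of_prime_dvd_pow hq (by norm_num) (by rw [← hn, h]; try norm_num)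
    have e2 : 41 = q := eq_of_prime_dvd_pow hq (by norm_num) (by rw [← hn, h]; try norm_num)
    omega
  · exfalso
    have e1 : 2 = q := eq_of_prime_dvd_pow hq (by norm_num) (by rw [← hn, h]; try norm_num)
    have e2 : 3 = q := eq_of_prime_dvd_pow hq (by norm_num) (by rw [← hn, h]; try norm_num)
    omega


end Fermat.Agent.REG
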