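import Fermat.Agent.REG.Defs

/-!
# REG (R1): Case I for p = 5, 7, 11, 13 via Sophie Germain's theorem
-/

namespace Fermat.Agent.REG

open Finset

/-- The cofactor `(y ^ p + z ^ p) / (y + z)`. -/
def sgPhi (p : ℕ) (y z : ℤ) : ℤ := ∑ i ∈ range p, y ^ i * (-z) ^ (p - 1 - i)

theorem sgPhi_mul {p : ℕ} (hp : Odd p) (y z : ℤ) : sgPhi p y z * (y + z) = y ^ p + z ^ p := by
  have := geom_sum₂_mul y (-z) p
  rw [hp.neg_pow] at this
  rw [sgPhi]
  linear_combination this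

/-- `φ(y,z) ≡ p y^(p-1)` modulo `y + z`. -/
theorem add_dvd_sgPhi_sub (p : ℕ) (y z : ℤ) : y + z ∣ sgPhi p y z - p * y ^ (p - 1) := by
  have h : sgPhi p y z - p * y ^ (p - 1) =
      ∑ i ∈ range p, y ^ i * ((-z) ^ (p - 1 - i) - y ^ (p - 1 - i)) := by
    rw [sgPhi]
    have : (p : ℤ) * y ^ (p - 1) = ∑ i ∈ range p, y ^ i * y ^ (p - 1 - i) := by
      rw [Finset.sum_congr rfl (g := fun _ => y ^ (p - 1))]
      · simp
      · intro i hi
        rw [← pow_add]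
        congr 1
        have := Finset.mem_range.mp hi
        omega
    rw [this, ← Finset.sum_sub_distrib]
    refine Finset.sum_congr rfl fun i _ => by ring
  rw [h]
  refine Finset.dvd_sum fun i _ => Dvd.dvd.mul_left ?_ _
  have := sub_dvd_pow_sub_pow (-z) y (p - 1 - i)
  have e : -z - y = -(y + z) := by ring
  rw [e, neg_dvd] at this
  exact this

/-- `φ(z,x) ≡ z^(p-1)` modulo `x`. -/
theorem dvd_sgPhi_sub {p : ℕ} (hp : 0 < p) (z x : ℤ) : x ∣ sgPhi p z x - z ^ (p - 1) := by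
  rw [sgPhi, ← Finset.sum_erase_add _ _ (Finset.mem_range.mpr (Nat.sub_lt hp one_pos))]
  have : p - 1 - (p - 1) = 0 := by omega
  rw [this, pow_zero, mul_one, add_sub_cancel_right]
  refine Finset.dvd_sum fun i hi => Dvd.dvd.mul_left ?_ _
  have hi' := Finset.mem_erase.mp hi
  have hlt := Finset.mem_range.mp hi'.2
  have : p - 1 - i ≠ 0 := by omega
  exact (dvd_neg.mpr (dvd_refl x)).trans (dvd_pow_self _ this)

theorem isCoprime_add_sgPhi {p : ℕ} (hp : p.Prime) {y z : ℤ} (hyz : IsCoprime y z)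
    (hpyz : ¬ (p : ℤ) ∣ y + z) : IsCoprime (y + z) (sgPhi p y z) := by
  apply isCoprime_of_prime_dvd
  · rintro ⟨h0, -⟩
    exact hpyz (h0 ▸ dvd_zero _)
  intro r hr h1 h2
  have h3 : r ∣ (p : ℤ) * y ^ (p - 1) := by
    have := (h1.trans (add_dvd_sgPhi_sub p y z))
    have := dvd_sub h2 this
    simpa using this
  rcases hr.dvd_or_dvd h3 with h4 | h4
  · have hpp : Prime (p : ℤ) := Nat.prime_iff_prime_int.mp hp
    have := (hr.dvd_prime_iff_associated hpp).mp h4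
    exact hpyz (this.symm.dvd.trans h1)
  · have h5 := hr.dvd_of_dvd_pow h4
    have h6 : r ∣ z := by
      have := dvd_sub h1 h5
      simpa using this
    exact hr.not_isUnit (hyz.isUnit_of_dvd' h5 h6)

/-- If `x^p + y^p + z^p = 0`, `y, z` coprime and `p ∤ x` then `y + z` and the cofactor are `p`-th
powers. -/
theorem exists_pow_of_sum_eq_zero {p : ℕ} (hp : p.Prime) (hodd : Odd p) {x y z : ℤ}
    (hyz : IsCoprime y z) (hx : ¬ (p : ℤ) ∣ x) (h : x ^ p + y ^ p + z ^ p = 0) :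
    ∃ a α : ℤ, y + z = a ^ p ∧ sgPhi p y z = α ^ p := by
  have hpp : Prime (p : ℤ) := Nat.prime_iff_prime_int.mp hp
  have h1 : (y + z) * sgPhi p y z = (-x) ^ p := by
    rw [hodd.neg_pow, mul_comm, sgPhi_mul hodd]
    linear_combination h
  have hpyz : ¬ (p : ℤ) ∣ y + z := by
    intro hd
    have : (p : ℤ) ∣ (-x) ^ p := h1 ▸ hd.mul_right _
    exact hx ((dvd_neg.mp (hpp.dvd_of_dvd_pow this)))
  obtain ⟨⟨a, ha⟩, ⟨α, hα⟩⟩ :=
    Int.eq_pow_of_mul_eq_pow_odd (isCoprime_add_sgPhi hp hyz hpyz) hodd h1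
  exact ⟨a, α, ha, hα⟩

section aux

variable {p q : ℕ} [Fact p.Prime] [Fact q.Prime]

/-- The heart of Sophie Germain's theorem: the case `q ∣ x`. -/
theorem sophieGermain_aux (hp : p ≠ 2)
    (h1 : ∀ x y z : ZMod q, x ^ p + y ^ p + z ^ p = 0 → x = 0 ∨ y = 0 ∨ z = 0)
    (h2 : ∀ x : ZMod q, x ^ p ≠ (p : ZMod q))
    {x y z : ℤ} (hxy : IsCoprime x y) (hyz : IsCoprime y z) (hzx : IsCoprime z x)
    (hx : ¬ (p : ℤ) ∣ x) (hy : ¬ (p : ℤ) ∣ y) (hz : ¬ (p : ℤ) ∣ z)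
    (h : x ^ p + y ^ p + z ^ p = 0) (hqx : (q : ℤ) ∣ x) : False := by
  have hpP : p.Prime := Fact.out
  have hqP : q.Prime := Fact.out
  have hqq : Prime (q : ℤ) := Nat.prime_iff_prime_int.mp hqP
  have hodd : Odd p := hpP.odd_of_ne_two hp
  obtain ⟨a, α, ha, hα⟩ := exists_pow_of_sum_eq_zero hpP hodd hyz hx h
  obtain ⟨b, β, hb, hβ⟩ := exists_pow_of_sum_eq_zero hpP hodd hzx hy
    (by linear_combination h : y ^ p + z ^ p + x ^ p = 0)
  obtain ⟨c, γ, hc, hγ⟩ := exists_pow_of_sum_eq_zero hpP hodd hxy hz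
    (by linear_combination h : z ^ p + x ^ p + y ^ p = 0)
  have hx0 : ((x : ℤ) : ZMod q) = 0 := (ZMod.intCast_zmod_eq_zero_iff_dvd x q).mpr hqx
  -- `b^p + c^p + (-a)^p = 2x ≡ 0`
  have h3 : ((b : ℤ) : ZMod q) ^ p + (c : ZMod q) ^ p + ((-a : ℤ) : ZMod q) ^ p = 0 := by
    have : b ^ p + c ^ p + (-a) ^ p = 2 * x := by
      rw [hodd.neg_pow, ← ha, ← hb, ← hc]; ring
    have := congrArg (Int.cast : ℤ → ZMod q) this
    push_cast at this
    rw [hx0, mul_zero] at this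
    push_cast
    exact this
  rcases h1 _ _ _ h3 with hb0 | hc0 | ha0
  · -- `q ∣ b`, so `q ∣ z`
    have hqb : (q : ℤ) ∣ b := (ZMod.intCast_zmod_eq_zero_iff_dvd b q).mp hb0
    have hqz : (q : ℤ) ∣ z := by
      have : (q : ℤ) ∣ z + x := hb ▸ hqb.trans (dvd_pow_self b hpP.ne_zero)
      simpa using dvd_sub this hqx
    exact hqq.not_isUnit (hzx.isUnit_of_dvd' hqz hqx)
  · have hqc : (q : ℤ) ∣ c := (ZMod.intCast_zmod_eq_zero_iff_dvd c q).mp hc0
    have hqy : (q : ℤ) ∣ y := by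
      have : (q : ℤ) ∣ x + y := hc ▸ hqc.trans (dvd_pow_self c hpP.ne_zero)
      simpa using dvd_sub this hqx
    exact hqq.not_isUnit (hxy.isUnit_of_dvd' hqx hqy)
  · have hqa : (q : ℤ) ∣ a := by
      have : ((a : ℤ) : ZMod q) = 0 := by
        have : ((-a : ℤ) : ZMod q) = -((a : ℤ) : ZMod q) := by push_cast; rfl
        rw [this, neg_eq_zero] at ha0
        exact ha0
      exact (ZMod.intCast_zmod_eq_zero_iff_dvd a q).mp this
    have hqyz : (q : ℤ) ∣ y + z := ha ▸ hqa.trans (dvd_pow_self a hpP.ne_zero)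
    have hyz0 : (y : ZMod q) + (z : ZMod q) = 0 := by
      have := (ZMod.intCast_zmod_eq_zero_iff_dvd (y + z) q).mpr hqyz
      push_cast at this
      exact this
    have hzy : (z : ZMod q) = -(y : ZMod q) := by
      rw [eq_neg_iff_add_eq_zero, add_comm]; exact hyz0
    -- `α^p = p y^(p-1)` in `ZMod q`
    have e1 : ((α : ℤ) : ZMod q) ^ p = (p : ZMod q) * (y : ZMod q) ^ (p - 1) := by
      have := hqyz.trans (add_dvd_sgPhi_sub p y z)
      have := (ZMod.intCast_zmod_eq_zero_iff_dvd _ q).mpr this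
      rw [hα] at this
      push_cast at this
      exact sub_eq_zero.mp this
    -- `β^p = z^(p-1) = y^(p-1)`
    have e2 : ((β : ℤ) : ZMod q) ^ p = (y : ZMod q) ^ (p - 1) := by
      have := hqx.trans (dvd_sgPhi_sub hpP.pos z x)
      have := (ZMod.intCast_zmod_eq_zero_iff_dvd _ q).mpr this
      rw [hβ] at this
      push_cast at this
      rw [sub_eq_zero.mp this, hzy]
      have : Even (p - 1) := hpP.even_sub_one hp
      exact this.neg_pow _
    have hβ0 : ((β : ℤ) : ZMod q) ≠ 0 := by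
      intro h0
      rw [h0, zero_pow hpP.ne_zero] at e2
      have hy0 : (y : ZMod q) = 0 := by
        have := e2.symm
        exact pow_eq_zero_iff (by have := hpP.two_le; omega) |>.mp this
      have hqy : (q : ℤ) ∣ y := (ZMod.intCast_zmod_eq_zero_iff_dvd y q).mp hy0
      have hqz : (q : ℤ) ∣ z := by simpa using dvd_sub hqyz hqy
      exact hqq.not_isUnit (hyz.isUnit_of_dvd' hqy hqz)
    apply h2 ((α : ZMod q) * (β : ZMod q)⁻¹)
    rw [mul_pow, inv_pow, e1, e2]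
    have : ((y : ZMod q) ^ (p - 1)) ≠ 0 := by
      rw [← e2]; exact pow_ne_zero _ hβ0
    field_simp

/-- **Sophie Germain's theorem**. -/
theorem caseI_of_sophieGermain (p q : ℕ) [Fact p.Prime] [Fact q.Prime] (hp : p ≠ 2)
    (h1 : ∀ x y z : ZMod q, x ^ p + y ^ p + z ^ p = 0 → x = 0 ∨ y = 0 ∨ z = 0)
    (h2 : ∀ x : ZMod q, x ^ p ≠ (p : ZMod q)) : CaseI p := by
  have hpP : p.Prime := Fact.out
  have hqP : q.Prime := Fact.out
  have hpp : Prime (p : ℤ) := Nat.prime_iff_prime_int.mp hpP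
  have hodd : Odd p := hpP.odd_of_ne_two hp
  intro a b c habc
  by_contra hnd
  have ha : ¬ (p : ℤ) ∣ a := fun h => hnd ((h.mul_right b).mul_right c)
  have hb : ¬ (p : ℤ) ∣ b := fun h => hnd ((h.mul_left a).mul_right c)
  have hc : ¬ (p : ℤ) ∣ c := fun h => hnd (h.mul_left (a * b))
  have ha0 : a ≠ 0 := fun h => ha (h ▸ dvd_zero _)
  -- divide by the gcd
  obtain ⟨a', b', hco, haa', hbb'⟩ : ∃ a' b' : ℤ, IsCoprime a' b' ∧
      a = a' * (Int.gcd a b : ℤ) ∧ b = b' * (Int.gcd a b : ℤ) := by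
    have hg : 0 < Int.gcd a b := Int.gcd_pos_of_ne_zero_left _ ha0
    obtain ⟨a', b', hco, h1, h2⟩ := Int.exists_gcd_one hg
    exact ⟨a', b', Int.isCoprime_iff_gcd_eq_one.mpr hco, h1, h2⟩
  set d : ℤ := (Int.gcd a b : ℤ) with hd
  have hd0 : d ≠ 0 := by
    rw [hd]; exact_mod_cast (Int.gcd_pos_of_ne_zero_left _ ha0).ne'
  have hdc : d ∣ c := by
    have : d ^ p ∣ c ^ p := by
      rw [← habc, haa', hbb', mul_pow, mul_pow]
      exact dvd_add (dvd_mul_left _ _) (dvd_mul_left _ _)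
    exact (Int.pow_dvd_pow_iff hpP.ne_zero).mp this
  obtain ⟨c', hcc'⟩ := hdc
  have habc' : a' ^ p + b' ^ p = c' ^ p := by
    have : d ^ p * (a' ^ p + b' ^ p) = d ^ p * c' ^ p := by
      rw [← mul_pow d c', ← hcc', ← habc, haa', hbb']; ring
    exact mul_left_cancel₀ (pow_ne_zero _ hd0) this
  have ha' : ¬ (p : ℤ) ∣ a' := fun h => ha (haa' ▸ h.mul_right _)
  have hb' : ¬ (p : ℤ) ∣ b' := fun h => hb (hbb' ▸ h.mul_right _)
  have hc' : ¬ (p : ℤ) ∣ c' := fun h => hc (hcc' ▸ h.mul_left _)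
  have hsum : a' ^ p + b' ^ p + (-c') ^ p = 0 := by
    rw [hodd.neg_pow]; linear_combination habc'
  -- pairwise coprimality
  have hbc : IsCoprime b' (-c') := by
    apply isCoprime_of_prime_dvd
    · rintro ⟨h0, -⟩; exact hb' (h0 ▸ dvd_zero _)
    intro r hr hrb hrc
    have hrc' : r ∣ c' := (dvd_neg.mp hrc)
    have : r ∣ a' ^ p := by
      have : a' ^ p = c' ^ p - b' ^ p := by linear_combination habc'
      rw [this]
      exact dvd_sub (hrc'.trans (dvd_pow_self _ hpP.ne_zero))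
        (hrb.trans (dvd_pow_self _ hpP.ne_zero))
    exact hr.not_isUnit (hco.isUnit_of_dvd' (hr.dvd_of_dvd_pow this) hrb)
  have hca : IsCoprime (-c') a' := by
    apply isCoprime_of_prime_dvd
    · rintro ⟨-, h0⟩; exact ha' (h0 ▸ dvd_zero _)
    intro r hr hrc hra
    have hrc' : r ∣ c' := (dvd_neg.mp hrc)
    have : r ∣ b' ^ p := by
      have : b' ^ p = c' ^ p - a' ^ p := by linear_combination habc'
      rw [this]
      exact dvd_sub (hrc'.trans (dvd_pow_self _ hpP.ne_zero))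
        (hra.trans (dvd_pow_self _ hpP.ne_zero))
    exact hr.not_isUnit (hco.isUnit_of_dvd' hra (hr.dvd_of_dvd_pow this))
  have hnc' : ¬ (p : ℤ) ∣ -c' := fun h => hc' (dvd_neg.mp h)
  -- reduce modulo `q`
  have h3 := congrArg (Int.cast : ℤ → ZMod q) hsum
  push_cast at h3
  rcases h1 _ _ _ h3 with h0 | h0 | h0
  · exact sophieGermain_aux hp h1 h2 hco hbc hca ha' hb' hnc' hsum
      ((ZMod.intCast_zmod_eq_zero_iff_dvd a' q).mp h0)
  · exact sophieGermain_aux hp h1 h2 hbc hca hco hb' hnc' ha' (by linear_combination hsum)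
      ((ZMod.intCast_zmod_eq_zero_iff_dvd b' q).mp h0)
  · have h0' : ((-c' : ℤ) : ZMod q) = 0 := by push_cast; exact h0
    exact sophieGermain_aux hp h1 h2 hca hco hbc hnc' ha' hb' (by linear_combination hsum)
      ((ZMod.intCast_zmod_eq_zero_iff_dvd (-c') q).mp h0')

end aux

section verify

variable {p q n : ℕ} [Fact q.Prime]

theorem sg_h1_of_roots (hq : q - 1 = n * p) (hn : Even n)
    (hroots : ∀ t : ZMod q, t ^ n = 1 → (t + 1) ^ n ≠ 1) :
    ∀ x y z : ZMod q, x ^ p + y ^ p + z ^ p = 0 → x = 0 ∨ y = 0 ∨ z = 0 := by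
  intro x y z h
  by_contra hne
  push Not at hne
  obtain ⟨hx, hy, hz⟩ := hne
  have key : ∀ w : ZMod q, w ≠ 0 → (w ^ p) ^ n = 1 := by
    intro w hw
    rw [← pow_mul, mul_comm, ← hq]
    exact ZMod.pow_card_sub_one_eq_one hw
  have hzp : z ^ p ≠ 0 := pow_ne_zero _ hz
  set t := (x / z) ^ p with ht
  set s := (y / z) ^ p with hs
  have h1 : t + s + 1 = 0 := by
    rw [ht, hs, div_pow, div_pow]
    field_simp
    rw [mul_zero]
    exact h
  have htn : t ^ n = 1 := key _ (div_ne_zero hx hz)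
  have hsn : s ^ n = 1 := key _ (div_ne_zero hy hz)
  have hs' : s = -(t + 1) := by linear_combination h1
  rw [hs', hn.neg_pow] at hsn
  exact hroots t htn hsn

theorem sg_h2_of_pow (hq : q - 1 = n * p) (hp0 : (p : ZMod q) ≠ 0)
    (hpn : (p : ZMod q) ^ n ≠ 1) : ∀ x : ZMod q, x ^ p ≠ (p : ZMod q) := by
  intro x hx
  have hx0 : x ≠ 0 := by
    rintro rfl
    rcases Nat.eq_zero_or_pos p with h0 | h0
    · subst h0; simp at hp0
    · rw [zero_pow h0.ne'] at hx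
      exact hp0 hx.symm
  apply hpn
  rw [← hx, ← pow_mul, mul_comm, ← hq]
  exact ZMod.pow_card_sub_one_eq_one hx0

end verify

theorem sg_roots_11 : ∀ t : ZMod 11, t ^ 2 = 1 → (t + 1) ^ 2 ≠ 1 := by decide
theorem sg_pow_11 : ((5 : ℕ) : ZMod 11) ≠ 0 ∧ ((5 : ℕ) : ZMod 11) ^ 2 ≠ 1 := by decide
theorem sg_roots_29 : ∀ t : ZMod 29, t ^ 4 = 1 → (t + 1) ^ 4 ≠ 1 := by decide
theorem sg_pow_29 : ((7 : ℕ) : ZMod 29) ≠ 0 ∧ ((7 : ℕ) : ZMod 29) ^ 4 ≠ 1 := by decide
theorem sg_roots_23 : ∀ t : ZMod 23, t ^ 2 = 1 → (t + 1) ^ 2 ≠ 1 := by decide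
theorem sg_pow_23 : ((11 : ℕ) : ZMod 23) ≠ 0 ∧ ((11 : ℕ) : ZMod 23) ^ 2 ≠ 1 := by decide
theorem sg_roots_53 : ∀ t : ZMod 53, t ^ 4 = 1 → (t + 1) ^ 4 ≠ 1 := by decide
theorem sg_pow_53 : ((13 : ℕ) : ZMod 53) ≠ 0 ∧ ((13 : ℕ) : ZMod 53) ^ 4 ≠ 1 := by decide

theorem caseI_five : CaseI 5 := by
  have : Fact (Nat.Prime 5) := ⟨by norm_num⟩
  have : Fact (Nat.Prime 11) := ⟨by norm_num⟩
  exact caseI_of_sophieGermain 5 11 (by norm_num)
    (sg_h1_of_roots (n := 2) (by norm_num) (by decide) sg_roots_11)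
    (sg_h2_of_pow (n := 2) (by norm_num) sg_pow_11.1 sg_pow_11.2)

theorem caseI_seven : CaseI 7 := by
  have : Fact (Nat.Prime 7) := ⟨by norm_num⟩
  have : Fact (Nat.Prime 29) := ⟨by norm_num⟩
  exact caseI_of_sophieGermain 7 29 (by norm_num)
    (sg_h1_of_roots (n := 4) (by norm_num) (by decide) sg_roots_29)
    (sg_h2_of_pow (n := 4) (by norm_num) sg_pow_29.1 sg_pow_29.2)

theorem caseI_eleven : CaseI 11 := by
  have : Fact (Nat.Prime 11) := ⟨by norm_num⟩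
  have : Fact (Nat.Prime 23) := ⟨by norm_num⟩
  exact caseI_of_sophieGermain 11 23 (by norm_num)
    (sg_h1_of_roots (n := 2) (by norm_num) (by decide) sg_roots_23)
    (sg_h2_of_pow (n := 2) (by norm_num) sg_pow_23.1 sg_pow_23.2)

theorem caseI_thirteen : CaseI 13 := by
  have : Fact (Nat.Prime 13) := ⟨by norm_num⟩
  have : Fact (Nat.Prime 53) := ⟨by norm_num⟩
  exact caseI_of_sophieGermain 13 53 (by norm_num)
    (sg_h1_of_roots (n := 4) (by norm_num) (by decide) sg_roots_53)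
    (sg_h2_of_pow (n := 4) (by norm_num) sg_pow_53.1 sg_pow_53.2)

end Fermat.Agent.REG
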