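import Fermat.Agent.REG.CaseII
import Fermat.Agent.REG.SophieGermain
import Fermat.Agent.REG.PID_helper1_Seven
import Fermat.Agent.REG.PID_helper1_Eleven
import Fermat.Agent.REG.PID_helper1_Thirteen
import Fermat.Prelude.Def_FLTPrelim_FreyPackage

/-!
# REG (R5): assembly — FLT for `p = 5, 7, 11, 13` from Kummer's lemma, and the Frey package
-/

namespace Fermat.Agent.REG

open NumberField

/-- The cyclotomic field `ℚ(ζ_n)` is a cyclotomic extension of `ℚ` for the canonical
`ℚ`-algebra structure of a characteristic zero field. -/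
theorem isCyclotomicExtension_cyclotomicField (n : ℕ) :
    IsCyclotomicExtension {n} ℚ (CyclotomicField n ℚ) :=
  CyclotomicField.instIsCyclotomicExtensionSingletonNatSetOfCharZero n ℚ

theorem flt_five (h : KummerLemma 5 (CyclotomicField 5 ℚ)) : FermatLastTheoremFor 5 := by
  have : Fact (Nat.Prime 5) := ⟨by norm_num⟩
  have := isCyclotomicExtension_cyclotomicField 5
  have : IsPrincipalIdealRing (𝓞 (CyclotomicField 5 ℚ)) :=
    IsCyclotomicExtension.Rat.five_pid (CyclotomicField 5 ℚ)
  exact fermatLastTheoremFor_of_caseI_of_kummerLemma 5 (by norm_num) (CyclotomicField 5 ℚ)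
    caseI_five h

theorem flt_seven (h : KummerLemma 7 (CyclotomicField 7 ℚ)) : FermatLastTheoremFor 7 := by
  have : Fact (Nat.Prime 7) := ⟨by norm_num⟩
  have := isCyclotomicExtension_cyclotomicField 7
  have : IsPrincipalIdealRing (𝓞 (CyclotomicField 7 ℚ)) := pid_seven (CyclotomicField 7 ℚ)
  exact fermatLastTheoremFor_of_caseI_of_kummerLemma 7 (by norm_num) (CyclotomicField 7 ℚ)
    caseI_seven h

theorem flt_eleven (h : KummerLemma 11 (CyclotomicField 11 ℚ)) : FermatLastTheoremFor 11 := by
  have : Fact (Nat.Prime 11) := ⟨by norm_num⟩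
  have := isCyclotomicExtension_cyclotomicField 11
  have : IsPrincipalIdealRing (𝓞 (CyclotomicField 11 ℚ)) := pid_eleven (CyclotomicField 11 ℚ)
  exact fermatLastTheoremFor_of_caseI_of_kummerLemma 11 (by norm_num) (CyclotomicField 11 ℚ)
    caseI_eleven h

theorem flt_thirteen (h : KummerLemma 13 (CyclotomicField 13 ℚ)) : FermatLastTheoremFor 13 := by
  have : Fact (Nat.Prime 13) := ⟨by norm_num⟩
  have := isCyclotomicExtension_cyclotomicField 13
  have : IsPrincipalIdealRing (𝓞 (CyclotomicField 13 ℚ)) := pid_thirteen (CyclotomicField 13 ℚ)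
  exact fermatLastTheoremFor_of_caseI_of_kummerLemma 13 (by norm_num) (CyclotomicField 13 ℚ)
    caseI_thirteen h

/-- A Frey package contradicts Fermat's Last Theorem for its exponent. -/
theorem false_of_freyPackage (P : FreyPackage) (h : FermatLastTheoremFor P.p) : False :=
  (fermatLastTheoremFor_iff_int.mp h) P.a P.b P.c P.ha0 P.hb0 P.hc0 P.hFLT

/-- Frey packages with exponent `5`, `7`, `13` do not exist (given Kummer's lemma). -/
theorem false_of_freyPackage_small (h5 : KummerLemma 5 (CyclotomicField 5 ℚ))
    (h7 : KummerLemma 7 (CyclotomicField 7 ℚ)) (h13 : KummerLemma 13 (CyclotomicField 13 ℚ))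
    (P : FreyPackage) (hp : P.p = 5 ∨ P.p = 7 ∨ P.p = 13) : False := by
  apply false_of_freyPackage P
  rcases hp with h | h | h <;> rw [h]
  · exact flt_five h5
  · exact flt_seven h7
  · exact flt_thirteen h13

/-- Frey packages with exponent `11` do not exist (given Kummer's lemma). -/
theorem false_of_freyPackage_eleven (h11 : KummerLemma 11 (CyclotomicField 11 ℚ))
    (P : FreyPackage) (hp : P.p = 11) : False := by
  apply false_of_freyPackage P
  rw [hp]
  exact flt_eleven h11

end Fermat.Agent.REG
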