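import Mathlib

/-!
# REG (Kummer's theorem for the regular primes 5, 7, 11, 13): shared definitions
-/

namespace Fermat.Agent.REG

open NumberField

/-- First case of Fermat's Last Theorem for the exponent `p`: every solution has `p ∣ a b c`. -/
def CaseI (p : ℕ) : Prop := ∀ a b c : ℤ, a ^ p + b ^ p = c ^ p → (p : ℤ) ∣ a * b * c

/-- Kummer's lemma for the number field `K` (to be used with `K = ℚ(ζ_p)`): a unit congruent to a
rational integer modulo `p` is a `p`-th power. -/
def KummerLemma (p : ℕ) (K : Type*) [Field K] [NumberField K] : Prop :=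
  ∀ u : (𝓞 K)ˣ, (∃ n : ℤ, (p : 𝓞 K) ∣ (u : 𝓞 K) - n) → ∃ v : (𝓞 K)ˣ, u = v ^ p

end Fermat.Agent.REG
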