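import Mathlib

/-!
# (R3, part B) The Kummer extension `K(u^{1/p})/K` with `u ≡ 1 mod (ζ - 1)^p` has trivial different

`K = ℚ(ζ_p)`, `λ = ζ - 1`, `u = 1 + λ^p c` a unit which is not a `p`-th power, `L` the splitting
field of `X^p - u`.  Then `θ = (α - 1)/λ` (`α^p = u`) is a root of a monic `f ∈ 𝓞 K[X]` of degree `p`
with `f'(θ)` a unit, hence `differentIdeal (𝓞 K) (𝓞 L) = ⊤`.
-/

set_option autoImplicit false

open NumberField Polynomial IntermediateField

namespace Fermat.Agent.REG

section PolyF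

variable {R : Type*} [CommRing R] [IsDomain R]

/-- The polynomial `f = ((λ X + 1)^p - u) / λ^p`. -/
theorem exists_monic_kummer_poly {p : ℕ} (hp : p.Prime) {lam e0 u c : R} (hlam : lam ≠ 0)
    (hp' : (p : R) = e0 * lam ^ (p - 1)) (hu : u = 1 + lam ^ p * c) :
    ∃ f : R[X], f.Monic ∧ f.natDegree = p ∧
      C (lam ^ p) * f = (C lam * X + 1) ^ p - C u ∧
      C (lam ^ p) * derivative f = C (e0 * lam ^ p) * (C lam * X + 1) ^ (p - 1) := by
  obtain ⟨r, hr⟩ := exists_add_pow_prime_eq hp (C lam * X) (1 : R[X])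
  have hpl : (p : R) * lam = e0 * lam ^ p := by
    rw [hp', mul_assoc, ← pow_succ, Nat.sub_add_cancel hp.one_le]
  have hlamp : lam ^ p ≠ 0 := pow_ne_zero _ hlam
  set f : R[X] := X ^ p + C e0 * X * r - C c with hf
  have hmain : C (lam ^ p) * f = (C lam * X + 1) ^ p - C u := by
    rw [hr, hf, hu]
    have h1 : (p : R[X]) * (C lam * X) * 1 * r = C (e0 * lam ^ p) * X * r := by
      rw [← hpl, map_mul, map_natCast]
      ring
    rw [h1]
    simp only [map_add, map_mul, map_one, map_pow, mul_pow, one_pow]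
    ring
  have hdeg1 : (C lam * X + 1 : R[X]).natDegree = 1 := by
    have : (C lam * X + 1 : R[X]) = C lam * X + C 1 := by rw [map_one]
    rw [this]
    exact natDegree_linear hlam
  have hlc1 : (C lam * X + 1 : R[X]).leadingCoeff = lam := by
    have : (C lam * X + 1 : R[X]) = C lam * X + C 1 := by rw [map_one]
    rw [this]
    exact leadingCoeff_linear hlam
  have hdegg : ((C lam * X + 1) ^ p - C u : R[X]).natDegree = p := by
    rw [natDegree_sub_C, natDegree_pow, hdeg1, mul_one]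
  have hlcg : ((C lam * X + 1) ^ p - C u : R[X]).leadingCoeff = lam ^ p := by
    rw [leadingCoeff_sub_of_degree_lt, leadingCoeff_pow, hlc1]
    have h2 : ((C lam * X + 1 : R[X]) ^ p).degree = p := by
      rw [degree_pow, degree_eq_natDegree, hdeg1]
      · simp
      · intro h0
        rw [h0] at hdeg1
        simp at hdeg1
    rw [h2]
    exact lt_of_le_of_lt degree_C_le (by exact_mod_cast hp.pos)
  have hdegf : f.natDegree = p := by
    rw [← natDegree_C_mul hlamp (p := f), hmain, hdegg]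
  have hmonic : f.Monic := by
    have h3 := congrArg leadingCoeff hmain
    rw [leadingCoeff_mul, leadingCoeff_C, hlcg] at h3
    exact mul_left_cancel₀ hlamp (h3.trans (mul_one _).symm)
  refine ⟨f, hmonic, hdegf, hmain, ?_⟩
  have hd : derivative ((C lam * X + 1) ^ p - C u : R[X]) =
      C (p : R) * (C lam * X + 1) ^ (p - 1) * C lam := by
    rw [derivative_sub, derivative_C, sub_zero, derivative_pow, derivative_add,
      derivative_one, add_zero, derivative_C_mul, derivative_X, mul_one, map_natCast]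
  clear_value f
  have h4 := congrArg derivative hmain
  rw [derivative_C_mul, hd] at h4
  rw [h4, ← hpl, map_mul]
  ring

end PolyF

section Different

variable {p : ℕ} [hp : Fact p.Prime] {K : Type} [Field K] [NumberField K]
  [hK : IsCyclotomicExtension {p} ℚ K] {ζ : K} (hζ : IsPrimitiveRoot ζ p)

/-- **The Kummer extension `K(u^{1/p})/K` for `u ≡ 1 mod (ζ-1)^p` is unramified**: its different
is the unit ideal. -/
theorem differentIdeal_eq_top_of_kummer {u : (𝓞 K)ˣ} {c : 𝓞 K}
    (hu : (u : 𝓞 K) = 1 + (hζ.toInteger - 1) ^ p * c)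
    (hirr : ∀ b : K, b ^ p ≠ ((u : 𝓞 K) : K))
    (L : Type) [Field L] [NumberField L] [Algebra K L]
    [IsSplittingField K L (X ^ p - C (((u : 𝓞 K) : K)))] :
    differentIdeal (𝓞 K) (𝓞 L) = ⊤ := by
  set lam : 𝓞 K := hζ.toInteger - 1 with hlam_def
  have hlam0 : lam ≠ 0 := hζ.zeta_sub_one_prime'.ne_zero
  obtain ⟨e0, he0⟩ := IsCyclotomicExtension.Rat.associated_zeta_sub_one_pow_prime p hζ
  have hp' : (p : 𝓞 K) = (e0 : 𝓞 K) * lam ^ (p - 1) := by rw [← he0, mul_comm]
  obtain ⟨f, hfm, hfd, hfmain, hfder⟩ := exists_monic_kummer_poly hp.out hlam0 hp' hu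
  have : NeZero p := ⟨hp.out.ne_zero⟩
  set a : K := ((u : 𝓞 K) : K) with ha
  have H : Irreducible (X ^ p - C a) := X_pow_sub_C_irreducible_of_prime hp.out hirr
  have hζ' : (primitiveRoots p K).Nonempty := ⟨ζ, (mem_primitiveRoots hp.out.pos).mpr hζ⟩
  set α : L := rootOfSplitsXPowSubC (NeZero.pos p) a L with hα_def
  have hα : α ^ p = algebraMap K L a := rootOfSplitsXPowSubC_pow a L
  have hadjα : Algebra.adjoin K {α} = ⊤ :=
    Algebra.adjoin_root_eq_top_of_isSplittingField hζ' H hα
  -- the element `θ = (α - 1)/λ`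
  set lamL : L := algebraMap (𝓞 K) L lam with hlamL
  have hlamL0 : lamL ≠ 0 := by
    rw [hlamL, Ne, map_eq_zero_iff _ (FaithfulSMul.algebraMap_injective (𝓞 K) L)]
    exact hlam0
  set θ : L := (α - 1) / lamL with hθ
  have hθα : lamL * θ + 1 = α := by
    rw [hθ]
    field_simp
    ring
  have hfθ : aeval θ f = 0 := by
    have h1 := congrArg (aeval θ) hfmain
    simp only [map_mul, aeval_C, map_sub, map_pow, map_add, aeval_X, map_one] at h1
    rw [← hlamL, hθα, hα, hu] at h1
    have h2 : algebraMap K L a = algebraMap (𝓞 K) L (1 + lam ^ p * c) := by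
      rw [ha, hu]
      rfl
    rw [h2, sub_self] at h1
    exact (mul_eq_zero.mp h1).resolve_left (pow_ne_zero _ hlamL0)
  have hθint : IsIntegral (𝓞 K) θ := ⟨f, hfm, hfθ⟩
  set θ' : 𝓞 L := IsIntegralClosure.mk' (𝓞 L) θ hθint with hθ'
  have hθ'coe : algebraMap (𝓞 L) L θ' = θ := IsIntegralClosure.algebraMap_mk' (𝓞 L) θ hθint
  -- `θ` generates `L`
  have hadjθ : Algebra.adjoin K {algebraMap (𝓞 L) L θ'} = ⊤ := by
    rw [hθ'coe, eq_top_iff, ← hadjα]
    apply Algebra.adjoin_le
    rw [Set.singleton_subset_iff, ← hθα]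
    refine Subalgebra.add_mem _ (Subalgebra.mul_mem _ ?_ (Algebra.subset_adjoin rfl))
      (Subalgebra.one_mem _)
    rw [hlamL, IsScalarTower.algebraMap_apply (𝓞 K) K L]
    exact Subalgebra.algebraMap_mem _ _
  -- the minimal polynomial of `θ'` is `f`
  have hfθ' : aeval θ' f = 0 := by
    apply FaithfulSMul.algebraMap_injective (𝓞 L) L
    rw [map_zero, ← aeval_algebraMap_apply, hθ'coe, hfθ]
  have hint' : IsIntegral (𝓞 K) θ' := ⟨f, hfm, hfθ'⟩
  have hdvd : minpoly (𝓞 K) θ' ∣ f := minpoly.isIntegrallyClosed_dvd hint' hfθ'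
  have hdegmin : (minpoly (𝓞 K) θ').natDegree = p := by
    have h1 := minpoly.isIntegrallyClosed_eq_field_fractions K L hint'
    rw [hθ'coe] at h1
    have h2 : (minpoly K θ).natDegree = (minpoly (𝓞 K) θ').natDegree := by
      rw [h1, (minpoly.monic hint').natDegree_map]
    rw [← h2]
    have h3 : K⟮θ⟯ = ⊤ := by
      apply IntermediateField.toSubalgebra_injective
      rw [IntermediateField.adjoin_simple_toSubalgebra_of_isAlgebraic
        (IsAlgebraic.of_finite K θ), IntermediateField.top_toSubalgebra, ← hθ'coe]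
      exact hadjθ
    rw [(Field.primitive_element_iff_minpoly_natDegree_eq K θ).mp h3]
    exact finrank_of_isSplittingField_X_pow_sub_C hζ' H L
  have hmin : f = minpoly (𝓞 K) θ' :=
    Polynomial.eq_of_monic_of_dvd_of_natDegree_le (minpoly.monic hint') hfm hdvd
      (by rw [hfd, hdegmin])
  -- the derivative at `θ'` is a unit
  set lam' : 𝓞 L := algebraMap (𝓞 K) (𝓞 L) lam with hlam'
  have hlam'0 : lam' ≠ 0 := by
    rw [hlam', Ne, map_eq_zero_iff _ (RingOfIntegers.algebraMap.injective K L)]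
    exact hlam0
  set α' : 𝓞 L := lam' * θ' + 1 with hα'
  have hα'coe : algebraMap (𝓞 L) L α' = α := by
    rw [hα', map_add, map_mul, map_one, hθ'coe, ← hθα, hlam', hlamL,
      ← IsScalarTower.algebraMap_apply (𝓞 K) (𝓞 L) L]
  have hα'pow : α' ^ p = algebraMap (𝓞 K) (𝓞 L) (u : 𝓞 K) := by
    apply FaithfulSMul.algebraMap_injective (𝓞 L) L
    rw [map_pow, hα'coe, hα, ← IsScalarTower.algebraMap_apply (𝓞 K) (𝓞 L) L]
    rfl
  have hα'unit : IsUnit α' := by
    have h1 : IsUnit (α' ^ p) := by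
      rw [hα'pow]
      exact u.isUnit.map _
    exact (isUnit_pow_iff hp.out.ne_zero).mp h1
  have hder : aeval θ' (derivative f) = algebraMap (𝓞 K) (𝓞 L) (e0 : 𝓞 K) * α' ^ (p - 1) := by
    have h1 := congrArg (aeval θ') hfder
    simp only [map_mul, aeval_C, map_pow, map_add, aeval_X, map_one] at h1
    rw [← hlam', ← hα', mul_comm (algebraMap (𝓞 K) (𝓞 L) (e0 : 𝓞 K)), mul_assoc] at h1
    exact mul_left_cancel₀ (pow_ne_zero _ hlam'0) h1
  have hmem := aeval_derivative_mem_differentIdeal (𝓞 K) K L θ' hadjθ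
  rw [← hmin, hder] at hmem
  exact Ideal.eq_top_of_isUnit_mem _ hmem
    ((e0.isUnit.map (algebraMap (𝓞 K) (𝓞 L))).mul (hα'unit.pow _))

end Different

end Fermat.Agent.REG
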