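import Mathlib

/-!
# (R3, part A) Local reduction: a unit `u ≡ 1 mod p` of `ℤ[ζ_p]` is `≡ 1 mod (ζ - 1)^p`
-/

set_option autoImplicit false

open NumberField Polynomial

namespace Fermat.Agent.REG

section Local

variable {p : ℕ} [hp : Fact p.Prime] {K : Type} [Field K] [NumberField K]
  [hK : IsCyclotomicExtension {p} ℚ K] {ζ : K} (hζ : IsPrimitiveRoot ζ p)

/-- Every element of `ℤ[ζ]` is congruent to a rational integer modulo `ζ - 1`. -/
theorem exists_int_sub_dvd (x : 𝓞 K) : ∃ m : ℤ, (hζ.toInteger - 1) ∣ x - (m : 𝓞 K) := by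
  have : NeZero p := ⟨hp.out.ne_zero⟩
  obtain ⟨f, hf⟩ := hζ.integralPowerBasis.exists_eq_aeval' x
  rw [hζ.integralPowerBasis_gen] at hf
  refine ⟨f.eval 1, ?_⟩
  have h := Polynomial.sub_dvd_eval_sub hζ.toInteger 1 (f.map (algebraMap ℤ (𝓞 K)))
  rw [Polynomial.eval_map, ← Polynomial.aeval_def, ← hf, Polynomial.eval_one_map] at h
  simpa using h

omit hK in
/-- Galois conjugates of `ζ - 1` are associated to `ζ - 1`. -/
theorem galois_smul_zeta_sub_one_associated (σ : K ≃ₐ[ℚ] K) :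
    Associated (σ • (hζ.toInteger - 1)) (hζ.toInteger - 1) := by
  have : NeZero p := ⟨hp.out.ne_zero⟩
  have hη : IsPrimitiveRoot (σ ζ) p := hζ.map_of_injective σ.injective
  have h1 : σ • (hζ.toInteger - 1) = hη.toInteger - 1 := by
    apply RingOfIntegers.ext
    show σ ((hζ.toInteger - 1 : 𝓞 K) : K) = _
    simp only [map_sub, map_one]
    rfl
  rw [h1]
  exact (IsCyclotomicExtension.Rat.associated_sub_one_of_isPrimitiveRoot p hζ hη).symm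

omit hp in
include hK in
/-- The trace of an integer of `K` as the sum of its Galois conjugates. -/
theorem coe_trace_eq_sum_smul (x : 𝓞 K) :
    ((Algebra.trace ℤ (𝓞 K) x : ℤ) : 𝓞 K) = ∑ σ : K ≃ₐ[ℚ] K, σ • x := by
  have := IsCyclotomicExtension.isGalois {p} ℚ K
  apply RingOfIntegers.ext
  have h1 := trace_eq_sum_automorphisms (K := ℚ) (L := K) (x : K)
  have h2 := Algebra.coe_trace_int x
  rw [← h2] at h1
  have h3 : (((Algebra.trace ℤ (𝓞 K) x : ℤ) : 𝓞 K) : K) =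
      algebraMap ℚ K ((Algebra.trace ℤ (𝓞 K) x : ℤ) : ℚ) := by
    simp
  rw [h3, h1]
  have h4 : ((∑ σ : K ≃ₐ[ℚ] K, σ • x : 𝓞 K) : K) = ∑ σ : K ≃ₐ[ℚ] K, ((σ • x : 𝓞 K) : K) :=
    map_sum (algebraMap (𝓞 K) K) _ _
  rw [h4]
  rfl

/-- `Tr(x) ≡ (p - 1) m mod (ζ - 1)` when `x ≡ m mod (ζ - 1)`. -/
theorem zeta_sub_one_dvd_trace_sub (x : 𝓞 K) (m : ℤ)
    (hm : (hζ.toInteger - 1) ∣ x - (m : 𝓞 K)) :
    (hζ.toInteger - 1) ∣
      ((Algebra.trace ℤ (𝓞 K) x : ℤ) : 𝓞 K) - ((p - 1 : ℕ) : 𝓞 K) * (m : 𝓞 K) := by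
  have : NeZero p := ⟨hp.out.ne_zero⟩
  have := IsCyclotomicExtension.isGalois {p} ℚ K
  have hcard : Fintype.card (K ≃ₐ[ℚ] K) = p - 1 := by
    rw [← Nat.card_eq_fintype_card, IsGalois.card_aut_eq_finrank,
      IsCyclotomicExtension.Rat.finrank p K, Nat.totient_prime hp.out]
  have h1 : ((Algebra.trace ℤ (𝓞 K) x : ℤ) : 𝓞 K) - ((p - 1 : ℕ) : 𝓞 K) * (m : 𝓞 K) =
      ∑ σ : K ≃ₐ[ℚ] K, σ • (x - (m : 𝓞 K)) := by
    rw [coe_trace_eq_sum_smul (p := p)]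
    simp only [smul_sub, Finset.sum_sub_distrib]
    congr 1
    have h2 : ∀ σ : K ≃ₐ[ℚ] K, σ • ((m : ℤ) : 𝓞 K) = ((m : ℤ) : 𝓞 K) := fun σ =>
      map_intCast (MulSemiringAction.toRingHom (K ≃ₐ[ℚ] K) (𝓞 K) σ) m
    simp only [h2, Finset.sum_const, Finset.card_univ, hcard, nsmul_eq_mul]
  rw [h1]
  apply Finset.dvd_sum
  intro σ _
  obtain ⟨y, hy⟩ := hm
  rw [hy, smul_mul']
  exact Dvd.dvd.mul_right (galois_smul_zeta_sub_one_associated hζ σ).symm.dvd _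

omit hK in
/-- If `1 + p x` is a unit (`p` an odd prime), then `p ∣ Tr(x)`. -/
theorem dvd_trace_of_isUnit_one_add_mul (hp2 : p ≠ 2) (x : 𝓞 K)
    (hu : IsUnit (1 + (p : 𝓞 K) * x)) : (p : ℤ) ∣ Algebra.trace ℤ (𝓞 K) x := by
  classical
  set b := RingOfIntegers.basis K with hb
  have h1 : Algebra.leftMulMatrix b (1 + (p : 𝓞 K) * x) =
      1 + (p : ℤ) • Algebra.leftMulMatrix b x := by
    have : (p : 𝓞 K) * x = (p : ℤ) • x := by simp
    rw [this, map_add, map_one, map_zsmul]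
  have h2 : Algebra.norm ℤ (1 + (p : 𝓞 K) * x) =
      1 + Algebra.trace ℤ (𝓞 K) x * (p : ℤ) +
        Polynomial.eval (p : ℤ)
          (1 + (Polynomial.X : ℤ[X]) • (Algebra.leftMulMatrix b x).map ⇑Polynomial.C).det.divX.divX *
          (p : ℤ) ^ 2 := by
    rw [Algebra.norm_eq_matrix_det b, h1, Matrix.det_one_add_smul,
      ← Algebra.trace_eq_matrix_trace b]
  set E := Polynomial.eval (p : ℤ)
    (1 + (Polynomial.X : ℤ[X]) • (Algebra.leftMulMatrix b x).map ⇑Polynomial.C).det.divX.divX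
  have h3 : IsUnit (Algebra.norm ℤ (1 + (p : 𝓞 K) * x)) := hu.map _
  rw [h2, Int.isUnit_iff] at h3
  rcases h3 with h3 | h3
  · refine ⟨-E, ?_⟩
    have hp0 : (p : ℤ) ≠ 0 := by exact_mod_cast hp.out.ne_zero
    have : (p : ℤ) * (Algebra.trace ℤ (𝓞 K) x + E * p) = 0 := by linear_combination h3
    have := (mul_eq_zero.mp this).resolve_left hp0
    linear_combination this
  · exfalso
    have h4 : (p : ℤ) ∣ 2 := ⟨-(Algebra.trace ℤ (𝓞 K) x + E * p), by linear_combination h3⟩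
    have h5 : p ∣ 2 := by exact_mod_cast h4
    have h6 := Nat.le_of_dvd (by norm_num) h5
    have h7 := hp.out.two_le
    omega

/-- **Local step of Kummer's lemma**: a unit `u ≡ 1 mod p` is `≡ 1 mod (ζ - 1)^p`. -/
theorem exists_eq_one_add_pow_mul (hp2 : p ≠ 2) (u : (𝓞 K)ˣ)
    (h : (p : 𝓞 K) ∣ (u : 𝓞 K) - 1) :
    ∃ c : 𝓞 K, (u : 𝓞 K) = 1 + (hζ.toInteger - 1) ^ p * c := by
  obtain ⟨x, hx⟩ := h
  have hux : (u : 𝓞 K) = 1 + (p : 𝓞 K) * x := by rw [← hx]; ring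
  have htr := dvd_trace_of_isUnit_one_add_mul hp2 x (hux ▸ u.isUnit)
  obtain ⟨m, hm⟩ := exists_int_sub_dvd hζ x
  have h1 := zeta_sub_one_dvd_trace_sub hζ x m hm
  have hlamp : (hζ.toInteger - 1) ∣ (p : 𝓞 K) := by
    have := (IsCyclotomicExtension.Rat.zeta_sub_one_dvd_intCast_iff' p hζ (n := (p : ℤ))).mpr
      dvd_rfl
    simpa using this
  have h2 : (hζ.toInteger - 1) ∣ ((Algebra.trace ℤ (𝓞 K) x : ℤ) : 𝓞 K) :=
    (IsCyclotomicExtension.Rat.zeta_sub_one_dvd_intCast_iff' p hζ).mpr htr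
  have h3 : (hζ.toInteger - 1) ∣ ((p - 1 : ℕ) : 𝓞 K) * (m : 𝓞 K) := by
    have := dvd_sub h2 h1
    simpa using this
  have h4 : (hζ.toInteger - 1) ∣ (m : 𝓞 K) := by
    have h5 : (m : 𝓞 K) = (p : 𝓞 K) * (m : 𝓞 K) - ((p - 1 : ℕ) : 𝓞 K) * (m : 𝓞 K) := by
      have : ((p - 1 : ℕ) : 𝓞 K) = (p : 𝓞 K) - 1 := by
        rw [Nat.cast_sub hp.out.one_le, Nat.cast_one]
      rw [this]
      ring
    rw [h5]
    exact dvd_sub (Dvd.dvd.mul_right hlamp _) h3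
  have h6 : (hζ.toInteger - 1) ∣ x := by
    have := dvd_add hm h4
    simpa using this
  obtain ⟨x', hx'⟩ := h6
  obtain ⟨e0, he0⟩ := IsCyclotomicExtension.Rat.associated_zeta_sub_one_pow_prime p hζ
  refine ⟨(e0 : 𝓞 K) * x', ?_⟩
  rw [hux, hx', ← he0]
  have : (hζ.toInteger - 1) ^ p = (hζ.toInteger - 1) ^ (p - 1) * (hζ.toInteger - 1) := by
    rw [← pow_succ, Nat.sub_add_cancel hp.out.one_le]
  rw [this]
  ring

end Local

end Fermat.Agent.REG
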