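import Mathlib

/-!
# (R3, part C) Vanishing of `H¹(G, E_L)` for an everywhere unramified cyclic extension of a PID

Let `L/K` be a Galois extension of number fields with `𝓞 K` a PID and
`differentIdeal (𝓞 K) (𝓞 L) = ⊤`.  If `β ∈ 𝓞 L` is nonzero and associated to all its Galois
conjugates, then `β = a ε` with `a ∈ 𝓞 K` and `ε` a unit of `𝓞 L`.  Consequently (with the integral
form of Hilbert 90) every unit `η` of norm one in a cyclic such extension is of the form `ε / σ ε`.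
-/

set_option autoImplicit false

open NumberField

namespace Fermat.Agent.REG

variable {K L : Type} [Field K] [Field L] [NumberField K] [NumberField L] [Algebra K L]

/-- If the different is trivial, every nonzero prime of `𝓞 K` generates a squarefree ideal
of `𝓞 L`. -/
theorem squarefree_map_of_differentIdeal_eq_top
    (hdiff : differentIdeal (𝓞 K) (𝓞 L) = ⊤) (P : Ideal (𝓞 K)) [P.IsMaximal] (hP : P ≠ ⊥) :
    Squarefree (P.map (algebraMap (𝓞 K) (𝓞 L))) := by
  have hmap : P.map (algebraMap (𝓞 K) (𝓞 L)) ≠ ⊥ :=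
    (Ideal.map_eq_bot_iff_of_injective (RingOfIntegers.algebraMap.injective K L)).not.mpr hP
  rw [squarefree_iff_irreducible_sq_not_dvd_of_ne_zero hmap]
  intro Q hQ hdvd
  have hQp : Prime Q := UniqueFactorizationMonoid.irreducible_iff_prime.mp hQ
  have hQ' : Q.IsPrime := Ideal.isPrime_of_prime hQp
  have h2 : Q ^ 2 ∣ P.map (algebraMap (𝓞 K) (𝓞 L)) := by rwa [pow_two]
  have h3 := pow_sub_one_dvd_differentIdeal (𝓞 K) Q 2 hP h2
  rw [hdiff] at h3
  simp only [Nat.add_one_sub_one, pow_one] at h3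
  have h4 : (⊤ : Ideal (𝓞 L)) ≤ Q := Ideal.le_of_dvd h3
  exact hQ'.ne_top (top_le_iff.mp h4)

/-- If the different is trivial, a prime element of `𝓞 K` dividing a power of `β ∈ 𝓞 L`
divides `β`. -/
theorem dvd_of_dvd_pow_of_differentIdeal_eq_top
    (hdiff : differentIdeal (𝓞 K) (𝓞 L) = ⊤) {π : 𝓞 K} (hπ : Prime π) {β : 𝓞 L} {n : ℕ}
    (h : algebraMap (𝓞 K) (𝓞 L) π ∣ β ^ n) : algebraMap (𝓞 K) (𝓞 L) π ∣ β := by
  have hP : (Ideal.span {π} : Ideal (𝓞 K)) ≠ ⊥ := by
    rw [Ne, Ideal.span_singleton_eq_bot]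
    exact hπ.ne_zero
  have hprime : (Ideal.span {π} : Ideal (𝓞 K)).IsPrime :=
    (Ideal.span_singleton_prime hπ.ne_zero).mpr hπ
  have : (Ideal.span {π} : Ideal (𝓞 K)).IsMaximal := hprime.isMaximal hP
  have hsq := squarefree_map_of_differentIdeal_eq_top hdiff (Ideal.span {π}) hP
  rw [Ideal.map_span, Set.image_singleton] at hsq
  have h1 : Ideal.span {algebraMap (𝓞 K) (𝓞 L) π} ∣ (Ideal.span {β} : Ideal (𝓞 L)) ^ n := by
    rw [Ideal.span_singleton_pow, Ideal.dvd_span_singleton, Ideal.mem_span_singleton]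
    exact h
  have h2 := hsq.isRadical n _ h1
  rwa [Ideal.dvd_span_singleton, Ideal.mem_span_singleton] at h2

omit [NumberField K] in
/-- An element of `𝓞 K` that becomes a unit in `𝓞 L` is a unit. -/
theorem isUnit_of_isUnit_algebraMap {a : 𝓞 K} (h : IsUnit (algebraMap (𝓞 K) (𝓞 L) a)) :
    IsUnit a := by
  obtain ⟨w, hw⟩ := h.exists_right_inv
  have ha0 : (a : K) ≠ 0 := by
    intro h0
    have : a = 0 := RingOfIntegers.coe_eq_zero_iff.mp h0
    rw [this, map_zero, zero_mul] at hw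
    exact zero_ne_one hw
  have h1 : algebraMap K L (a : K) * (w : L) = 1 := by
    have := congrArg (fun x : 𝓞 L => (x : L)) hw
    simp only [map_mul, map_one] at this
    rw [← this]
    rfl
  have h2 : (w : L) = algebraMap K L ((a : K)⁻¹) := by
    rw [map_inv₀]
    exact eq_inv_of_mul_eq_one_right h1
  have h3 : IsIntegral ℤ ((a : K)⁻¹) := by
    rw [← isIntegral_algebraMap_iff (algebraMap K L).injective, ← h2]
    exact RingOfIntegers.isIntegral_coe w
  refine ⟨⟨a, ⟨(a : K)⁻¹, h3⟩, ?_, ?_⟩, rfl⟩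
  · apply RingOfIntegers.ext
    show (a : K) * (a : K)⁻¹ = 1
    exact mul_inv_cancel₀ ha0
  · apply RingOfIntegers.ext
    show (a : K)⁻¹ * (a : K) = 1
    exact inv_mul_cancel₀ ha0

variable [IsGalois K L]

/-- The product of the Galois conjugates of `β ∈ 𝓞 L` comes from `𝓞 K`. -/
theorem exists_algebraMap_eq_prod_galRestrict (β : 𝓞 L) :
    ∃ b : 𝓞 K, algebraMap (𝓞 K) (𝓞 L) b =
      ∏ σ : Gal(L/K), galRestrict (𝓞 K) K L (𝓞 L) σ β :=
  ⟨_, (prod_galRestrict_eq_norm (𝓞 K) K L (𝓞 L) β).symm⟩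

/-- **Galois-invariant principal ideals of an unramified extension of a PID are generated by
elements of the base.** -/
theorem exists_eq_mul_unit_of_associated_galRestrict [IsPrincipalIdealRing (𝓞 K)]
    (hdiff : differentIdeal (𝓞 K) (𝓞 L) = ⊤) (β : 𝓞 L) (hβ : β ≠ 0)
    (h : ∀ τ : Gal(L/K), Associated (galRestrict (𝓞 K) K L (𝓞 L) τ β) β) :
    ∃ (a : 𝓞 K) (ε : (𝓞 L)ˣ), β = algebraMap (𝓞 K) (𝓞 L) a * ε := by
  induction β using (wellFounded_dvdNotUnit (α := 𝓞 L)).induction with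
  | _ β ih =>
  obtain ⟨b, hb⟩ := exists_algebraMap_eq_prod_galRestrict (K := K) β
  have hassoc : Associated (algebraMap (𝓞 K) (𝓞 L) b) (β ^ Fintype.card Gal(L/K)) := by
    rw [hb]
    have := Associated.prod Finset.univ (fun τ : Gal(L/K) => galRestrict (𝓞 K) K L (𝓞 L) τ β)
      (fun _ => β) (fun τ _ => h τ)
    rwa [Finset.prod_const, Finset.card_univ] at this
  have hcard : Fintype.card Gal(L/K) ≠ 0 := Fintype.card_ne_zero
  have hb0 : b ≠ 0 := by
    rintro rfl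
    rw [map_zero] at hassoc
    exact pow_ne_zero _ hβ (hassoc.eq_zero_iff.mp rfl)
  by_cases hbu : IsUnit b
  · -- `β` is a unit
    have h1 : IsUnit (β ^ Fintype.card Gal(L/K)) :=
      (hassoc.isUnit_iff).mp (hbu.map (algebraMap (𝓞 K) (𝓞 L)))
    have h2 : IsUnit β := (isUnit_pow_iff hcard).mp h1
    exact ⟨1, h2.unit, by simp⟩
  · obtain ⟨π, hπ, hπb⟩ := WfDvdMonoid.exists_irreducible_factor hbu hb0
    have hπ' : Prime π := UniqueFactorizationMonoid.irreducible_iff_prime.mp hπ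
    have h1 : algebraMap (𝓞 K) (𝓞 L) π ∣ β ^ Fintype.card Gal(L/K) :=
      ((map_dvd (algebraMap (𝓞 K) (𝓞 L)) hπb).trans hassoc.dvd)
    obtain ⟨β', hβ'⟩ := dvd_of_dvd_pow_of_differentIdeal_eq_top hdiff hπ' h1
    have hπL0 : algebraMap (𝓞 K) (𝓞 L) π ≠ 0 := by
      rw [Ne, map_eq_zero_iff _ (RingOfIntegers.algebraMap.injective K L)]
      exact hπ'.ne_zero
    have hβ'0 : β' ≠ 0 := by
      rintro rfl
      rw [mul_zero] at hβ'
      exact hβ hβ'
    have hπLu : ¬ IsUnit (algebraMap (𝓞 K) (𝓞 L) π) := fun hu =>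
      hπ.not_isUnit (isUnit_of_isUnit_algebraMap hu)
    have hdnu : DvdNotUnit β' β :=
      ⟨hβ'0, algebraMap (𝓞 K) (𝓞 L) π, hπLu, by rw [hβ', mul_comm]⟩
    have hτ' : ∀ τ : Gal(L/K), Associated (galRestrict (𝓞 K) K L (𝓞 L) τ β') β' := by
      intro τ
      have h2 := h τ
      rw [hβ', map_mul, AlgEquiv.commutes] at h2
      exact h2.of_mul_left (Associated.refl _) hπL0
    obtain ⟨a', ε, ha'⟩ := ih β' hdnu hβ'0 hτ'
    exact ⟨π * a', ε, by rw [hβ', ha', map_mul, mul_assoc]⟩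

omit [NumberField L] in
/-- If `σ β` is associated to `β` for a generator `σ` of the Galois group, the same holds for all
elements of the Galois group. -/
theorem associated_galRestrict_of_zpowers {g : Gal(L/K)} (hg : ∀ x, x ∈ Subgroup.zpowers g)
    {β : 𝓞 L} (h : Associated (galRestrict (𝓞 K) K L (𝓞 L) g β) β) (τ : Gal(L/K)) :
    Associated (galRestrict (𝓞 K) K L (𝓞 L) τ β) β := by
  let S : Subgroup Gal(L/K) :=
    { carrier := {τ | Associated (galRestrict (𝓞 K) K L (𝓞 L) τ β) β}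
      one_mem' := by
        show Associated (galRestrict (𝓞 K) K L (𝓞 L) 1 β) β
        rw [map_one]
        exact Associated.refl _
      mul_mem' := by
        intro τ₁ τ₂ h₁ h₂
        show Associated (galRestrict (𝓞 K) K L (𝓞 L) (τ₁ * τ₂) β) β
        rw [map_mul]
        have h₂' : Associated (galRestrict (𝓞 K) K L (𝓞 L) τ₂ β) β := h₂
        have h₁' : Associated (galRestrict (𝓞 K) K L (𝓞 L) τ₁ β) β := h₁
        exact (h₂'.map (galRestrict (𝓞 K) K L (𝓞 L) τ₁ : 𝓞 L →* 𝓞 L)).trans h₁'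
      inv_mem' := by
        intro τ₁ h₁
        show Associated (galRestrict (𝓞 K) K L (𝓞 L) τ₁⁻¹ β) β
        have h₁' : Associated (galRestrict (𝓞 K) K L (𝓞 L) τ₁ β) β := h₁
        have h2 := h₁'.map (galRestrict (𝓞 K) K L (𝓞 L) τ₁⁻¹ : 𝓞 L →* 𝓞 L)
        have h3 : (galRestrict (𝓞 K) K L (𝓞 L) τ₁⁻¹ : 𝓞 L →* 𝓞 L)
            (galRestrict (𝓞 K) K L (𝓞 L) τ₁ β) = β := by
          show galRestrict (𝓞 K) K L (𝓞 L) τ₁⁻¹ (galRestrict (𝓞 K) K L (𝓞 L) τ₁ β) = β
          rw [← AlgEquiv.mul_apply, ← map_mul, inv_mul_cancel, map_one]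
          rfl
        rw [h3] at h2
        exact h2.symm }
  have hgS : g ∈ S := h
  have hle : Subgroup.zpowers g ≤ S := (Subgroup.zpowers_le).mpr hgS
  exact hle (hg τ)

/-- **`H¹(Gal(L/K), (𝓞 L)ˣ) = 0`** for a cyclic extension `L/K` of number fields with `𝓞 K` a PID
and trivial different: every unit of norm `1` is of the form `ε / σ ε`. -/
theorem exists_unit_mul_galRestrict_eq [IsCyclic Gal(L/K)] [IsPrincipalIdealRing (𝓞 K)]
    (hdiff : differentIdeal (𝓞 K) (𝓞 L) = ⊤) {g : Gal(L/K)} (hg : ∀ x, x ∈ Subgroup.zpowers g)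
    (η : (𝓞 L)ˣ) (hη : Algebra.norm K ((η : 𝓞 L) : L) = 1) :
    ∃ ε : (𝓞 L)ˣ, (η : 𝓞 L) * galRestrict (𝓞 K) K L (𝓞 L) g ε = ε := by
  obtain ⟨β, hβ0, hβ⟩ := groupCohomology.exists_mul_galRestrict_of_norm_eq_one
    (A := 𝓞 K) (B := 𝓞 L) hg (η := (η : 𝓞 L)) hη
  have hassoc : Associated (galRestrict (𝓞 K) K L (𝓞 L) g β) β :=
    ⟨η, by rw [mul_comm]; exact hβ⟩
  obtain ⟨a, ε, rfl⟩ := exists_eq_mul_unit_of_associated_galRestrict hdiff β hβ0
    (associated_galRestrict_of_zpowers hg hassoc)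
  refine ⟨ε, ?_⟩
  have ha0 : algebraMap (𝓞 K) (𝓞 L) a ≠ 0 := by
    rintro h0
    rw [h0, zero_mul] at hβ0
    exact hβ0 rfl
  rw [map_mul, AlgEquiv.commutes, mul_left_comm] at hβ
  exact mul_left_cancel₀ ha0 hβ

end Fermat.Agent.REG
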