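import Mathlib
import Fermat.Agent.REG.Kummer_helper6_H1

/-!
# (R3, part D1) The unit group of a cyclic extension `L/K` of degree `p` of a totally complex field

Ranks, fixed points, torsion and the norm, as needed to feed the abstract "Hilbert 92" lemma (D0).
-/

set_option autoImplicit false

open NumberField

namespace Fermat.Agent.REG

section Ranks

variable (K L : Type) [Field K] [Field L] [NumberField K] [NumberField L] [Algebra K L]

/-- For a totally complex number field, the number of infinite places is half the degree. -/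
theorem two_mul_card_infinitePlace [IsTotallyComplex K] :
    2 * Fintype.card (InfinitePlace K) = Module.finrank ℚ K := by
  rw [InfinitePlace.card_eq_nrRealPlaces_add_nrComplexPlaces, IsTotallyComplex.nrRealPlaces_eq_zero,
    zero_add, IsTotallyComplex.finrank]

/-- The number of infinite places of an extension of a totally complex field. -/
theorem card_infinitePlace_eq_mul [IsTotallyComplex K] :
    Fintype.card (InfinitePlace L) = Module.finrank K L * Fintype.card (InfinitePlace K) := by
  have : IsTotallyComplex L := isTotallyComplex_of_algebra K L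
  have h1 := two_mul_card_infinitePlace K
  have h2 := two_mul_card_infinitePlace L
  have h3 := Module.finrank_mul_finrank ℚ K L
  have : 2 * Fintype.card (InfinitePlace L) =
      2 * (Module.finrank K L * Fintype.card (InfinitePlace K)) := by
    rw [h2, ← h3, ← h1]
    ring
  exact Nat.eq_of_mul_eq_mul_left two_pos this

/-- The rank of the unit group plus one is the number of infinite places. -/
theorem finrank_units_add_one :
    Module.finrank ℤ (Additive (𝓞 K)ˣ) + 1 = Fintype.card (InfinitePlace K) := by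
  rw [Units.finrank_eq, Units.rank]
  have : 0 < Fintype.card (InfinitePlace K) := Fintype.card_pos
  omega

end Ranks

section Gen

/-- The `ℤ`-rank of an additive subgroup contained in the range of an additive homomorphism
is at most the rank of the source. -/
theorem finrank_addSubgroup_le_of_le_range {M N : Type*} [AddCommGroup M] [AddCommGroup N]
    [Module.Finite ℤ M] [Module.Finite ℤ N] (f : M →+ N) (B : AddSubgroup N) (hB : B ≤ f.range) :
    Module.finrank ℤ B ≤ Module.finrank ℤ M := by
  let Bs : Submodule ℤ N := AddSubgroup.toIntSubmodule B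
  have h1 : Bs ≤ LinearMap.range f.toIntLinearMap := by
    intro x hx
    obtain ⟨y, hy⟩ := hB hx
    exact ⟨y, hy⟩
  have h2 : Module.finrank ℤ Bs ≤ Module.finrank ℤ (LinearMap.range f.toIntLinearMap) :=
    Submodule.finrank_mono h1
  have h3 := LinearMap.finrank_range_le f.toIntLinearMap
  have e : B ≃+ Bs :=
    { toFun := fun x => ⟨x.1, x.2⟩
      invFun := fun x => ⟨x.1, x.2⟩
      left_inv := fun _ => rfl
      right_inv := fun _ => rfl
      map_add' := fun _ _ => rfl }
  rw [e.toIntLinearEquiv.finrank_eq]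
  exact h2.trans h3

/-- The `p`-torsion of any subgroup of the (additively written) unit group of a domain has at most
`p` elements. -/
theorem card_torsion_addSubgroup_units_le {R : Type*} [CommRing R] [IsDomain R] (p : ℕ) [NeZero p]
    (B : AddSubgroup (Additive Rˣ)) : Nat.card {b : B // p • b = 0} ≤ p := by
  have hfin : Finite (rootsOfUnity p R) := inferInstance
  refine le_trans (Nat.card_le_card_of_injective
    (fun b : {b : B // p • b = 0} => (⟨Additive.toMul (b.1 : Additive Rˣ), ?_⟩ : rootsOfUnity p R))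
    ?_) (card_rootsOfUnity R p)
  · rw [mem_rootsOfUnity]
    have h : p • ((b.1 : B) : Additive Rˣ) = 0 := congrArg Subtype.val b.2
    have h' := congrArg Additive.toMul h
    rw [toMul_nsmul, toMul_zero] at h'
    exact h'
  · intro b c hbc
    have h := congrArg (fun x : rootsOfUnity p R => (x : Rˣ)) hbc
    apply Subtype.ext
    apply Subtype.ext
    exact Additive.toMul.injective h

end Gen

section Action

variable {K L : Type} [Field K] [Field L] [NumberField K] [NumberField L] [Algebra K L]

/-- The action of `g ∈ Gal(L/K)` on the units of `𝓞 L`, written additively. -/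
noncomputable def unitsAddHom (g : Gal(L/K)) : Additive (𝓞 L)ˣ →+ Additive (𝓞 L)ˣ :=
  MonoidHom.toAdditive
    (Units.map ((galRestrict (𝓞 K) K L (𝓞 L) g : 𝓞 L →ₐ[𝓞 K] 𝓞 L) : 𝓞 L →* 𝓞 L))

theorem unitsAddHom_apply (g : Gal(L/K)) (η : Additive (𝓞 L)ˣ) :
    ((unitsAddHom g η).toMul : 𝓞 L) = galRestrict (𝓞 K) K L (𝓞 L) g ((η.toMul : (𝓞 L)ˣ) : 𝓞 L) :=
  rfl

theorem unitsAddHom_iterate (g : Gal(L/K)) (k : ℕ) (η : Additive (𝓞 L)ˣ) :
    (unitsAddHom g)^[k] η = unitsAddHom (g ^ k) η := by
  induction k with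
  | zero =>
    apply Additive.toMul.injective
    apply Units.ext
    rw [Function.iterate_zero, id, unitsAddHom_apply, pow_zero, map_one]
    rfl
  | succ k ih =>
    apply Additive.toMul.injective
    apply Units.ext
    rw [Function.iterate_succ_apply', ih, unitsAddHom_apply, unitsAddHom_apply, unitsAddHom_apply,
      pow_succ', map_mul]
    rfl

theorem coe_unitsAddHom_apply (g : Gal(L/K)) (η : Additive (𝓞 L)ˣ) :
    ((((unitsAddHom g η).toMul : (𝓞 L)ˣ) : 𝓞 L) : L) = g ((((η.toMul : (𝓞 L)ˣ) : 𝓞 L) : L)) := by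
  rw [unitsAddHom_apply]
  exact algebraMap_galRestrict_apply (𝓞 K) g _

theorem orderOf_eq_finrank [IsGalois K L] {g : Gal(L/K)} (hg : ∀ x, x ∈ Subgroup.zpowers g) :
    orderOf g = Module.finrank K L := by
  rw [orderOf_eq_card_of_forall_mem_zpowers hg, IsGalois.card_aut_eq_finrank]

theorem unitsAddHom_iterate_finrank [IsGalois K L] {g : Gal(L/K)}
    (hg : ∀ x, x ∈ Subgroup.zpowers g) (η : Additive (𝓞 L)ˣ) :
    (unitsAddHom g)^[Module.finrank K L] η = η := by
  rw [unitsAddHom_iterate, ← orderOf_eq_finrank hg, pow_orderOf_eq_one]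
  apply Additive.toMul.injective
  apply Units.ext
  rw [unitsAddHom_apply, map_one]
  rfl

/-- The norm as a product over the powers of a generator. -/
theorem algebraMap_norm_eq_prod_range [IsGalois K L] {g : Gal(L/K)}
    (hg : ∀ x, x ∈ Subgroup.zpowers g) (x : L) :
    algebraMap K L (Algebra.norm K x) = ∏ i ∈ Finset.range (Module.finrank K L), (g ^ i) x := by
  classical
  rw [Algebra.norm_eq_prod_automorphisms, ← orderOf_eq_finrank hg,
    ← IsCyclic.image_range_orderOf hg, Finset.prod_image]
  intro i hi j hj hij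
  exact pow_injOn_Iio_orderOf (by simpa using hi) (by simpa using hj) hij

theorem norm_eq_one_of_sum_iterate_eq_zero [IsGalois K L] {g : Gal(L/K)}
    (hg : ∀ x, x ∈ Subgroup.zpowers g) (η : Additive (𝓞 L)ˣ)
    (h : ∑ i ∈ Finset.range (Module.finrank K L), (unitsAddHom g)^[i] η = 0) :
    Algebra.norm K ((((η.toMul : (𝓞 L)ˣ) : 𝓞 L) : L)) = 1 := by
  apply (algebraMap K L).injective
  rw [algebraMap_norm_eq_prod_range hg, map_one]
  have h1 := congrArg (fun a : Additive (𝓞 L)ˣ => ((((a.toMul : (𝓞 L)ˣ) : 𝓞 L) : L))) h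
  simp only [toMul_sum, Units.coe_prod, toMul_zero, Units.val_one, map_one] at h1
  rw [← h1]
  rw [show ((∏ i ∈ Finset.range (Module.finrank K L),
      (((Additive.toMul ((unitsAddHom g)^[i] η) : (𝓞 L)ˣ) : 𝓞 L)) : 𝓞 L) : L) =
      ∏ i ∈ Finset.range (Module.finrank K L),
      ((((Additive.toMul ((unitsAddHom g)^[i] η) : (𝓞 L)ˣ) : 𝓞 L)) : L) from
      map_prod (algebraMap (𝓞 L) L) _ _]
  refine Finset.prod_congr rfl fun i _ => ?_
  rw [unitsAddHom_iterate, coe_unitsAddHom_apply]

/-- The inclusion of the units of `𝓞 K` into the units of `𝓞 L`, written additively. -/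
noncomputable def unitsBaseHom (K L : Type) [Field K] [Field L] [NumberField K] [NumberField L]
    [Algebra K L] : Additive (𝓞 K)ˣ →+ Additive (𝓞 L)ˣ :=
  MonoidHom.toAdditive (Units.map (algebraMap (𝓞 K) (𝓞 L) : 𝓞 K →* 𝓞 L))

theorem unitsBaseHom_apply (ε : Additive (𝓞 K)ˣ) :
    ((unitsBaseHom K L ε).toMul : 𝓞 L) = algebraMap (𝓞 K) (𝓞 L) ((ε.toMul : (𝓞 K)ˣ) : 𝓞 K) :=
  rfl

theorem unitsAddHom_unitsBaseHom (g : Gal(L/K)) (ε : Additive (𝓞 K)ˣ) :
    unitsAddHom g (unitsBaseHom K L ε) = unitsBaseHom K L ε := by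
  apply Additive.toMul.injective
  apply Units.ext
  rw [unitsAddHom_apply, unitsBaseHom_apply]
  exact (galRestrict (𝓞 K) K L (𝓞 L) g).commutes _

theorem unitsBaseHom_injective : Function.Injective (unitsBaseHom K L) := by
  intro a b hab
  have h := congrArg (fun x : Additive (𝓞 L)ˣ => ((x.toMul : (𝓞 L)ˣ) : 𝓞 L)) hab
  simp only [unitsBaseHom_apply] at h
  apply Additive.toMul.injective
  apply Units.ext
  exact RingOfIntegers.algebraMap.injective K L h

/-- A unit of `𝓞 L` fixed by a generator of the Galois group comes from `𝓞 K`. -/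
theorem mem_range_unitsBaseHom_of_fixed [IsGalois K L] {g : Gal(L/K)}
    (hg : ∀ x, x ∈ Subgroup.zpowers g) (η : Additive (𝓞 L)ˣ) (h : unitsAddHom g η = η) :
    η ∈ (unitsBaseHom K L).range := by
  have h1 : g ((((η.toMul : (𝓞 L)ˣ) : 𝓞 L) : L)) = (((η.toMul : (𝓞 L)ˣ) : 𝓞 L) : L) := by
    rw [← coe_unitsAddHom_apply, h]
  have h2 : ∀ σ : Gal(L/K), σ ((((η.toMul : (𝓞 L)ˣ) : 𝓞 L) : L)) =
      (((η.toMul : (𝓞 L)ˣ) : 𝓞 L) : L) := by
    intro σ
    obtain ⟨k, rfl⟩ := Subgroup.mem_zpowers_iff.mp (hg σ)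
    have hmem : g ∈ MulAction.stabilizer Gal(L/K) ((((η.toMul : (𝓞 L)ˣ) : 𝓞 L) : L)) := h1
    exact Subgroup.zpow_mem _ hmem k
  obtain ⟨y, hy⟩ := (IsGalois.mem_range_algebraMap_iff_fixed (F := K) _).mpr h2
  have hyint : IsIntegral ℤ y := by
    rw [← isIntegral_algebraMap_iff (algebraMap K L).injective, hy]
    exact RingOfIntegers.isIntegral_coe _
  have hmap : algebraMap (𝓞 K) (𝓞 L) ⟨y, hyint⟩ = ((η.toMul : (𝓞 L)ˣ) : 𝓞 L) := by
    apply RingOfIntegers.ext
    rw [← hy]
    rfl
  have hunit : IsUnit (⟨y, hyint⟩ : 𝓞 K) := by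
    apply isUnit_of_isUnit_algebraMap (L := L)
    rw [hmap]
    exact Units.isUnit _
  refine ⟨Additive.ofMul hunit.unit, ?_⟩
  apply Additive.toMul.injective
  apply Units.ext
  rw [unitsBaseHom_apply, ← hmap]
  rfl

/-- The rank of the group of units of `𝓞 L` fixed by a generator of `Gal(L/K)`. -/
theorem finrank_fixed_units_add_one_le [IsGalois K L] {g : Gal(L/K)}
    (hg : ∀ x, x ∈ Subgroup.zpowers g) (B : AddSubgroup (Additive (𝓞 L)ˣ))
    (hB : ∀ a, a ∈ B → unitsAddHom g a = a) :
    Module.finrank ℤ B + 1 ≤ Fintype.card (InfinitePlace K) := by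
  rw [← finrank_units_add_one K]
  exact Nat.add_le_add_right (finrank_addSubgroup_le_of_le_range (unitsBaseHom K L) B
    fun a ha => mem_range_unitsBaseHom_of_fixed hg a (hB a ha)) 1

end Action

end Fermat.Agent.REG
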