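import Mathlib
import Fermat.Agent.REG.Defs
import Fermat.Agent.REG.Kummer_helper6_Local
import Fermat.Agent.REG.Kummer_helper6_Different
import Fermat.Agent.REG.Kummer_helper6_Units

/-!
# (R3) Kummer's lemma for `ℚ(ζ_p)` with `ℤ[ζ_p]` a PID, modulo the abstract lemma (D0)
-/

set_option autoImplicit false

open NumberField Polynomial

namespace Fermat.Agent.REG

/-- The statement of the abstract "Hilbert 92" lemma (D0), for modules in `Type`. -/
def Hilbert92Abstract : Prop :=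
  ∀ (A : Type) [AddCommGroup A] [Module.Finite ℤ A] (p r : ℕ) [Fact p.Prime] (s : A →+ A)
    (_ : ∀ a, s^[p] a = a) (_ : Module.finrank ℤ A + 1 = p * r) (B : AddSubgroup A)
    (_ : ∀ a, a ∈ B ↔ s a = a) (_ : Module.finrank ℤ B + 1 ≤ r)
    (_ : Nat.card {b : B // p • b = 0} ≤ p) (t : A) (_ : s t = t) (_ : t ≠ 0) (_ : p • t = 0),
    ∃ η : A, (∑ i ∈ Finset.range p, s^[i] η) = 0 ∧ ∀ ε : A, η ≠ s ε - ε

section Main

variable {p : ℕ} [hp : Fact p.Prime] {K : Type} [Field K] [NumberField K]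
  [hK : IsCyclotomicExtension {p} ℚ K] {ζ : K} (hζ : IsPrimitiveRoot ζ p)

include hζ in
/-- There is no cyclic extension `L/K` of degree `p` with trivial different, for `K = ℚ(ζ_p)` with
`𝓞 K` a PID: (C) says `H¹(G, (𝓞 L)ˣ) = 0` and (D) says it is not. -/
theorem false_of_cyclic_of_differentIdeal_eq_top (H92 : Hilbert92Abstract) (hp2 : p ≠ 2)
    [IsPrincipalIdealRing (𝓞 K)] (L : Type) [Field L] [NumberField L] [Algebra K L]
    [IsGalois K L] [IsCyclic Gal(L/K)] (hfin : Module.finrank K L = p)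
    (hdiff : differentIdeal (𝓞 K) (𝓞 L) = ⊤) : False := by
  have : NeZero p := ⟨hp.out.ne_zero⟩
  obtain ⟨g, hg⟩ := IsCyclic.exists_generator (α := Gal(L/K))
  -- the data for (D0)
  have hp3 : 2 < p := lt_of_le_of_ne hp.out.two_le (Ne.symm hp2)
  have : IsTotallyComplex K := IsCyclotomicExtension.Rat.isTotallyComplex K hp3
  have hA : Module.finrank ℤ (Additive (𝓞 L)ˣ) + 1 = p * Fintype.card (InfinitePlace K) := by
    rw [finrank_units_add_one L, card_infinitePlace_eq_mul K L, hfin]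
  have hs : ∀ a, (unitsAddHom g)^[p] a = a := by
    intro a
    rw [← hfin]
    exact unitsAddHom_iterate_finrank hg a
  let B : AddSubgroup (Additive (𝓞 L)ˣ) :=
    AddMonoidHom.eqLocus (unitsAddHom g) (AddMonoidHom.id _)
  have hB : ∀ a, a ∈ B ↔ unitsAddHom g a = a := fun a => Iff.rfl
  have hrB : Module.finrank ℤ B + 1 ≤ Fintype.card (InfinitePlace K) :=
    finrank_fixed_units_add_one_le hg B fun a ha => (hB a).mp ha
  have hBp : Nat.card {b : B // p • b = 0} ≤ p := card_torsion_addSubgroup_units_le p B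
  have hζu : IsUnit hζ.toInteger := hζ.toInteger_isPrimitiveRoot.isUnit hp.out.ne_zero
  let t0 : Additive (𝓞 K)ˣ := Additive.ofMul hζu.unit
  let t : Additive (𝓞 L)ˣ := unitsBaseHom K L t0
  have ht : unitsAddHom g t = t := unitsAddHom_unitsBaseHom g t0
  have ht0 : t ≠ 0 := by
    intro h0
    have h1 : t0 = 0 := by
      apply unitsBaseHom_injective (K := K) (L := L)
      rw [map_zero]
      exact h0
    have h2 : hζ.toInteger = 1 := by
      have := congrArg (fun x : Additive (𝓞 K)ˣ => ((x.toMul : (𝓞 K)ˣ) : 𝓞 K)) h1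
      simpa [t0] using this
    exact hζ.toInteger_isPrimitiveRoot.ne_one hp.out.one_lt h2
  have htp : p • t = 0 := by
    rw [← map_nsmul]
    have h1 : p • t0 = 0 := by
      apply Additive.toMul.injective
      apply Units.ext
      simp only [t0, toMul_nsmul, toMul_ofMul, Units.val_pow_eq_pow_val, IsUnit.unit_spec,
        toMul_zero, Units.val_one]
      exact hζ.toInteger_isPrimitiveRoot.pow_eq_one
    rw [h1, map_zero]
  obtain ⟨η, hη1, hη2⟩ := H92 (Additive (𝓞 L)ˣ) p (Fintype.card (InfinitePlace K))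
    (unitsAddHom g) hs hA B hB hrB hBp t ht ht0 htp
  -- (C) applied to η
  have hnorm : Algebra.norm K ((((η.toMul : (𝓞 L)ˣ) : 𝓞 L) : L)) = 1 := by
    apply norm_eq_one_of_sum_iterate_eq_zero hg
    rw [hfin]
    exact hη1
  obtain ⟨ε, hε⟩ := exists_unit_mul_galRestrict_eq hdiff hg η.toMul hnorm
  apply hη2 (Additive.ofMul ε⁻¹)
  apply Additive.toMul.injective
  apply Units.ext
  have h3 : ((Additive.toMul (unitsAddHom g (Additive.ofMul ε⁻¹) - Additive.ofMul ε⁻¹) :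
      (𝓞 L)ˣ) : 𝓞 L) = ((Additive.toMul (unitsAddHom g (Additive.ofMul ε⁻¹)) : (𝓞 L)ˣ) : 𝓞 L)
        * (ε : 𝓞 L) := by
    rw [toMul_sub, toMul_ofMul, div_eq_mul_inv, inv_inv, Units.val_mul]
  rw [h3, unitsAddHom_apply, toMul_ofMul]
  have h4 : galRestrict (𝓞 K) K L (𝓞 L) g ((ε⁻¹ : (𝓞 L)ˣ) : 𝓞 L) *
      galRestrict (𝓞 K) K L (𝓞 L) g (ε : 𝓞 L) = 1 := by
    rw [← map_mul, Units.inv_mul, map_one]
  calc ((η.toMul : (𝓞 L)ˣ) : 𝓞 L)
      = ((η.toMul : (𝓞 L)ˣ) : 𝓞 L) * (galRestrict (𝓞 K) K L (𝓞 L) g (ε : 𝓞 L) *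
          galRestrict (𝓞 K) K L (𝓞 L) g ((ε⁻¹ : (𝓞 L)ˣ) : 𝓞 L)) := by
        rw [mul_comm (galRestrict (𝓞 K) K L (𝓞 L) g (ε : 𝓞 L)), h4, mul_one]
    _ = galRestrict (𝓞 K) K L (𝓞 L) g ((ε⁻¹ : (𝓞 L)ˣ) : 𝓞 L) * (ε : 𝓞 L) := by
        rw [← mul_assoc, hε, mul_comm]

/-- Key step: a unit `u ≡ 1 mod (ζ-1)^p` is a `p`-th power of a unit. -/
theorem exists_eq_pow_of_eq_one_add_pow_mul (H92 : Hilbert92Abstract) (hp2 : p ≠ 2)
    [IsPrincipalIdealRing (𝓞 K)] (u : (𝓞 K)ˣ) {c : 𝓞 K}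
    (hu : (u : 𝓞 K) = 1 + (hζ.toInteger - 1) ^ p * c) : ∃ v : (𝓞 K)ˣ, u = v ^ p := by
  by_contra hnot'
  have hnot : ∀ v : (𝓞 K)ˣ, u ≠ v ^ p := fun v hv => hnot' ⟨v, hv⟩
  have : NeZero p := ⟨hp.out.ne_zero⟩
  have hirr : ∀ b : K, b ^ p ≠ ((u : 𝓞 K) : K) := by
    intro b hb
    have hbint : IsIntegral ℤ b := by
      apply IsIntegral.of_pow hp.out.pos
      rw [hb]
      exact RingOfIntegers.isIntegral_coe _
    have hb' : (⟨b, hbint⟩ : 𝓞 K) ^ p = (u : 𝓞 K) := by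
      apply RingOfIntegers.ext
      rw [← hb]
      rfl
    have hbu : IsUnit (⟨b, hbint⟩ : 𝓞 K) := by
      rw [← isUnit_pow_iff hp.out.ne_zero, hb']
      exact u.isUnit
    apply hnot hbu.unit
    apply Units.ext
    rw [Units.val_pow_eq_pow_val, IsUnit.unit_spec]
    exact hb'.symm
  have Hirr : Irreducible (X ^ p - C (((u : 𝓞 K) : K))) :=
    X_pow_sub_C_irreducible_of_prime hp.out hirr
  have hζ' : (primitiveRoots p K).Nonempty := ⟨ζ, (mem_primitiveRoots hp.out.pos).mpr hζ⟩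
  have : NumberField (X ^ p - C (((u : 𝓞 K) : K)) : K[X]).SplittingField :=
    NumberField.of_module_finite K _
  have : IsSplittingField K (X ^ p - C (((u : 𝓞 K) : K)) : K[X]).SplittingField
      (X ^ p - C (((u : 𝓞 K) : K))) := IsSplittingField.splittingField _
  have : IsGalois K (X ^ p - C (((u : 𝓞 K) : K)) : K[X]).SplittingField :=
    isGalois_of_isSplittingField_X_pow_sub_C hζ' Hirr _
  have : IsCyclic Gal((X ^ p - C (((u : 𝓞 K) : K)) : K[X]).SplittingField/K) :=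
    isCyclic_of_isSplittingField_X_pow_sub_C hζ' Hirr _
  exact false_of_cyclic_of_differentIdeal_eq_top hζ H92 hp2
    (X ^ p - C (((u : 𝓞 K) : K)) : K[X]).SplittingField
    (finrank_of_isSplittingField_X_pow_sub_C hζ' Hirr _)
    (differentIdeal_eq_top_of_kummer hζ hu hirr _)

end Main

end Fermat.Agent.REG

namespace Fermat.Agent.REG

/-- **Kummer's lemma** for `K = ℚ(ζ_p)` with `𝓞 K` a PID, modulo the abstract lemma (D0). -/
theorem kummerLemma_of_pid_of_hilbert92 (H92 : Hilbert92Abstract) (p : ℕ) [hp : Fact p.Prime]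
    (hp2 : p ≠ 2) (K : Type) [Field K] [NumberField K] [IsCyclotomicExtension {p} ℚ K]
    [IsPrincipalIdealRing (𝓞 K)] : KummerLemma p K := by
  have : NeZero p := ⟨hp.out.ne_zero⟩
  have hζ : IsPrimitiveRoot (IsCyclotomicExtension.zeta p ℚ K) p :=
    IsCyclotomicExtension.zeta_spec p ℚ K
  rintro u ⟨n, hn⟩
  set lam : 𝓞 K := hζ.toInteger - 1 with hlam
  have hlamp : lam ∣ (p : 𝓞 K) := by
    have := (IsCyclotomicExtension.Rat.zeta_sub_one_dvd_intCast_iff' p hζ (n := (p : ℤ))).mpr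
      dvd_rfl
    simpa using this
  -- `p ∤ n`
  have hpn : ¬ (p : ℤ) ∣ n := by
    intro h
    have h1 : lam ∣ (n : 𝓞 K) := (IsCyclotomicExtension.Rat.zeta_sub_one_dvd_intCast_iff' p hζ).mpr h
    have h2 : lam ∣ (u : 𝓞 K) := by
      have := dvd_add (hlamp.trans hn) h1
      simpa using this
    exact hζ.zeta_sub_one_prime'.not_isUnit (isUnit_of_dvd_unit h2 u.isUnit)
  have hcop : IsCoprime n (p : ℤ) := by
    rw [isCoprime_comm]
    exact (Nat.prime_iff_prime_int.mp hp.out).irreducible.coprime_iff_not_dvd.mpr hpn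
  have hfermat : (p : ℤ) ∣ n ^ (p - 1) - 1 :=
    (Int.ModEq.pow_card_sub_one_eq_one hp.out hcop).symm.dvd
  -- `u ^ (p - 1) ≡ 1 mod p`
  have h1 : (p : 𝓞 K) ∣ ((u ^ (p - 1) : (𝓞 K)ˣ) : 𝓞 K) - 1 := by
    have h2 : (p : 𝓞 K) ∣ (u : 𝓞 K) ^ (p - 1) - (n : 𝓞 K) ^ (p - 1) :=
      hn.trans (sub_dvd_pow_sub_pow _ _ _)
    have h3 : (p : 𝓞 K) ∣ (n : 𝓞 K) ^ (p - 1) - 1 := by
      have := (Int.castRingHom (𝓞 K)).map_dvd hfermat
      simpa using this
    have := dvd_add h2 h3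
    rw [Units.val_pow_eq_pow_val]
    simpa using this
  obtain ⟨c, hc⟩ := exists_eq_one_add_pow_mul hζ hp2 (u ^ (p - 1)) h1
  obtain ⟨v, hv⟩ := exists_eq_pow_of_eq_one_add_pow_mul hζ H92 hp2 (u ^ (p - 1)) hc
  refine ⟨u * v⁻¹, ?_⟩
  have h4 : u ^ p = u * v ^ p := by
    rw [← hv, ← pow_succ', Nat.sub_add_cancel hp.out.one_le]
  rw [mul_pow, h4, inv_pow, mul_assoc, mul_inv_cancel, mul_one]

end Fermat.Agent.REG
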