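import Mathlib
import Fermat.Agent.REG.Kummer_helper6_Main
import Fermat.Agent.REG.Kummer_helper6_Hilbert92

/-!
# (R3) Kummer's lemma for `ℚ(ζ_p)` with `ℤ[ζ_p]` a PID

If `𝓞 K` is a principal ideal domain (`K = ℚ(ζ_p)`, `p` odd), every unit congruent to a rational
integer modulo `p` is a `p`-th power of a unit.
-/

set_option autoImplicit false

open NumberField

namespace Fermat.Agent.REG

/-- The abstract lemma (D0). -/
theorem hilbert92Abstract : Hilbert92Abstract :=
  fun _ _ _ p r _ s hs hA B hB hrB hBp t ht ht0 htp =>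
    exists_not_coboundary p r s hs hA B hB hrB hBp t ht ht0 htp

/-- **Kummer's lemma** for `K = ℚ(ζ_p)` with `𝓞 K` a principal ideal domain. -/
theorem kummerLemma_of_pid (p : ℕ) [Fact p.Prime] (hp : p ≠ 2) (K : Type) [Field K]
    [NumberField K] [IsCyclotomicExtension {p} ℚ K] [IsPrincipalIdealRing (𝓞 K)] :
    KummerLemma p K :=
  kummerLemma_of_pid_of_hilbert92 hilbert92Abstract p hp K

end Fermat.Agent.REG
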