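import Fermat.Agent.REG.Defs

/-!
# REG (R2): Case II descent (abstract form)
-/

namespace Fermat.Agent.REG

set_option linter.unusedSectionVars false

open Finset Polynomial

/-- The properties of `R = 𝓞 ℚ(ζ_p)` used in Kummer's descent. -/
structure KummerData (R : Type*) [CommRing R] (p : ℕ) (ζ : R) : Prop where
  prime : p.Prime
  ne_two : p ≠ 2
  root : IsPrimitiveRoot ζ p
  pi_prime : Prime (ζ - 1)
  residue : ∀ x : R, ∃ n : ℤ, ζ - 1 ∣ x - n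
  int_dvd : ∀ n : ℤ, ζ - 1 ∣ (n : R) → (p : ℤ) ∣ n
  assoc : Associated ((ζ - 1) ^ (p - 1)) (p : R)
  frob : ∀ x : R, ∃ n : ℤ, (p : R) ∣ x ^ p - n
  kummer : ∀ u : Rˣ, (∃ n : ℤ, (p : R) ∣ (u : R) - n) → ∃ v : Rˣ, u = v ^ p

namespace KummerData

variable {R : Type*} [CommRing R] [IsDomain R] {p : ℕ} {ζ : R} (D : KummerData R p ζ)

include D

theorem odd : Odd p := D.prime.odd_of_ne_two D.ne_two

theorem three_le : 3 ≤ p := by
  have := D.prime.two_le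
  have := D.ne_two
  omega

theorem pi_ne_zero : ζ - 1 ≠ 0 := D.pi_prime.ne_zero

theorem pi_dvd_p : ζ - 1 ∣ (p : R) := by
  have h : ζ - 1 ∣ (ζ - 1) ^ (p - 1) := dvd_pow_self _ (by have := D.three_le; omega)
  exact h.trans D.assoc.dvd

theorem p_dvd_pi_pow : (p : R) ∣ (ζ - 1) ^ p := by
  have h : (ζ - 1) ^ (p - 1) ∣ (ζ - 1) ^ p := pow_dvd_pow _ (Nat.sub_le _ _)
  exact D.assoc.symm.dvd.trans h

theorem pi_dvd_int_iff (n : ℤ) : ζ - 1 ∣ (n : R) ↔ (p : ℤ) ∣ n := by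
  refine ⟨D.int_dvd n, fun h => ?_⟩
  obtain ⟨k, rfl⟩ := h
  push_cast
  exact D.pi_dvd_p.mul_right _

theorem one_mem : (1 : R) ∈ nthRootsFinset p (1 : R) :=
  (mem_nthRootsFinset D.prime.pos 1).mpr (one_pow p)

theorem zeta_mem : ζ ∈ nthRootsFinset p (1 : R) :=
  (mem_nthRootsFinset D.prime.pos 1).mpr D.root.pow_eq_one

theorem zeta_pow_mem (i : ℕ) : ζ ^ i ∈ nthRootsFinset p (1 : R) :=
  (mem_nthRootsFinset D.prime.pos 1).mpr (by rw [← pow_mul, mul_comm, pow_mul, D.root.pow_eq_one, one_pow])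

theorem zeta_ne_one : ζ ≠ 1 := D.root.ne_one D.prime.one_lt

theorem zeta_mul_zeta_pow : ζ * ζ ^ (p - 1) = 1 := by
  rw [← pow_succ', Nat.sub_add_cancel D.prime.pos, D.root.pow_eq_one]

theorem zeta_pow_ne_one : ζ ^ (p - 1) ≠ 1 := by
  intro h
  have := D.zeta_mul_zeta_pow
  rw [h, mul_one] at this
  exact D.zeta_ne_one this

theorem zeta_pow_ne_zeta : ζ ^ (p - 1) ≠ ζ := by
  intro h
  have h1 := D.zeta_mul_zeta_pow
  rw [h, ← pow_two] at h1
  have := D.root.dvd_of_pow_eq_one 2 h1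
  have := Nat.le_of_dvd (by norm_num) this
  have := D.three_le
  omega

theorem isUnit_zeta : IsUnit ζ := D.root.isUnit D.prime.ne_zero

theorem isUnit_one_add_zeta : IsUnit (1 + ζ) := by
  have := D.root.geom_sum_isUnit D.prime.two_le (j := 2)
    ((Nat.coprime_primes Nat.prime_two D.prime).mpr (Ne.symm D.ne_two))
  simpa [Finset.sum_range_succ] using this

/-- Two distinct `p`-th roots of unity differ by an associate of `ζ - 1`. -/
theorem associated_sub {η₁ η₂ : R} (h₁ : η₁ ∈ nthRootsFinset p (1 : R))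
    (h₂ : η₂ ∈ nthRootsFinset p (1 : R)) (hne : η₁ ≠ η₂) : Associated (ζ - 1) (η₁ - η₂) :=
  D.root.nthRootsFinset_pairwise_associated_sub_one_sub_of_prime D.prime h₁ h₂ hne

theorem pi_dvd_sub {η₁ η₂ : R} (h₁ : η₁ ∈ nthRootsFinset p (1 : R))
    (h₂ : η₂ ∈ nthRootsFinset p (1 : R)) : ζ - 1 ∣ η₁ - η₂ :=
  D.root.sub_one_dvd_sub D.prime h₁ h₂

/-- `1 + ζ + ⋯ + ζ^(i-1) ≡ i` modulo `ζ - 1`. -/
theorem pi_dvd_geom_sum_sub (i : ℕ) : ζ - 1 ∣ (∑ k ∈ range i, ζ ^ k) - (i : R) := by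
  have : (∑ k ∈ range i, ζ ^ k) - (i : R) = ∑ k ∈ range i, (ζ ^ k - 1) := by
    rw [Finset.sum_sub_distrib]; simp
  rw [this]
  exact Finset.dvd_sum fun k _ => by simpa using sub_dvd_pow_sub_pow ζ 1 k


variable [IsPrincipalIdealRing R]

/-- Normalisation: some `x + ζ^i y` is divisible by `(ζ - 1)^2`. -/
theorem exists_sq_dvd {x y : R} (hy : ¬ ζ - 1 ∣ y) (hxy : ζ - 1 ∣ x + y) :
    ∃ i : ℕ, (ζ - 1) ^ 2 ∣ x + ζ ^ i * y := by
  obtain ⟨a, ha⟩ := hxy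
  obtain ⟨n₀, hn₀⟩ := D.residue a
  obtain ⟨m₀, hm₀⟩ := D.residue y
  have hpm : ¬ (p : ℤ) ∣ m₀ := by
    intro h
    have h1 : ζ - 1 ∣ (m₀ : R) := (D.pi_dvd_int_iff m₀).mpr h
    exact hy (by simpa using dvd_add hm₀ h1)
  -- find `i` with `p ∣ n₀ + i m₀`
  have hpp : Prime (p : ℤ) := Nat.prime_iff_prime_int.mp D.prime
  have hco : IsCoprime (m₀ : ℤ) (p : ℤ) := (hpp.coprime_iff_not_dvd.mpr hpm).symm
  obtain ⟨u, v, huv⟩ := hco
  -- u * m₀ + v * p = 1;  take i ≡ -n₀ u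
  obtain ⟨i, hi⟩ : ∃ i : ℕ, (p : ℤ) ∣ n₀ + i * m₀ := by
    refine ⟨((-n₀ * u) % p).toNat, ?_⟩
    have hp0 : (0 : ℤ) < p := by exact_mod_cast D.prime.pos
    rw [Int.toNat_of_nonneg (Int.emod_nonneg _ hp0.ne')]
    have h1 : (p : ℤ) ∣ (-n₀ * u) % p - (-n₀ * u) := by
      rw [Int.emod_def]; exact ⟨-(-n₀ * u / p), by ring⟩
    have h2 : n₀ + (-n₀ * u) % p * m₀ = ((-n₀ * u) % p - (-n₀ * u)) * m₀ + n₀ * v * p := by
      linear_combination (-n₀) * huv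
    rw [h2]
    exact dvd_add (h1.mul_right _) (dvd_mul_left _ _)
  refine ⟨i, ?_⟩
  have h3 : x + ζ ^ i * y = (ζ - 1) * (a + (∑ k ∈ range i, ζ ^ k) * y) := by
    have : ζ ^ i - 1 = (ζ - 1) * ∑ k ∈ range i, ζ ^ k := (mul_geom_sum ζ i).symm
    linear_combination ha + y * this
  rw [h3, pow_two]
  refine mul_dvd_mul_left _ ?_
  have h4 : a + (∑ k ∈ range i, ζ ^ k) * y =
      (a - n₀) + ((∑ k ∈ range i, ζ ^ k) - (i : R)) * y + (i : R) * (y - m₀) +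
        ((n₀ + i * m₀ : ℤ) : R) := by
    push_cast; ring
  rw [h4]
  exact dvd_add (dvd_add (dvd_add hn₀ ((D.pi_dvd_geom_sum_sub i).mul_right _))
    (hm₀.mul_left _)) ((D.pi_dvd_int_iff _).mpr hi)


/-- The descent step, under the normalisation `(ζ - 1) ^ 2 ∣ x + y`. -/
theorem descent_step {x y w : R} {ε : Rˣ} (hxy : IsCoprime x y) (hy : ¬ ζ - 1 ∣ y)
    (hw0 : w ≠ 0) (hw : ζ - 1 ∣ w) (h : x ^ p + y ^ p = ε * w ^ p)
    (hsq : (ζ - 1) ^ 2 ∣ x + y) :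
    ∃ (x' y' w' : R) (ε' : Rˣ), IsCoprime x' y' ∧ ¬ ζ - 1 ∣ y' ∧ w' ≠ 0 ∧ ζ - 1 ∣ w' ∧
      x' ^ p + y' ^ p = ε' * w' ^ p ∧ DvdNotUnit w' w := by
  classical
  have hpp : Prime (p : ℤ) := Nat.prime_iff_prime_int.mp D.prime
  have hp0 : p ≠ 0 := D.prime.ne_zero
  have hπ0 : ζ - 1 ≠ 0 := D.pi_ne_zero
  have hπu : ¬ IsUnit (ζ - 1) := D.pi_prime.not_isUnit
  set S := nthRootsFinset p (1 : R) with hS
  have hcard : S.card = p := D.root.card_nthRootsFinset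
  -- 1. all factors divisible by π
  have hdiv : ∀ η ∈ S, ∃ c, x + η * y = (ζ - 1) * c := by
    intro η hη
    have h1 : ζ - 1 ∣ x + y := (dvd_pow_self (ζ - 1) two_ne_zero).trans hsq
    have h2 : ζ - 1 ∣ η - 1 := D.pi_dvd_sub hη D.one_mem
    have : x + η * y = (x + y) + (η - 1) * y := by ring
    rw [this]
    exact dvd_add h1 (h2.mul_right _)
  choose! c hc using hdiv
  obtain ⟨t, ht⟩ := hsq
  have hc1 : c 1 = (ζ - 1) * t := by
    have := hc 1 D.one_mem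
    rw [one_mul, ht, pow_two, mul_assoc] at this
    exact (mul_left_cancel₀ hπ0 this).symm
  -- 3. π ∤ c η for η ≠ 1
  have hnd : ∀ η ∈ S, η ≠ 1 → ¬ ζ - 1 ∣ c η := by
    intro η hη hne hd
    obtain ⟨u, hu⟩ := D.associated_sub hη D.one_mem hne
    have h3 : c η = (ζ - 1) * t + u * y := by
      apply mul_left_cancel₀ hπ0
      rw [← hc η hη]
      have : x + η * y = (x + y) + (η - 1) * y := by ring
      rw [this, ht, ← hu]; ring
    rw [h3] at hd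
    have : ζ - 1 ∣ ↑u * y := (dvd_add_right (dvd_mul_right (ζ - 1) t)).mp hd
    rcases D.pi_prime.dvd_or_dvd this with h4 | h4
    · exact hπu (isUnit_of_dvd_unit h4 u.isUnit)
    · exact hy h4
  -- 4. pairwise coprime
  have hy0 : y ≠ 0 := fun h0 => hy (h0 ▸ dvd_zero _)
  have hcop : ∀ η₁ ∈ S, ∀ η₂ ∈ S, η₁ ≠ η₂ → IsCoprime (c η₁) (c η₂) := by
    intro η₁ h₁ η₂ h₂ hne
    obtain ⟨u, hu⟩ := D.associated_sub h₁ h₂ hne
    have e1 : c η₁ - c η₂ = u * y := by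
      apply mul_left_cancel₀ hπ0
      rw [mul_sub, ← hc η₁ h₁, ← hc η₂ h₂, ← mul_assoc, hu]; ring
    have e2 : η₁ * c η₂ - η₂ * c η₁ = u * x := by
      apply mul_left_cancel₀ hπ0
      have : (ζ - 1) * (η₁ * c η₂ - η₂ * c η₁) =
          η₁ * ((ζ - 1) * c η₂) - η₂ * ((ζ - 1) * c η₁) := by ring
      rw [this, ← hc η₁ h₁, ← hc η₂ h₂, ← mul_assoc, hu]; ring
    apply isCoprime_of_prime_dvd
    · rintro ⟨h0, h0'⟩
      rw [h0, h0', sub_zero] at e1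
      exact hy0 ((mul_eq_zero.mp e1.symm).resolve_left u.ne_zero)
    intro r hr hr1 hr2
    have hry : r ∣ y := by
      have : r ∣ ↑u * y := e1 ▸ dvd_sub hr1 hr2
      exact (hr.dvd_or_dvd this).resolve_left
        (fun h => hr.not_isUnit (isUnit_of_dvd_unit h u.isUnit))
    have hrx : r ∣ x := by
      have : r ∣ ↑u * x := e2 ▸ dvd_sub (hr2.mul_left _) (hr1.mul_left _)
      exact (hr.dvd_or_dvd this).resolve_left
        (fun h => hr.not_isUnit (isUnit_of_dvd_unit h u.isUnit))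
    exact hr.not_isUnit (hxy.isUnit_of_dvd' hrx hry)
  -- 5. the product
  obtain ⟨w₁, hw₁⟩ := hw
  have hw₁0 : w₁ ≠ 0 := by
    rintro rfl
    exact hw0 (by rw [hw₁, mul_zero])
  have hprod : ∏ η ∈ S, c η = ε * w₁ ^ p := by
    have h1 : ∏ η ∈ S, (x + η * y) = x ^ p + y ^ p :=
      (D.root.pow_add_pow_eq_prod_add_mul x y D.odd).symm
    have h2 : ∏ η ∈ S, (x + η * y) = (ζ - 1) ^ p * ∏ η ∈ S, c η := by
      rw [Finset.prod_congr rfl hc, Finset.prod_mul_distrib, Finset.prod_const, hcard]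
    have h3 : (ζ - 1) ^ p * ∏ η ∈ S, c η = (ζ - 1) ^ p * (ε * w₁ ^ p) := by
      rw [← h2, h1, h, hw₁, mul_pow]; ring
    exact mul_left_cancel₀ (pow_ne_zero _ hπ0) h3
  -- 6. every `c η` is associated to a `p`-th power
  have hpow : ∀ η ∈ S, ∃ d : R, Associated (d ^ p) (c η) := by
    intro η hη
    have hco : IsCoprime (c η) (∏ η' ∈ S.erase η, c η') :=
      IsCoprime.prod_right fun η' hη' =>
        hcop η hη η' (Finset.mem_of_mem_erase hη') (Finset.ne_of_mem_erase hη').symm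
    have : Associated (w₁ ^ p) (c η * ∏ η' ∈ S.erase η, c η') := by
      rw [Finset.mul_prod_erase S c hη, hprod]
      exact ⟨ε, by rw [mul_comm]⟩
    exact exists_associated_pow_of_associated_pow_mul hco this
  obtain ⟨ρ₀, ⟨ε₀, h₀⟩⟩ := hpow 1 D.one_mem
  obtain ⟨ρ₁, ⟨ε₁, h₁⟩⟩ := hpow ζ D.zeta_mem
  obtain ⟨ρ₂, ⟨ε₂, h₂⟩⟩ := hpow (ζ ^ (p - 1)) (D.zeta_pow_mem _)
  -- 8. the linear relation
  have hrel : c ζ + ζ * c (ζ ^ (p - 1)) = (1 + ζ) * c 1 := by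
    apply mul_left_cancel₀ hπ0
    have e := D.zeta_mul_zeta_pow
    calc (ζ - 1) * (c ζ + ζ * c (ζ ^ (p - 1)))
        = (ζ - 1) * c ζ + ζ * ((ζ - 1) * c (ζ ^ (p - 1))) := by ring
      _ = (x + ζ * y) + ζ * (x + ζ ^ (p - 1) * y) := by
          rw [← hc ζ D.zeta_mem, ← hc _ (D.zeta_pow_mem _)]
      _ = (1 + ζ) * (x + 1 * y) := by linear_combination y * e
      _ = (ζ - 1) * ((1 + ζ) * c 1) := by rw [hc 1 D.one_mem]; ring
  -- 9. units
  set uζ : Rˣ := D.isUnit_zeta.unit with huζ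
  set u1ζ : Rˣ := D.isUnit_one_add_zeta.unit with hu1ζ
  set η : Rˣ := ε₁⁻¹ * uζ * ε₂ with hη
  set η' : Rˣ := ε₁⁻¹ * u1ζ * ε₀ with hη'
  have heq : ρ₁ ^ p + (η : R) * ρ₂ ^ p = (η' : R) * ρ₀ ^ p := by
    have hinv : (ε₁ : R) * ((ε₁⁻¹ : Rˣ) : R) = 1 := by simp
    have : (ε₁ : R) * (ρ₁ ^ p + (η : R) * ρ₂ ^ p) = (ε₁ : R) * ((η' : R) * ρ₀ ^ p) := by
      simp only [hη, hη', huζ, hu1ζ, Units.val_mul, IsUnit.unit_spec]
      rw [← h₀, ← h₁, ← h₂] at hrel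
      linear_combination hrel + (ζ * ε₂ * ρ₂ ^ p - (1 + ζ) * ε₀ * ρ₀ ^ p) * hinv
    exact mul_left_cancel₀ ε₁.ne_zero this
  -- 10. divisibility facts
  have hπρ₀ : ζ - 1 ∣ ρ₀ := by
    have : ζ - 1 ∣ ρ₀ ^ p * ε₀ := by rw [h₀, hc1]; exact dvd_mul_right _ _
    have := (Units.dvd_mul_right).mp this
    exact D.pi_prime.dvd_of_dvd_pow this
  have hπρ₂ : ¬ ζ - 1 ∣ ρ₂ := by
    intro hd
    apply hnd _ (D.zeta_pow_mem (p - 1)) D.zeta_pow_ne_one
    rw [← h₂]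
    exact (hd.trans (dvd_pow_self _ hp0)).mul_right _
  have hc10 : c 1 ≠ 0 := by
    intro h0
    have : ∏ η ∈ S, c η = 0 := Finset.prod_eq_zero D.one_mem h0
    rw [hprod] at this
    exact hw₁0 (pow_eq_zero_iff hp0 |>.mp ((mul_eq_zero.mp this).resolve_left ε.ne_zero))
  have hρ₀0 : ρ₀ ≠ 0 := by
    rintro rfl
    rw [zero_pow hp0, zero_mul] at h₀
    exact hc10 h₀.symm
  -- 11. η is congruent to an integer mod p
  have hηint : ∃ n : ℤ, (p : R) ∣ (η : R) - n := by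
    have hp1 : (p : R) ∣ ρ₁ ^ p + (η : R) * ρ₂ ^ p := by
      rw [heq]
      obtain ⟨s, rfl⟩ := hπρ₀
      rw [mul_pow]
      exact (D.p_dvd_pi_pow.mul_right _).mul_left _
    obtain ⟨n₁, hn₁⟩ := D.frob ρ₁
    obtain ⟨n₂, hn₂⟩ := D.frob ρ₂
    have hpn₂ : ¬ (p : ℤ) ∣ n₂ := by
      intro hd
      have h1 : (p : R) ∣ (n₂ : R) := by
        obtain ⟨k, rfl⟩ := hd
        push_cast
        exact dvd_mul_right _ _
      have h2 : (p : R) ∣ ρ₂ ^ p := by simpa using dvd_add hn₂ h1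
      exact hπρ₂ (D.pi_prime.dvd_of_dvd_pow (D.pi_dvd_p.trans h2))
    obtain ⟨a, b, hab⟩ := (hpp.coprime_iff_not_dvd.mpr hpn₂).symm
    refine ⟨-(n₁ * a), ?_⟩
    have hab' : (a : R) * n₂ + b * p = 1 := by
      have := congrArg (Int.cast : ℤ → R) hab
      push_cast at this
      exact this
    have key : (η : R) - ((-(n₁ * a) : ℤ) : R) =
        a * ((ρ₁ ^ p + η * ρ₂ ^ p) - (ρ₁ ^ p - n₁) - η * (ρ₂ ^ p - n₂)) + η * b * p := by
      push_cast
      linear_combination (-(η : R)) * hab'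
    rw [key]
    exact dvd_add (Dvd.dvd.mul_left (dvd_sub (dvd_sub hp1 hn₁) (hn₂.mul_left _)) _)
      (dvd_mul_left _ _)
  -- 12. Kummer's lemma
  obtain ⟨v, hv⟩ := D.kummer η hηint
  refine ⟨ρ₁, v * ρ₂, ρ₀, η', ?_, ?_, hρ₀0, hπρ₀, ?_, hρ₀0, ?_⟩
  · have h3 := hcop ζ D.zeta_mem (ζ ^ (p - 1)) (D.zeta_pow_mem _) (Ne.symm D.zeta_pow_ne_zeta)
    rw [← h₁, ← h₂] at h3
    have h4 : IsCoprime (ρ₁ ^ p) (ρ₂ ^ p) :=
      (isCoprime_mul_unit_right_left ε₁.isUnit _ _).mp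
        ((isCoprime_mul_unit_right_right ε₂.isUnit _ _).mp h3)
    have h5 : IsCoprime ρ₁ ρ₂ := (IsCoprime.pow_iff D.prime.pos D.prime.pos).mp h4
    exact (isCoprime_mul_unit_left_right v.isUnit _ _).mpr h5
  · intro hd
    exact hπρ₂ ((Units.dvd_mul_left).mp hd)
  · rw [mul_pow, ← heq, hv]
    push_cast
    ring
  · -- `ρ₀ ∣ w₁`
    have h5 : ρ₀ ^ p ∣ w₁ ^ p := by
      have h6 : ρ₀ ^ p ∣ c 1 := ⟨ε₀, h₀.symm⟩
      have h7 : c 1 ∣ ε * w₁ ^ p := hprod ▸ Finset.dvd_prod_of_mem c D.one_mem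
      exact (Units.dvd_mul_left).mp (h6.trans h7)
    obtain ⟨s, hs⟩ := (IsIntegrallyClosed.pow_dvd_pow_iff hp0).mp h5
    refine ⟨(ζ - 1) * s, ?_, ?_⟩
    · intro hu
      exact hπu (isUnit_of_dvd_unit (dvd_mul_right _ _) hu)
    · rw [hw₁, hs]; ring

/-- There is no solution of the Case II equation. -/
theorem no_solution : ∀ w : R, w ≠ 0 → ζ - 1 ∣ w → ∀ (x y : R) (ε : Rˣ), IsCoprime x y →
    ¬ ζ - 1 ∣ y → x ^ p + y ^ p = ε * w ^ p → False := by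
  intro w
  induction w using (wellFounded_dvdNotUnit (α := R)).induction with
  | _ w ih =>
    intro hw0 hw x y ε hxy hy h
    -- normalise
    have h1 : ζ - 1 ∣ x + y := by
      have hprod := D.root.pow_add_pow_eq_prod_add_mul x y D.odd
      have : ζ - 1 ∣ ∏ η ∈ nthRootsFinset p (1 : R), (x + η * y) := by
        rw [← hprod, h]
        exact (hw.trans (dvd_pow_self _ D.prime.ne_zero)).mul_left _
      obtain ⟨η, hη, hd⟩ := (D.pi_prime.dvd_finsetProd_iff _).mp this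
      have h2 : ζ - 1 ∣ η - 1 := D.pi_dvd_sub hη D.one_mem
      have : x + y = (x + η * y) - (η - 1) * y := by ring
      rw [this]
      exact dvd_sub hd (h2.mul_right _)
    obtain ⟨i, hi⟩ := D.exists_sq_dvd hy h1
    have hu : IsUnit (ζ ^ i) := D.isUnit_zeta.pow i
    have hxy' : IsCoprime x (ζ ^ i * y) := (isCoprime_mul_unit_left_right hu _ _).mpr hxy
    have hy' : ¬ ζ - 1 ∣ ζ ^ i * y := fun hd => hy ((hu.dvd_mul_left).mp hd)
    have h' : x ^ p + (ζ ^ i * y) ^ p = ε * w ^ p := by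
      rw [mul_pow, ← pow_mul, mul_comm i p, pow_mul, D.root.pow_eq_one, one_pow, one_mul, h]
    obtain ⟨x', y', w', ε', hc', hy'', hw'0, hw', heq', hlt⟩ :=
      D.descent_step hxy' hy' hw0 hw h' hi
    exact ih w' hlt hw'0 hw' x' y' ε' hc' hy'' heq'


/-- Case II of Fermat's Last Theorem (abstract form). -/
theorem caseII [CharZero R] {a b c : ℤ} (hab : IsCoprime a b) (hc : (p : ℤ) ∣ c) (hc0 : c ≠ 0)
    (hb : ¬ (p : ℤ) ∣ b) (h : a ^ p + b ^ p = c ^ p) : False := by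
  refine D.no_solution (c : R) (by exact_mod_cast hc0) ((D.pi_dvd_int_iff c).mpr hc)
    (a : R) (b : R) 1 hab.intCast (fun hd => hb ((D.pi_dvd_int_iff b).mp hd)) ?_
  rw [Units.val_one, one_mul]
  exact_mod_cast h

end KummerData

section Instance

open NumberField IsCyclotomicExtension.Rat

variable {p : ℕ} [hpri : Fact p.Prime] {K : Type*} [Field K] [NumberField K]
  [hcyc : IsCyclotomicExtension {p} ℚ K] {ζ : K} (hζ : IsPrimitiveRoot ζ p)

include hζ in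
/-- Every element of `𝓞 K` is congruent to a rational integer modulo `ζ - 1`. -/
theorem exists_int_zeta_sub_one_dvd_sub (x : 𝓞 K) : ∃ n : ℤ, hζ.toInteger - 1 ∣ x - n := by
  have hx : x ∈ Algebra.adjoin ℤ {hζ.toInteger} := by
    rw [IsCyclotomicExtension.Rat.adjoin_singleton_eq_top hζ]; trivial
  induction hx using Algebra.adjoin_induction with
  | mem x hx =>
    rw [Set.mem_singleton_iff] at hx
    exact ⟨1, by rw [hx]; simp⟩
  | algebraMap r => exact ⟨r, by simp⟩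
  | add x y _ _ hx hy =>
    obtain ⟨n, hn⟩ := hx
    obtain ⟨m, hm⟩ := hy
    refine ⟨n + m, ?_⟩
    have : x + y - ((n + m : ℤ) : 𝓞 K) = (x - n) + (y - m) := by push_cast; ring
    rw [this]
    exact dvd_add hn hm
  | mul x y _ _ hx hy =>
    obtain ⟨n, hn⟩ := hx
    obtain ⟨m, hm⟩ := hy
    refine ⟨n * m, ?_⟩
    have : x * y - ((n * m : ℤ) : 𝓞 K) = (x - n) * y + n * (y - m) := by push_cast; ring
    rw [this]
    exact dvd_add (hn.mul_right _) (hm.mul_left _)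

include hζ in
/-- `x ^ p` is congruent to a rational integer modulo `p`. -/
theorem exists_int_prime_dvd_pow_sub (x : 𝓞 K) : ∃ n : ℤ, (p : 𝓞 K) ∣ x ^ p - n := by
  have hx : x ∈ Algebra.adjoin ℤ {hζ.toInteger} := by
    rw [IsCyclotomicExtension.Rat.adjoin_singleton_eq_top hζ]; trivial
  induction hx using Algebra.adjoin_induction with
  | mem x hx =>
    rw [Set.mem_singleton_iff] at hx
    refine ⟨1, ?_⟩
    rw [hx, hζ.toInteger_isPrimitiveRoot.pow_eq_one]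
    simp
  | algebraMap r => exact ⟨r ^ p, by simp⟩
  | add x y _ _ hx hy =>
    obtain ⟨n, hn⟩ := hx
    obtain ⟨m, hm⟩ := hy
    refine ⟨n + m, ?_⟩
    rw [add_pow_prime_eq hpri.out]
    have : x ^ p + y ^ p + (p : 𝓞 K) * x * y *
          ∑ k ∈ Finset.Ioo 0 p, x ^ (k - 1) * y ^ (p - k - 1) * ((p.choose k / p : ℕ) : 𝓞 K) -
        ((n + m : ℤ) : 𝓞 K) = (x ^ p - n) + (y ^ p - m) + (p : 𝓞 K) * (x * y *
          ∑ k ∈ Finset.Ioo 0 p, x ^ (k - 1) * y ^ (p - k - 1) * ((p.choose k / p : ℕ) : 𝓞 K)) := by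
      push_cast; ring
    rw [this]
    exact dvd_add (dvd_add hn hm) (dvd_mul_right _ _)
  | mul x y _ _ hx hy =>
    obtain ⟨n, hn⟩ := hx
    obtain ⟨m, hm⟩ := hy
    refine ⟨n * m, ?_⟩
    have : (x * y) ^ p - ((n * m : ℤ) : 𝓞 K) = (x ^ p - n) * y ^ p + n * (y ^ p - m) := by
      push_cast; ring
    rw [this]
    exact dvd_add (hn.mul_right _) (hm.mul_left _)

include hζ in
theorem kummerData (hp : p ≠ 2) (hK : KummerLemma p K) : KummerData (𝓞 K) p hζ.toInteger where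
  prime := hpri.out
  ne_two := hp
  root := hζ.toInteger_isPrimitiveRoot
  pi_prime := hζ.zeta_sub_one_prime'
  residue := exists_int_zeta_sub_one_dvd_sub hζ
  int_dvd := fun n hn => (zeta_sub_one_dvd_intCast_iff' p hζ).mp hn
  assoc := associated_zeta_sub_one_pow_prime p hζ
  frob := exists_int_prime_dvd_pow_sub hζ
  kummer := hK

end Instance

section Final

open NumberField

theorem not_prime_dvd_two_of_gcd_eq_one {a b c : ℤ} {n : ℕ} (hn : n ≠ 0)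
    (hgcd : Finset.gcd {a, b, c} id = 1) (h : a ^ n + b ^ n = c ^ n) {r : ℤ} (hr : Prime r) :
    ¬ (r ∣ a ∧ r ∣ b) ∧ ¬ (r ∣ a ∧ r ∣ c) ∧ ¬ (r ∣ b ∧ r ∣ c) := by
  have key : ¬ (r ∣ a ∧ r ∣ b ∧ r ∣ c) := by
    rintro ⟨ha, hb, hc⟩
    have : r ∣ Finset.gcd {a, b, c} id := by
      apply Finset.dvd_gcd
      intro x hx
      simp only [Finset.mem_insert, Finset.mem_singleton] at hx
      rcases hx with rfl | rfl | rfl <;> assumption
    rw [hgcd] at this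
    exact hr.not_isUnit (isUnit_of_dvd_one this)
  refine ⟨fun ⟨ha, hb⟩ => key ⟨ha, hb, ?_⟩, fun ⟨ha, hc⟩ => key ⟨ha, ?_, hc⟩,
    fun ⟨hb, hc⟩ => key ⟨?_, hb, hc⟩⟩
  · apply hr.dvd_of_dvd_pow (n := n)
    rw [← h]
    exact dvd_add (ha.trans (dvd_pow_self _ hn)) (hb.trans (dvd_pow_self _ hn))
  · apply hr.dvd_of_dvd_pow (n := n)
    have : b ^ n = c ^ n - a ^ n := by linear_combination h
    rw [this]
    exact dvd_sub (hc.trans (dvd_pow_self _ hn)) (ha.trans (dvd_pow_self _ hn))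
  · apply hr.dvd_of_dvd_pow (n := n)
    have : a ^ n = c ^ n - b ^ n := by linear_combination h
    rw [this]
    exact dvd_sub (hc.trans (dvd_pow_self _ hn)) (hb.trans (dvd_pow_self _ hn))

/-- **Kummer's theorem** for a prime `p` such that `ℤ[ζ_p]` is a PID, given Case I and
Kummer's lemma. -/
theorem fermatLastTheoremFor_of_caseI_of_kummerLemma (p : ℕ) [hpri : Fact p.Prime] (hp : p ≠ 2)
    (K : Type*) [Field K] [NumberField K] [IsCyclotomicExtension {p} ℚ K]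
    [IsPrincipalIdealRing (𝓞 K)] (h1 : CaseI p) (h2 : KummerLemma p K) :
    FermatLastTheoremFor p := by
  have hpP : p.Prime := hpri.out
  have hpp : Prime (p : ℤ) := Nat.prime_iff_prime_int.mp hpP
  have hodd : Odd p := hpP.odd_of_ne_two hp
  rw [fermatLastTheoremFor_iff_int]
  apply fermatLastTheoremWith_of_fermatLastTheoremWith_coprime
  intro a b c ha hb hc hgcd habc
  obtain ⟨ζ, hζ⟩ := IsCyclotomicExtension.exists_isPrimitiveRoot ℚ K (Set.mem_singleton p)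
    hpP.ne_zero
  have D := kummerData hζ hp h2
  have hno := fun (r : ℤ) (hr : Prime r) =>
    not_prime_dvd_two_of_gcd_eq_one hpP.ne_zero hgcd habc hr
  have hab : IsCoprime a b :=
    isCoprime_of_prime_dvd (fun h => ha h.1) fun r hr h1 h2 => (hno r hr).1 ⟨h1, h2⟩
  have hac : IsCoprime a c :=
    isCoprime_of_prime_dvd (fun h => ha h.1) fun r hr h1 h2 => (hno r hr).2.1 ⟨h1, h2⟩
  have hbc : IsCoprime b c :=
    isCoprime_of_prime_dvd (fun h => hb h.1) fun r hr h1 h2 => (hno r hr).2.2 ⟨h1, h2⟩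
  have hdvd := h1 a b c habc
  rcases hpp.dvd_or_dvd hdvd with h3 | h3
  · rcases hpp.dvd_or_dvd h3 with h4 | h4
    · -- `p ∣ a`
      have hpb : ¬ (p : ℤ) ∣ -b := fun h => (hno p hpp).1 ⟨h4, dvd_neg.mp h⟩
      refine D.caseII (a := c) (b := -b) (c := a) hbc.symm.neg_right h4 ha hpb ?_
      rw [hodd.neg_pow]; linear_combination -habc
    · -- `p ∣ b`
      have hpa : ¬ (p : ℤ) ∣ -a := fun h => (hno p hpp).1 ⟨dvd_neg.mp h, h4⟩
      refine D.caseII (a := c) (b := -a) (c := b) hac.symm.neg_right h4 hb hpa ?_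
      rw [hodd.neg_pow]; linear_combination -habc
  · -- `p ∣ c`
    have hpb : ¬ (p : ℤ) ∣ b := fun h => (hno p hpp).2.2 ⟨h, h3⟩
    exact D.caseII hab h3 hc hpb habc

end Final

end Fermat.Agent.REG
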