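import Fermat.Agent.REG.Defs

/-!
# REG (R4): tools for proving that `𝓞 ℚ(ζ_p)` is a PID
-/

namespace Fermat.Agent.REG

open NumberField Ideal Finset Polynomial IsCyclotomicExtension.Rat

theorem eq_of_prime_dvd_pow {q f r : ℕ} (hq : q.Prime) (hr : r.Prime) (h : r ∣ q ^ f) : r = q :=
  (Nat.prime_dvd_prime_iff_eq hr hq).mp (hr.dvd_of_dvd_pow h)

section Tools

variable {p : ℕ} [hpri : Fact p.Prime] {K : Type*} [Field K] [NumberField K]
  [hcyc : IsCyclotomicExtension {p} ℚ K] {ζ : K} (hζ : IsPrimitiveRoot ζ p)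

include hζ in
theorem aeval_minpoly_toInteger_eq_zero {A : Type*} [CommRing A] (y : A)
    (hy : ∑ i ∈ range p, y ^ i = 0) :
    aeval y (minpoly ℤ hζ.integralPowerBasis.gen) = 0 := by
  have hco : ((hζ.toInteger : 𝓞 K) : K) = ζ := rfl
  rw [hζ.integralPowerBasis_gen, ← RingOfIntegers.minpoly_coe, hco,
    ← cyclotomic_eq_minpoly hζ hpri.out.pos, cyclotomic_prime ℤ p]
  simpa [map_sum] using hy

/-- The ring homomorphism `𝓞 K → A` with `ζ ↦ y`, for `y` a root of `1 + X + ⋯ + X^(p-1)`. -/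
noncomputable def zetaHom {A : Type*} [CommRing A] (y : A) (hy : ∑ i ∈ range p, y ^ i = 0) :
    𝓞 K →+* A :=
  (hζ.integralPowerBasis.lift y (aeval_minpoly_toInteger_eq_zero hζ y hy)).toRingHom

theorem zetaHom_zeta {A : Type*} [CommRing A] (y : A) (hy : ∑ i ∈ range p, y ^ i = 0) :
    zetaHom hζ y hy hζ.toInteger = y := by
  have := hζ.integralPowerBasis.lift_gen y (aeval_minpoly_toInteger_eq_zero hζ y hy)
  rw [hζ.integralPowerBasis_gen] at this
  exact this

include hζ in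
/-- Certificate for a principal prime of degree one over `q`. -/
theorem exists_principal_of_cert (q : ℕ) [hq : Fact q.Prime] (r : ℤ)
    (hr : ∑ i ∈ range p, (r : ZMod q) ^ i = 0) (α β γ : 𝓞 K)
    (h1 : α * β = (q : 𝓞 K)) (h2 : α * γ = hζ.toInteger - (r : 𝓞 K))
    (h3 : ∀ φ : 𝓞 K →+* ZMod q, φ hζ.toInteger = (r : ZMod q) → φ α = 0) :
    ∃ P ∈ primesOver (span {(q : ℤ)}) (𝓞 K), Submodule.IsPrincipal P := by
  set φ := zetaHom hζ (r : ZMod q) hr with hφ
  have hφζ : φ hζ.toInteger = (r : ZMod q) := zetaHom_zeta hζ _ hr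
  have hφα : φ α = 0 := h3 φ hφζ
  -- every element is congruent to an integer modulo `α`
  have hcong : ∀ x : 𝓞 K, ∃ n : ℤ, α ∣ x - n := by
    intro x
    have hx : x ∈ Algebra.adjoin ℤ {hζ.toInteger} := by
      rw [IsCyclotomicExtension.Rat.adjoin_singleton_eq_top hζ]; trivial
    induction hx using Algebra.adjoin_induction with
    | mem x hx =>
      rw [Set.mem_singleton_iff] at hx
      exact ⟨r, by rw [hx, ← h2]; exact dvd_mul_right _ _⟩
    | algebraMap n => exact ⟨n, by simp⟩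
    | add x y _ _ hx hy =>
      obtain ⟨n, hn⟩ := hx
      obtain ⟨m, hm⟩ := hy
      refine ⟨n + m, ?_⟩
      have : x + y - ((n + m : ℤ) : 𝓞 K) = (x - n) + (y - m) := by push_cast; ring
      rw [this]
      exact dvd_add hn hm
    | mul x y _ _ hx hy =>
      obtain ⟨n, hn⟩ := hx
      obtain ⟨m, hm⟩ := hy
      refine ⟨n * m, ?_⟩
      have : x * y - ((n * m : ℤ) : 𝓞 K) = (x - n) * y + n * (y - m) := by push_cast; ring
      rw [this]
      exact dvd_add (hn.mul_right _) (hm.mul_left _)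
  have hker : RingHom.ker φ = span {α} := by
    apply le_antisymm
    · intro x hx
      rw [RingHom.mem_ker] at hx
      obtain ⟨n, hn⟩ := hcong x
      rw [mem_span_singleton]
      have hφn : φ (n : 𝓞 K) = 0 := by
        obtain ⟨c, hc⟩ := hn
        have : (n : 𝓞 K) = x - α * c := by rw [← hc]; ring
        rw [this, map_sub, map_mul, hx, hφα]; simp
      rw [map_intCast, ZMod.intCast_zmod_eq_zero_iff_dvd] at hφn
      obtain ⟨k, rfl⟩ := hφn
      have : x = (x - ((q * k : ℤ) : 𝓞 K)) + α * (β * k) := by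
        push_cast; rw [← mul_assoc, h1]; ring
      rw [this]
      exact dvd_add hn (dvd_mul_right _ _)
    · rw [span_le, Set.singleton_subset_iff]
      exact hφα
  refine ⟨span {α}, ⟨?_, ?_⟩, ⟨α, rfl⟩⟩
  · rw [← hker]; exact RingHom.ker_isPrime φ
  · -- lies over `q`
    rw [liesOver_iff, ← hker]
    have hqmax : (span {(q : ℤ)}).IsMaximal :=
      (Ideal.span_singleton_prime (by exact_mod_cast hq.out.ne_zero)).mpr
        (Nat.prime_iff_prime_int.mp hq.out) |>.isMaximal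
          (by simpa using hq.out.ne_zero)
    refine hqmax.eq_of_le ?_ ?_
    · rw [Ne, Ideal.eq_top_iff_one, Ideal.under_def, Ideal.mem_comap, RingHom.mem_ker]
      simp
    · rw [span_le, Set.singleton_subset_iff]
      simp [Ideal.under_def, RingHom.mem_ker]


open Module InfinitePlace Nat Real in
/-- The Minkowski-bound criterion, specialised to `ℚ(ζ_p)`: only prime powers `q ^ f ≡ 1 mod p`
below the bound matter, and one principal prime above each such `q` suffices. -/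
theorem pid_of_bound (p : ℕ) [hpri : Fact p.Prime] (K : Type*) [Field K] [NumberField K]
    [hcyc : IsCyclotomicExtension {p} ℚ K] (B : ℕ)
    (hB : (4 / π) ^ nrComplexPlaces K *
      ((finrank ℚ K)! / (finrank ℚ K) ^ (finrank ℚ K) * √|discr K|) < B + 1)
    (h : ∀ q : ℕ, q.Prime → q ≠ p → ∀ f : ℕ, 0 < f → q ^ f % p = 1 → q ^ f ≤ B →
      ∃ P ∈ primesOver (span {(q : ℤ)}) (𝓞 K), Submodule.IsPrincipal P) :
    IsPrincipalIdealRing (𝓞 K) := by
  have : IsGalois ℚ K := IsCyclotomicExtension.isGalois {p} ℚ K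
  have hpP := hpri.out
  haveI : NeZero p := ⟨hpP.ne_zero⟩
  apply RingOfIntegers.isPrincipalIdealRing_of_isPrincipal_of_lt_or_isPrincipal_of_mem_primesOver_of_mem_Icc
  intro q _ hqP
  have hfloor : ⌊(4 / π) ^ nrComplexPlaces K *
      ((finrank ℚ K)! / (finrank ℚ K) ^ (finrank ℚ K) * √|discr K|)⌋₊ ≤ B :=
    Nat.le_of_lt_succ ((Nat.floor_lt' (by omega)).mpr (by exact_mod_cast hB))
  by_cases hqp : q = p
  · subst hqp
    obtain ⟨ζ, hζ⟩ := IsCyclotomicExtension.exists_isPrimitiveRoot ℚ K (Set.mem_singleton q)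
      hpP.ne_zero
    refine ⟨span {hζ.toInteger - 1}, ⟨isPrime_span_zeta_sub_one' q hζ, ?_⟩, Or.inr ⟨_, rfl⟩⟩
    have hK' : IsCyclotomicExtension {q ^ (0 + 1)} ℚ K := by rw [zero_add, pow_one]; exact hcyc
    have hζ' : IsPrimitiveRoot ζ (q ^ (0 + 1)) := by rw [zero_add, pow_one]; exact hζ
    exact liesOver_span_zeta_sub_one q 0 hζ'
  · haveI : Fact q.Prime := ⟨hqP⟩
    obtain ⟨⟨P, hP1, hP2⟩⟩ := (span {(q : ℤ)}).nonempty_primesOver (S := 𝓞 K)
    have hqndvd : ¬ q ∣ p := fun hd => hqp ((Nat.prime_dvd_prime_iff_eq hqP hpP).mp hd)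
    have hf := inertiaDeg_eq_of_not_dvd q K P (m := p) hqndvd
    have hq0 : (q : ZMod p) ≠ 0 := by
      rw [Ne, ZMod.natCast_eq_zero_iff]
      exact fun hd => hqp ((Nat.prime_dvd_prime_iff_eq hpP hqP).mp hd).symm
    have hfpos : 0 < orderOf (q : ZMod p) := by
      rw [orderOf_pos_iff, isOfFinOrder_iff_pow_eq_one]
      exact ⟨p - 1, Nat.sub_pos_of_lt hpP.one_lt, ZMod.pow_card_sub_one_eq_one hq0⟩
    have hmod : q ^ orderOf (q : ZMod p) % p = 1 := by
      have h1 := pow_orderOf_eq_one (q : ZMod p)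
      have h2 : ((q ^ orderOf (q : ZMod p) : ℕ) : ZMod p) = ((1 : ℕ) : ZMod p) := by
        push_cast; exact h1
      rw [ZMod.natCast_eq_natCast_iff'] at h2
      rw [h2, Nat.mod_eq_of_lt hpP.one_lt]
    by_cases hle : q ^ orderOf (q : ZMod p) ≤ B
    · obtain ⟨P', hP', hpr⟩ := h q hqP hqp _ hfpos hmod hle
      exact ⟨P', hP', Or.inr hpr⟩
    · refine ⟨P, ⟨hP1, hP2⟩, Or.inl ?_⟩
      rw [hf]
      omega

end Tools

end Fermat.Agent.REG
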